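/-
CELL-S / GATE-S hedge, node [INST²](a), ABSTRACT half (helper16): the place reduction map of a
function field with TWO Gauss valuations whose special fibre is a nodal glueing of two curves.

This is the pair version of `GJ/S37/LSpaceRed.lean` (one valuation, smooth special fibre).  For one
valuation of the nodal frame `LSpaceHyp` is false (the genus of a component is smaller than the
genus of the generic fibre), but for the GLUED curve the genus equality is restored, and the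
argument can be run in DUALITY form against a pencil divisor `C`:

* `redSpace2 hc D` : the pair reduction `{(red₁ x, red₂ x) | x ∈ L(D) ∩ Rw₁ ∩ Rw₂}`, a `k`-subspace
  of `Ft1 × Ft2`;
* `glued P Q E₁ E₂` : `{z | z.1 ∈ L(E₁), z.2 ∈ L(E₂), z.1(P j) = z.2(Q j) for all nodes j}`
  (`NodalGraded.T P Q D₁ D₂ n = glued P Q (n • D₁) (n • D₂)`);
* `NodalHyp` : the hypothesis package (rank preservation, Riemann on `F`, Riemann on the nodal
  curve, the pencil inclusion `redSpace2 (n • C) ≤ glued (n • C₁) (n • C₂)`).  NO pole-degree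
  inequality is needed.

This file: definitions and the elementary calculus.
-/
import Mathlib
import Fermat.Agent.GJ.S37.MinDiv
import Fermat.Agent.GK.MultiVal.TwoRedData
import Fermat.Agent.GK.NodalGraded

set_option autoImplicit false

noncomputable section

open AlgebraicCurve

namespace Fermat.Agent.GS.Nodal.LSR2

open Fermat.Agent.RRh45 Fermat.Agent.GJ.S37MinDiv Fermat.Agent.GJ.J1 Fermat.Agent.GK.MultiVal
open Fermat.Agent.GK.NodalGraded

variable {K F k Ft1 Ft2 : Type*} [Field K] [Field F] [Algebra K F] [Field k]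
  [Field Ft1] [Algebra k Ft1] [Field Ft2] [Algebra k Ft2]
variable {R1 : RedData K F k Ft1} {R2 : RedData K F k Ft2}

/-! ### the pair reduction of `L(D)` -/

/-- The pair reduction of the part of `L(D)` that is integral for both valuations. -/
def redSpace2 (hc : RedCompat R1 R2) (D : Divisor K F) : Submodule k (Ft1 × Ft2) where
  carrier := {z | ∃ (x : F) (h1 : x ∈ R1.Rw) (h2 : x ∈ R2.Rw),
    x ∈ riemannRochSpace D ∧ R1.red ⟨x, h1⟩ = z.1 ∧ R2.red ⟨x, h2⟩ = z.2}
  zero_mem' := ⟨0, zero_mem _, zero_mem _, zero_mem _, map_zero R1.red, map_zero R2.red⟩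
  add_mem' := by
    rintro a b ⟨x, h1, h2, hx, e1, e2⟩ ⟨y, h1', h2', hy, e1', e2'⟩
    refine ⟨x + y, add_mem h1 h1', add_mem h2 h2', add_mem hx hy, ?_, ?_⟩
    · rw [Prod.fst_add, ← e1, ← e1', ← map_add]; rfl
    · rw [Prod.snd_add, ← e2, ← e2', ← map_add]; rfl
  smul_mem' := by
    rintro c z ⟨x, h1, h2, hx, e1, e2⟩
    obtain ⟨a, rfl⟩ := R1.res_surjective c
    have ha1 : algebraMap K F (a : K) ∈ R1.Rw := (R1.mem_A_iff a).1 a.2
    have ha2' : (a : K) ∈ R2.A := hc.A_eq ▸ a.2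
    have ha2 : algebraMap K F (a : K) ∈ R2.Rw := (R2.mem_A_iff (a : K)).1 ha2'
    refine ⟨algebraMap K F (a : K) * x, mul_mem ha1 h1, mul_mem ha2 h2, ?_, ?_, ?_⟩
    · have := (riemannRochSpace D).smul_mem (a : K) hx
      rwa [Algebra.smul_def] at this
    · have e : (⟨algebraMap K F (a : K) * x, mul_mem ha1 h1⟩ : R1.Rw)
          = ⟨algebraMap K F (a : K), ha1⟩ * ⟨x, h1⟩ := rfl
      rw [e, map_mul, R1.red_algebraMap a, e1, Prod.smul_fst, Algebra.smul_def]
    · have e : (⟨algebraMap K F (a : K) * x, mul_mem ha2 h2⟩ : R2.Rw)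
          = ⟨algebraMap K F (a : K), ha2⟩ * ⟨x, h2⟩ := rfl
      rw [e, map_mul, R2.red_algebraMap ⟨(a : K), ha2'⟩, e2, Prod.smul_snd, Algebra.smul_def,
        ← hc.res_eq (a : K) a.2 ha2']

theorem mem_redSpace2 {hc : RedCompat R1 R2} {D : Divisor K F} {z : Ft1 × Ft2} :
    z ∈ redSpace2 hc D ↔ ∃ (x : F) (h1 : x ∈ R1.Rw) (h2 : x ∈ R2.Rw),
      x ∈ riemannRochSpace D ∧ R1.red ⟨x, h1⟩ = z.1 ∧ R2.red ⟨x, h2⟩ = z.2 := Iff.rfl

theorem redSpace2_mono (hc : RedCompat R1 R2) {D D' : Divisor K F} (h : D ≤ D') :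
    redSpace2 hc D ≤ redSpace2 hc D' := by
  rintro z ⟨x, h1, h2, hx, e1, e2⟩
  exact ⟨x, h1, h2, riemannRochSpace_mono h hx, e1, e2⟩

theorem one_mem_redSpace2 (hc : RedCompat R1 R2) {D : Divisor K F} (hD : 0 ≤ D) :
    (1 : Ft1 × Ft2) ∈ redSpace2 hc D :=
  ⟨1, one_mem _, one_mem _, one_mem_riemannRochSpace hD, map_one R1.red, map_one R2.red⟩

theorem mul_mem_redSpace2 (hc : RedCompat R1 R2) {D D' : Divisor K F} {z z' : Ft1 × Ft2}
    (hz : z ∈ redSpace2 hc D) (hz' : z' ∈ redSpace2 hc D') : z * z' ∈ redSpace2 hc (D + D') := by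
  obtain ⟨x, h1, h2, hx, e1, e2⟩ := hz
  obtain ⟨y, h1', h2', hy, e1', e2'⟩ := hz'
  refine ⟨x * y, mul_mem h1 h1', mul_mem h2 h2', mul_mem_riemannRochSpace_add hx hy, ?_, ?_⟩
  · rw [Prod.fst_mul, ← e1, ← e1', ← map_mul]; rfl
  · rw [Prod.snd_mul, ← e2, ← e2', ← map_mul]; rfl

/-- multiplication by a common unit `y` of `Rw₁`, `Rw₂` identifies `redSpace2 (D + div y)` with
`redSpace2 D`. -/
theorem mul_mem_redSpace2_iff (hc : RedCompat R1 R2) {y : F} (h1 : y ∈ R1.Rw) (h2 : y ∈ R2.Rw)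
    (hy1 : R1.red ⟨y, h1⟩ ≠ 0) (hy2 : R2.red ⟨y, h2⟩ ≠ 0) {Dy : Divisor K F}
    (hDy : ∀ v : Place K F, Dy v = v.ord y) (D : Divisor K F) (z : Ft1 × Ft2) :
    (R1.red ⟨y, h1⟩, R2.red ⟨y, h2⟩) * z ∈ redSpace2 hc D ↔ z ∈ redSpace2 hc (D + Dy) := by
  have hy0 : y ≠ 0 := by
    rintro rfl
    exact hy1 (map_zero R1.red)
  have hu1 : IsUnit (⟨y, h1⟩ : R1.Rw) := by
    by_contra hnu
    exact hy1 ((R1.red_eq_zero_iff _).mpr ((IsLocalRing.mem_maximalIdeal _).mpr hnu))
  have hu2 : IsUnit (⟨y, h2⟩ : R2.Rw) := by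
    by_contra hnu
    exact hy2 ((R2.red_eq_zero_iff _).mpr ((IsLocalRing.mem_maximalIdeal _).mpr hnu))
  have hi1 : y⁻¹ ∈ R1.Rw := by
    obtain ⟨u, hu⟩ := hu1
    have h : y * ((↑u⁻¹ : R1.Rw) : F) = 1 := by
      have := congrArg Subtype.val (Units.mul_inv u)
      rw [hu] at this
      exact this
    rw [← eq_inv_of_mul_eq_one_right h]
    exact (↑u⁻¹ : R1.Rw).2
  have hi2 : y⁻¹ ∈ R2.Rw := by
    obtain ⟨u, hu⟩ := hu2
    have h : y * ((↑u⁻¹ : R2.Rw) : F) = 1 := by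
      have := congrArg Subtype.val (Units.mul_inv u)
      rw [hu] at this
      exact this
    rw [← eq_inv_of_mul_eq_one_right h]
    exact (↑u⁻¹ : R2.Rw).2
  constructor
  · rintro ⟨x, hx1, hx2, hx, e1, e2⟩
    refine ⟨y⁻¹ * x, mul_mem hi1 hx1, mul_mem hi2 hx2, ?_, ?_, ?_⟩
    · have h := (mul_mem_riemannRochSpace_iff hy0 hDy (D + Dy) (y⁻¹ * x)).mp
      apply h
      rw [add_sub_cancel_right, ← mul_assoc, mul_inv_cancel₀ hy0, one_mul]
      exact hx
    · have e : (⟨y, h1⟩ : R1.Rw) * ⟨y⁻¹ * x, mul_mem hi1 hx1⟩ = ⟨x, hx1⟩ := by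
        apply Subtype.ext
        show y * (y⁻¹ * x) = x
        rw [← mul_assoc, mul_inv_cancel₀ hy0, one_mul]
      have h := congrArg R1.red e
      rw [map_mul, e1, Prod.fst_mul] at h
      exact mul_left_cancel₀ hy1 h
    · have e : (⟨y, h2⟩ : R2.Rw) * ⟨y⁻¹ * x, mul_mem hi2 hx2⟩ = ⟨x, hx2⟩ := by
        apply Subtype.ext
        show y * (y⁻¹ * x) = x
        rw [← mul_assoc, mul_inv_cancel₀ hy0, one_mul]
      have h := congrArg R2.red e
      rw [map_mul, e2, Prod.snd_mul] at h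
      exact mul_left_cancel₀ hy2 h
  · rintro ⟨x, hx1, hx2, hx, e1, e2⟩
    refine ⟨y * x, mul_mem h1 hx1, mul_mem h2 hx2, ?_, ?_, ?_⟩
    · have h := (mul_mem_riemannRochSpace_iff hy0 hDy (D + Dy) x).mpr hx
      rwa [add_sub_cancel_right] at h
    · have e : (⟨y * x, mul_mem h1 hx1⟩ : R1.Rw) = ⟨y, h1⟩ * ⟨x, hx1⟩ := rfl
      rw [e, map_mul, e1, Prod.fst_mul]
    · have e : (⟨y * x, mul_mem h2 hx2⟩ : R2.Rw) = ⟨y, h2⟩ * ⟨x, hx2⟩ := rfl
      rw [e, map_mul, e2, Prod.snd_mul]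

/-! ### values at a place -/

section Value

variable {L E : Type*} [Field L] [Field E] [Algebra L E] {v : Place L E}

/-- the value at a place is unique -/
theorem _root_.Fermat.Agent.GK.NodalGraded.ValueAt.unique {f : E} {a c : L} (ha : ValueAt v f a) (hc : ValueAt v f c) : a = c := by
  unfold ValueAt at ha hc
  have h := (ordGE v 1).sub_mem hc ha
  have e : f - algebraMap L E c - (f - algebraMap L E a) = algebraMap L E (a - c) := by
    rw [map_sub]; ring
  rw [e, mem_ordGE] at h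
  by_contra hne
  have hne' : a - c ≠ 0 := sub_ne_zero.mpr hne
  rcases h with h | h
  · exact hne' ((map_eq_zero (algebraMap L E)).mp h)
  · rw [Fermat.Agent.S24.PlaceB.ord_algebraMap v hne'] at h
    omega

/-- a function with a nonzero value at `v` is a unit at `v` -/
theorem _root_.Fermat.Agent.GK.NodalGraded.ValueAt.ne_zero {f : E} {c : L} (hf : ValueAt v f c) (hc : c ≠ 0) : f ≠ 0 := by
  rintro rfl
  exact hc (ValueAt.unique hf valueAt_zero)

theorem _root_.Fermat.Agent.GK.NodalGraded.ValueAt.ord_eq_zero {f : E} {c : L} (hf : ValueAt v f c) (hc : c ≠ 0) : v.ord f = 0 := by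
  have hf0 := hf.ne_zero hc
  have h0 := hf.mem_zero
  rw [mem_ordGE] at h0
  have hge := h0.resolve_left hf0
  by_contra hne
  have hpos : 1 ≤ v.ord f := by omega
  have : ValueAt v f 0 := by
    unfold ValueAt
    rw [map_zero, sub_zero, mem_ordGE]
    exact Or.inr hpos
  exact hc (ValueAt.unique hf this)

/-- `ValueAt v f 0` means that `f` vanishes at `v` -/
theorem valueAt_zero_iff {f : E} : ValueAt v f (0 : L) ↔ f = 0 ∨ 1 ≤ v.ord f := by
  unfold ValueAt
  rw [map_zero, sub_zero, mem_ordGE]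

/-- the value of the inverse -/
theorem _root_.Fermat.Agent.GK.NodalGraded.ValueAt.inv {f : E} {c : L} (hf : ValueAt v f c) (hc : c ≠ 0) : ValueAt v f⁻¹ c⁻¹ := by
  have hf0 := hf.ne_zero hc
  have hord := hf.ord_eq_zero hc
  have hc' : algebraMap L E c ≠ 0 := by simpa using hc
  unfold ValueAt at hf ⊢
  rw [mem_ordGE] at hf ⊢
  have e : f⁻¹ - algebraMap L E c⁻¹ = -(f - algebraMap L E c) * (f⁻¹ * (algebraMap L E c)⁻¹) := by
    rw [map_inv₀]
    field_simp
    ring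
  rcases hf with hf | hf
  · left
    rw [e, hf]; ring
  · by_cases h0 : f - algebraMap L E c = 0
    · left
      rw [e, h0]; ring
    · right
      have hne1 : -(f - algebraMap L E c) ≠ 0 := neg_ne_zero.mpr h0
      have hne2 : f⁻¹ * (algebraMap L E c)⁻¹ ≠ 0 :=
        mul_ne_zero (inv_ne_zero hf0) (inv_ne_zero hc')
      rw [e, v.ord_mul hne1 hne2, v.ord_mul (inv_ne_zero hf0) (inv_ne_zero hc')]
      have h1 : v.ord (-(f - algebraMap L E c)) = v.ord (f - algebraMap L E c) := by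
        rw [show -(f - algebraMap L E c) = (-1 : E) * (f - algebraMap L E c) by ring,
          v.ord_mul (by norm_num) h0]
        have : v.ord (-1 : E) = 0 := by
          have h2 : v.ord ((-1 : E) * (-1 : E)) = 0 := by
            rw [show (-1 : E) * (-1 : E) = 1 by ring, Place.ord_one]
          rw [v.ord_mul (by norm_num) (by norm_num)] at h2
          omega
        omega
      have h2 : v.ord f⁻¹ = 0 := by
        have h3 : v.ord (f * f⁻¹) = 0 := by rw [mul_inv_cancel₀ hf0, Place.ord_one]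
        rw [v.ord_mul hf0 (inv_ne_zero hf0)] at h3
        omega
      have h3 : v.ord (algebraMap L E c)⁻¹ = 0 := by
        have h4 : v.ord (algebraMap L E c * (algebraMap L E c)⁻¹) = 0 := by
          rw [mul_inv_cancel₀ hc', Place.ord_one]
        rw [v.ord_mul hc' (inv_ne_zero hc'), Fermat.Agent.S24.PlaceB.ord_algebraMap v hc] at h4
        omega
      omega

end Value

/-! ### the glued Riemann–Roch spaces -/

section Glued

variable {ι : Type*} (P : ι → Place k Ft1) (Q : ι → Place k Ft2)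

/-- the two components of `z` have the same value at the node `j` -/
def GluedAt (j : ι) (z : Ft1 × Ft2) : Prop :=
  ∃ c : k, ValueAt (P j) z.1 c ∧ ValueAt (Q j) z.2 c

/-- **the glued Riemann–Roch space** of a pair of divisors on the two components -/
def glued (E₁ : Divisor k Ft1) (E₂ : Divisor k Ft2) : Submodule k (Ft1 × Ft2) where
  carrier := {z | z.1 ∈ riemannRochSpace E₁ ∧ z.2 ∈ riemannRochSpace E₂ ∧ ∀ j, GluedAt P Q j z}
  zero_mem' := ⟨Submodule.zero_mem _, Submodule.zero_mem _,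
    fun _ => ⟨0, valueAt_zero, valueAt_zero⟩⟩
  add_mem' := by
    rintro a b ⟨ha1, ha2, ha3⟩ ⟨hb1, hb2, hb3⟩
    refine ⟨Submodule.add_mem _ ha1 hb1, Submodule.add_mem _ ha2 hb2, fun j => ?_⟩
    obtain ⟨c, hc1, hc2⟩ := ha3 j
    obtain ⟨c', hc1', hc2'⟩ := hb3 j
    exact ⟨c + c', hc1.add hc1', hc2.add hc2'⟩
  smul_mem' := by
    rintro r a ⟨ha1, ha2, ha3⟩
    refine ⟨Submodule.smul_mem _ r ha1, Submodule.smul_mem _ r ha2, fun j => ?_⟩
    obtain ⟨c, hc1, hc2⟩ := ha3 j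
    exact ⟨r * c, hc1.smul r, hc2.smul r⟩

variable {P Q}

theorem mem_glued {E₁ : Divisor k Ft1} {E₂ : Divisor k Ft2} {z : Ft1 × Ft2} :
    z ∈ glued P Q E₁ E₂ ↔
      z.1 ∈ riemannRochSpace E₁ ∧ z.2 ∈ riemannRochSpace E₂ ∧ ∀ j, GluedAt P Q j z := Iff.rfl

/-- the graded family of `GK/NodalGraded` is a family of glued spaces -/
theorem T_eq_glued (D₁ : Divisor k Ft1) (D₂ : Divisor k Ft2) (n : ℕ) :
    T P Q D₁ D₂ n = glued P Q (n • D₁) (n • D₂) := rfl

theorem glued_mono {E₁ E₁' : Divisor k Ft1} {E₂ E₂' : Divisor k Ft2} (h1 : E₁ ≤ E₁')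
    (h2 : E₂ ≤ E₂') : glued P Q E₁ E₂ ≤ glued P Q E₁' E₂' := by
  rintro z ⟨hz1, hz2, hz3⟩
  exact ⟨riemannRochSpace_mono h1 hz1, riemannRochSpace_mono h2 hz2, hz3⟩

theorem GluedAt.mul {j : ι} {z z' : Ft1 × Ft2} (hz : GluedAt P Q j z) (hz' : GluedAt P Q j z') :
    GluedAt P Q j (z * z') := by
  obtain ⟨c, hc1, hc2⟩ := hz
  obtain ⟨c', hc1', hc2'⟩ := hz'
  exact ⟨c * c', hc1.mul hc1', hc2.mul hc2'⟩

/-- **division**: if `z * w` and `w` are glued at `j` and `w` does not vanish there, `z` is glued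
at `j`. -/
theorem GluedAt.of_mul {j : ι} {z w : Ft1 × Ft2} (hzw : GluedAt P Q j (z * w))
    (hw : GluedAt P Q j w) (hw0 : ¬ ValueAt (P j) w.1 (0 : k)) : GluedAt P Q j z := by
  obtain ⟨d, hd1, hd2⟩ := hzw
  obtain ⟨e, he1, he2⟩ := hw
  have he : e ≠ 0 := by
    rintro rfl
    exact hw0 he1
  have hw1 : w.1 ≠ 0 := he1.ne_zero he
  have hw2 : w.2 ≠ 0 := he2.ne_zero he
  refine ⟨d * e⁻¹, ?_, ?_⟩
  · have h := hd1.mul (he1.inv he)
    rwa [Prod.fst_mul, mul_assoc, mul_inv_cancel₀ hw1, mul_one] at h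
  · have h := hd2.mul (he2.inv he)
    rwa [Prod.snd_mul, mul_assoc, mul_inv_cancel₀ hw2, mul_one] at h

theorem mul_mem_glued {E₁ E₁' : Divisor k Ft1} {E₂ E₂' : Divisor k Ft2} {z z' : Ft1 × Ft2}
    (hz : z ∈ glued P Q E₁ E₂) (hz' : z' ∈ glued P Q E₁' E₂') :
    z * z' ∈ glued P Q (E₁ + E₁') (E₂ + E₂') :=
  ⟨mul_mem_riemannRochSpace_add hz.1 hz'.1, mul_mem_riemannRochSpace_add hz.2.1 hz'.2.1,
    fun j => (hz.2.2 j).mul (hz'.2.2 j)⟩

theorem glued_le_prod (E₁ : Divisor k Ft1) (E₂ : Divisor k Ft2) :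
    glued P Q E₁ E₂ ≤ (riemannRochSpace E₁).prod (riemannRochSpace E₂) := by
  rintro z ⟨hz1, hz2, -⟩
  exact ⟨hz1, hz2⟩

instance finite_glued [FiniteResidues k Ft1] [HasPrincipalDivisors k Ft1]
    [Nonempty (Place k Ft1)] [FiniteResidues k Ft2] [HasPrincipalDivisors k Ft2]
    [Nonempty (Place k Ft2)] (E₁ : Divisor k Ft1) (E₂ : Divisor k Ft2) :
    Module.Finite k (glued P Q E₁ E₂) := by
  have h1 : (riemannRochSpace E₁).FG := Module.Finite.iff_fg.mp inferInstance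
  have h2 : (riemannRochSpace E₂).FG := Module.Finite.iff_fg.mp inferInstance
  have h : Module.Finite k ((riemannRochSpace E₁).prod (riemannRochSpace E₂)) :=
    Module.Finite.iff_fg.mpr (h1.prod h2)
  exact Submodule.finiteDimensional_of_le (glued_le_prod E₁ E₂)

end Glued

/-! ### the hypothesis package -/

/-- **The hypotheses of the nodal L-space construction** of the place reduction map.
`P j`, `Q j` are the two branches of the nodes of the special fibre, `C` is a pencil divisor of the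
generic fibre whose reduction `(C₁, C₂)` avoids the nodes and meets both components. -/
structure NodalHyp (hc : RedCompat R1 R2) {ι : Type*} (P : ι → Place k Ft1)
    (Q : ι → Place k Ft2) (C : Divisor K F) (C₁ : Divisor k Ft1) (C₂ : Divisor k Ft2)
    (g c : ℤ) (n₀ : ℕ) : Prop where
  c_nonneg : 0 ≤ c
  degF : ∀ v : Place K F, v.deg = 1
  degFt1 : ∀ v : Place k Ft1, v.deg = 1
  degFt2 : ∀ v : Place k Ft2, v.deg = 1
  /-- Riemann's theorem on the generic fibre -/
  rrF : ∀ D : Divisor K F, c ≤ Divisor.degree D →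
    (Module.finrank K (riemannRochSpace D) : ℤ) = Divisor.degree D + 1 - g
  /-- rank preservation of the pair reduction -/
  orth2 : ∀ D : Divisor K F,
    Module.finrank k (redSpace2 hc D) = Module.finrank K (riemannRochSpace D)
  /-- Riemann's theorem on the nodal curve, with THE SAME genus -/
  nr_dim : ∀ (E₁ : Divisor k Ft1) (E₂ : Divisor k Ft2), (∀ j, E₁ (P j) = 0) →
    (∀ j, E₂ (Q j) = 0) → c ≤ Divisor.degree E₁ → c ≤ Divisor.degree E₂ →
    (Module.finrank k (glued P Q E₁ E₂) : ℤ) = Divisor.degree E₁ + Divisor.degree E₂ + 1 - g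
  /-- no node is a base point -/
  nr_node : ∀ (E₁ : Divisor k Ft1) (E₂ : Divisor k Ft2), (∀ j, E₁ (P j) = 0) →
    (∀ j, E₂ (Q j) = 0) → c ≤ Divisor.degree E₁ → c ≤ Divisor.degree E₂ →
    ∀ j, ∃ w ∈ glued P Q E₁ E₂, ¬ ValueAt (P j) w.1 (0 : k)
  C_nonneg : 0 ≤ C
  C₁_nonneg : 0 ≤ C₁
  C₂_nonneg : 0 ≤ C₂
  C₁_node : ∀ j, C₁ (P j) = 0
  C₂_node : ∀ j, C₂ (Q j) = 0
  degC : Divisor.degree C = Divisor.degree C₁ + Divisor.degree C₂
  hn₀1 : c + 1 ≤ n₀ * Divisor.degree C₁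
  hn₀2 : c + 1 ≤ n₀ * Divisor.degree C₂
  /-- the pencil inclusion: reductions of functions with poles on `C` only are glued -/
  pencil : ∀ n : ℕ, n₀ ≤ n → redSpace2 hc (n • C) ≤ glued P Q (n • C₁) (n • C₂)

end Fermat.Agent.GS.Nodal.LSR2
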