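/-
GATE-S (S33) / NODAL FRAME, node [INST²](a), the two Riemann fields of helper16's `NodalHyp`
(helper34, author of GK/NodalRR, GK/NodalFibre, GK/NodalGraded): for two function fields glued
along finitely many nodes of degree one,

* `glued_eq_gluedSpace` : helper16's `LSR2.glued` is helper87's `Nod.gluedSpace`;
* `exists_nr` : there is `c ≥ 0` such that for ALL thresholds `c' ≥ c` the fields `nr_dim` and
  `nr_node` of `LSR2.NodalHyp` hold with `g := Nod.gluedGenus k Ft1 Ft2 ι` and threshold `c'`.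
-/
import Mathlib
import Fermat.Agent.GS.Nodal.LSR2Defs
import Fermat.Agent.GS.Nod.GluedRiemann

set_option autoImplicit false

noncomputable section

open AlgebraicCurve

namespace Fermat.Agent.GS.Nodal.GluedRR

open Fermat.Agent.RRh45 Fermat.Agent.RR Fermat.Agent.GK.NodalGraded Fermat.Agent.GK.NodalRR
open Fermat.Agent.GK.EvalK Fermat.Agent.GK.Glue Fermat.Agent.S24
open Fermat.Agent.GS.Nodal.LSR2 Fermat.Agent.GS.Nod

variable {k Ft1 Ft2 : Type*} [Field k] [Field Ft1] [Field Ft2] [Algebra k Ft1] [Algebra k Ft2]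
variable {ι : Type*}
variable {P : ι → Place k Ft1} {Q : ι → Place k Ft2}

/-- helper16's glued space is helper87's glued space. -/
theorem glued_eq_gluedSpace (E₁ : Divisor k Ft1) (E₂ : Divisor k Ft2) :
    glued P Q E₁ E₂ = gluedSpace P Q E₁ E₂ := by
  ext z
  rw [mem_glued, mem_gluedSpace]
  rfl

variable [Fintype ι]
variable [FiniteResidues k Ft1] [HasPrincipalDivisors k Ft1] [Nonempty (Place k Ft1)]
variable [FiniteResidues k Ft2] [HasPrincipalDivisors k Ft2] [Nonempty (Place k Ft2)]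

/-- **no node is a base point**: for divisors of large degrees avoiding the nodes there is a glued
pair taking the value `1` at all the nodes. -/
theorem exists_glued_valueAt_one (hP : Function.Injective P) (hQ : Function.Injective Q)
    (hdegP : ∀ j, (P j).deg = 1) (hdegQ : ∀ j, (Q j).deg = 1) :
    ∃ c : ℤ, ∀ (E₁ : Divisor k Ft1) (E₂ : Divisor k Ft2),
      (∀ j, E₁ (P j) = 0) → (∀ j, E₂ (Q j) = 0) →
      c ≤ Divisor.degree E₁ → c ≤ Divisor.degree E₂ →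
      ∃ w ∈ glued P Q E₁ E₂, ∀ j, ValueAt (P j) w.1 (1 : k) ∧ ValueAt (Q j) w.2 (1 : k) := by
  classical
  obtain ⟨c, hc⟩ := Fermat.Agent.GK.NodalFibre.exists_finrank_glueSub hP hQ hdegP hdegQ
  refine ⟨c, fun E₁ E₂ hE₁ hE₂ h1 h2 => ?_⟩
  obtain ⟨z, hz⟩ := (hc E₁ E₂ h1 h2).1 (fun _ => (1 : k), fun _ => (1 : k))
  rw [evPair_apply, Prod.mk.injEq] at hz
  have hz1 : ∀ j, ValueAt (P j) (z.1 : Ft1) (1 : k) := fun j =>
    (evalK_eq_iff_valueAt (hdegP j) (hE₁ j) z.1 1).mp (congrFun hz.1 j)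
  have hz2 : ∀ j, ValueAt (Q j) (z.2 : Ft2) (1 : k) := fun j =>
    (evalK_eq_iff_valueAt (hdegQ j) (hE₂ j) z.2 1).mp (congrFun hz.2 j)
  exact ⟨((z.1 : Ft1), (z.2 : Ft2)), ⟨z.1.2, z.2.2, fun j => ⟨1, hz1 j, hz2 j⟩⟩,
    fun j => ⟨hz1 j, hz2 j⟩⟩

/-- **the fields `nr_dim` and `nr_node` of `LSR2.NodalHyp`**, with `g := gluedGenus` and any
threshold above a fixed `c ≥ 0`. -/
theorem exists_nr (hP : Function.Injective P) (hQ : Function.Injective Q)
    (hdegP : ∀ j, (P j).deg = 1) (hdegQ : ∀ j, (Q j).deg = 1) :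
    ∃ c : ℤ, 0 ≤ c ∧ ∀ c' : ℤ, c ≤ c' →
      (∀ (E₁ : Divisor k Ft1) (E₂ : Divisor k Ft2), (∀ j, E₁ (P j) = 0) →
        (∀ j, E₂ (Q j) = 0) → c' ≤ Divisor.degree E₁ → c' ≤ Divisor.degree E₂ →
        (Module.finrank k (glued P Q E₁ E₂) : ℤ) =
          Divisor.degree E₁ + Divisor.degree E₂ + 1 - gluedGenus k Ft1 Ft2 ι) ∧
      (∀ (E₁ : Divisor k Ft1) (E₂ : Divisor k Ft2), (∀ j, E₁ (P j) = 0) →
        (∀ j, E₂ (Q j) = 0) → c' ≤ Divisor.degree E₁ → c' ≤ Divisor.degree E₂ →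
        ∀ j, ∃ w ∈ glued P Q E₁ E₂, ¬ ValueAt (P j) w.1 (0 : k)) := by
  obtain ⟨c₁, hc₁⟩ := riemann_gluedSpace hP hQ hdegP hdegQ
  obtain ⟨c₂, hc₂⟩ := exists_glued_valueAt_one hP hQ hdegP hdegQ
  refine ⟨max (c₁ : ℤ) (max c₂ 0), le_trans (le_max_right _ _) (le_max_right _ _),
    fun c' hc' => ⟨fun E₁ E₂ hE₁ hE₂ h1 h2 => ?_, fun E₁ E₂ hE₁ hE₂ h1 h2 j => ?_⟩⟩
  · rw [glued_eq_gluedSpace]
    exact hc₁ E₁ E₂ hE₁ hE₂ (le_trans (le_trans (le_max_left _ _) hc') h1)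
      (le_trans (le_trans (le_max_left _ _) hc') h2)
  · have hc2 : c₂ ≤ c' := le_trans (le_trans (le_max_left _ _) (le_max_right _ _)) hc'
    obtain ⟨w, hw, hw1⟩ := hc₂ E₁ E₂ hE₁ hE₂ (le_trans hc2 h1) (le_trans hc2 h2)
    exact ⟨w, hw, fun h0 => one_ne_zero ((hw1 j).1.unique h0)⟩

end Fermat.Agent.GS.Nodal.GluedRR
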