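/-
CELL-S / GATE-S hedge, node [INST²](a), ABSTRACT half, part 2 (helper16): the calculus of
"`D` reduces to `(E₁, E₂)`" on top of `NodalHyp`.

`Red H D E₁ E₂` : `D ≥ n₀ C`, `(E₁, E₂)` avoids the nodes, `deg E₁ + deg E₂ = deg D` and
`redSpace2 D = glued E₁ E₂`.

* `exists_exact1/2` : a glued space of large bidegree has elements of exact pole order at any place;
* `Red.pencil`, `Red.unique`, `Red.dual`, `Red.add`, `Red.sub`, `Red.princ`, `Red.nsmul`, `Red.pad`.

All pole bounds come from DUALITY against the pencil: no pole-degree inequality is assumed.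
-/
import Mathlib
import Fermat.Agent.GS.Nodal.LSR2Defs

set_option autoImplicit false
set_option linter.unusedSectionVars false

noncomputable section

open AlgebraicCurve

namespace Fermat.Agent.GS.Nodal.LSR2

open Fermat.Agent.RRh45 Fermat.Agent.GJ.S37MinDiv Fermat.Agent.GJ.J1 Fermat.Agent.GK.MultiVal
open Fermat.Agent.GK.NodalGraded

variable {K F k Ft1 Ft2 : Type*} [Field K] [Field F] [Algebra K F] [Field k]
  [Field Ft1] [Algebra k Ft1] [Field Ft2] [Algebra k Ft2]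
variable {R1 : RedData K F k Ft1} {R2 : RedData K F k Ft2} {hc : RedCompat R1 R2}
variable {ι : Type*} {P : ι → Place k Ft1} {Q : ι → Place k Ft2}
variable {C : Divisor K F} {C₁ : Divisor k Ft1} {C₂ : Divisor k Ft2} {g c : ℤ} {n₀ : ℕ}
variable [FiniteResidues K F] [HasPrincipalDivisors K F] [Nonempty (Place K F)]
variable [FiniteResidues k Ft1] [HasPrincipalDivisors k Ft1] [Nonempty (Place k Ft1)]
variable [FiniteResidues k Ft2] [HasPrincipalDivisors k Ft2] [Nonempty (Place k Ft2)]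

/-! ### bookkeeping -/

theorem degree_nsmul' {L E : Type*} [Field L] [Field E] [Algebra L E] (n : ℕ)
    (D : Divisor L E) : Divisor.degree (n • D) = n * Divisor.degree D := by
  rw [map_nsmul, nsmul_eq_mul]

theorem nsmul_div_apply {L E : Type*} [Field L] [Field E] [Algebra L E] (n : ℕ)
    (D : Divisor L E) (v : Place L E) : (n • D) v = n * D v := by
  rw [Finsupp.smul_apply, nsmul_eq_mul]

theorem nsmul_div_nonneg {L E : Type*} [Field L] [Field E] [Algebra L E] (n : ℕ)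
    {D : Divisor L E} (hD : 0 ≤ D) : 0 ≤ n • D := by
  rw [Finsupp.le_def]
  intro v
  have := Finsupp.le_def.mp hD v
  rw [nsmul_div_apply]
  simp only [Finsupp.coe_zero, Pi.zero_apply] at this ⊢
  positivity

theorem nsmul_div_le {L E : Type*} [Field L] [Field E] [Algebra L E] {m n : ℕ} (h : m ≤ n)
    {D : Divisor L E} (hD : 0 ≤ D) : m • D ≤ n • D := by
  rw [Finsupp.le_def]
  intro v
  have h0 := Finsupp.le_def.mp hD v
  simp only [Finsupp.coe_zero, Pi.zero_apply] at h0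
  rw [nsmul_div_apply, nsmul_div_apply]
  have : (m : ℤ) ≤ n := by exact_mod_cast h
  nlinarith

namespace NodalHyp

variable (H : NodalHyp hc P Q C C₁ C₂ g c n₀)
include H

theorem degC₁_pos : 1 ≤ Divisor.degree C₁ := by
  have h1 := H.hn₀1
  have h2 := H.c_nonneg
  have h3 := degree_nonneg_of_nonneg H.C₁_nonneg
  by_contra hlt
  have h0 : Divisor.degree C₁ = 0 := by omega
  rw [h0, mul_zero] at h1
  omega

theorem degC₂_pos : 1 ≤ Divisor.degree C₂ := by
  have h1 := H.hn₀2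
  have h2 := H.c_nonneg
  have h3 := degree_nonneg_of_nonneg H.C₂_nonneg
  by_contra hlt
  have h0 : Divisor.degree C₂ = 0 := by omega
  rw [h0, mul_zero] at h1
  omega

theorem le_mul_degC₁ {n : ℕ} (hn : n₀ ≤ n) : c + 1 ≤ n * Divisor.degree C₁ := by
  have h1 := H.hn₀1
  have h3 := degree_nonneg_of_nonneg H.C₁_nonneg
  have : (n₀ : ℤ) ≤ n := by exact_mod_cast hn
  nlinarith

theorem le_mul_degC₂ {n : ℕ} (hn : n₀ ≤ n) : c + 1 ≤ n * Divisor.degree C₂ := by
  have h1 := H.hn₀2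
  have h3 := degree_nonneg_of_nonneg H.C₂_nonneg
  have : (n₀ : ℤ) ≤ n := by exact_mod_cast hn
  nlinarith

/-- the dimension of the pair reduction -/
theorem finrank_redSpace2 {D : Divisor K F} (hD : c ≤ Divisor.degree D) :
    (Module.finrank k (redSpace2 hc D) : ℤ) = Divisor.degree D + 1 - g := by
  rw [H.orth2 D]
  exact H.rrF D hD

/-- for every bound there is a multiple of the pencil beyond it on both components -/
theorem exists_large (B : ℤ) : ∃ N : ℕ, n₀ ≤ N ∧ B ≤ N * Divisor.degree C₁ ∧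
    B ≤ N * Divisor.degree C₂ := by
  have h1 := H.degC₁_pos
  have h2 := H.degC₂_pos
  refine ⟨n₀ + B.toNat, Nat.le_add_right _ _, ?_, ?_⟩
  · have hB : B ≤ (B.toNat : ℤ) := Int.self_le_toNat B
    push_cast
    nlinarith
  · have hB : B ≤ (B.toNat : ℤ) := Int.self_le_toNat B
    push_cast
    nlinarith

/-! ### exactness of the glued spaces -/

/-- a glued space of large bidegree has an element whose first component has exact order
`-E₁ Q'` at any given place `Q'` of the first component -/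
theorem exists_exact1 {E₁ : Divisor k Ft1} {E₂ : Divisor k Ft2} (h1 : ∀ j, E₁ (P j) = 0)
    (h2 : ∀ j, E₂ (Q j) = 0) (hd1 : c + 1 ≤ Divisor.degree E₁) (hd2 : c ≤ Divisor.degree E₂)
    (Q' : Place k Ft1) : ∃ w ∈ glued P Q E₁ E₂, w.1 ≠ 0 ∧ Q'.ord w.1 = -E₁ Q' := by
  by_cases hnode : ∃ j, Q' = P j
  · obtain ⟨j, rfl⟩ := hnode
    obtain ⟨w, hw, hw0⟩ := H.nr_node E₁ E₂ h1 h2 (by omega) hd2 j
    rw [valueAt_zero_iff] at hw0
    push Not at hw0
    refine ⟨w, hw, hw0.1, ?_⟩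
    have := (mem_riemannRochSpace_iff.mp hw.1 (P j)).resolve_left hw0.1
    rw [h1 j] at this ⊢
    omega
  · push Not at hnode
    set E₁' : Divisor k Ft1 := E₁ - Finsupp.single Q' 1 with hE₁'
    have hn1 : ∀ j, E₁' (P j) = 0 := by
      intro j
      rw [hE₁', Finsupp.sub_apply, h1 j, Finsupp.single_eq_of_ne (hnode j).symm, sub_zero]
    have hdeg : Divisor.degree E₁' = Divisor.degree E₁ - 1 := by
      rw [hE₁', map_sub, Divisor.degree_single, H.degFt1 Q']; simp
    have hdim' := H.nr_dim E₁' E₂ hn1 h2 (by omega) hd2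
    have hdim := H.nr_dim E₁ E₂ h1 h2 (by omega) hd2
    have hle : glued P Q E₁' E₂ ≤ glued P Q E₁ E₂ :=
      glued_mono (by rw [hE₁']; exact sub_le_self _ (Finsupp.single_nonneg.mpr zero_le_one))
        le_rfl
    have hne : ¬ glued P Q E₁ E₂ ≤ glued P Q E₁' E₂ := by
      intro hge
      have := Submodule.finrank_mono hge
      have : (Module.finrank k (glued P Q E₁ E₂) : ℤ) ≤ Module.finrank k (glued P Q E₁' E₂) := by
        exact_mod_cast this
      omega
    rw [SetLike.not_le_iff_exists] at hne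
    obtain ⟨w, hw, hw'⟩ := hne
    have hw1 : w.1 ∉ riemannRochSpace E₁' := fun h => hw' ⟨h, hw.2.1, hw.2.2⟩
    rw [mem_riemannRochSpace_iff] at hw1
    push Not at hw1
    obtain ⟨v, hv0, hv⟩ := hw1
    refine ⟨w, hw, hv0, ?_⟩
    have hge := fun v' => (mem_riemannRochSpace_iff.mp hw.1 v').resolve_left hv0
    by_cases hvQ : v = Q'
    · subst hvQ
      rw [hE₁', Finsupp.sub_apply, Finsupp.single_eq_same] at hv
      have := hge v
      omega
    · rw [hE₁', Finsupp.sub_apply, Finsupp.single_eq_of_ne hvQ] at hv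
      have := hge v
      omega

/-- the same on the second component -/
theorem exists_exact2 {E₁ : Divisor k Ft1} {E₂ : Divisor k Ft2} (h1 : ∀ j, E₁ (P j) = 0)
    (h2 : ∀ j, E₂ (Q j) = 0) (hd1 : c ≤ Divisor.degree E₁) (hd2 : c + 1 ≤ Divisor.degree E₂)
    (Q' : Place k Ft2) : ∃ w ∈ glued P Q E₁ E₂, w.2 ≠ 0 ∧ Q'.ord w.2 = -E₂ Q' := by
  by_cases hnode : ∃ j, Q' = Q j
  · obtain ⟨j, rfl⟩ := hnode
    obtain ⟨w, hw, hw0⟩ := H.nr_node E₁ E₂ h1 h2 hd1 (by omega) j
    obtain ⟨e, he1, he2⟩ := hw.2.2 j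
    have he : e ≠ 0 := by
      rintro rfl
      exact hw0 he1
    refine ⟨w, hw, he2.ne_zero he, ?_⟩
    rw [he2.ord_eq_zero he, h2 j, neg_zero]
  · push Not at hnode
    set E₂' : Divisor k Ft2 := E₂ - Finsupp.single Q' 1 with hE₂'
    have hn2 : ∀ j, E₂' (Q j) = 0 := by
      intro j
      rw [hE₂', Finsupp.sub_apply, h2 j, Finsupp.single_eq_of_ne (hnode j).symm, sub_zero]
    have hdeg : Divisor.degree E₂' = Divisor.degree E₂ - 1 := by
      rw [hE₂', map_sub, Divisor.degree_single, H.degFt2 Q']; simp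
    have hdim' := H.nr_dim E₁ E₂' h1 hn2 hd1 (by omega)
    have hdim := H.nr_dim E₁ E₂ h1 h2 hd1 (by omega)
    have hle : glued P Q E₁ E₂' ≤ glued P Q E₁ E₂ :=
      glued_mono le_rfl
        (by rw [hE₂']; exact sub_le_self _ (Finsupp.single_nonneg.mpr zero_le_one))
    have hne : ¬ glued P Q E₁ E₂ ≤ glued P Q E₁ E₂' := by
      intro hge
      have := Submodule.finrank_mono hge
      have : (Module.finrank k (glued P Q E₁ E₂) : ℤ) ≤ Module.finrank k (glued P Q E₁ E₂') := by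
        exact_mod_cast this
      omega
    rw [SetLike.not_le_iff_exists] at hne
    obtain ⟨w, hw, hw'⟩ := hne
    have hw1 : w.2 ∉ riemannRochSpace E₂' := fun h => hw' ⟨hw.1, h, hw.2.2⟩
    rw [mem_riemannRochSpace_iff] at hw1
    push Not at hw1
    obtain ⟨v, hv0, hv⟩ := hw1
    refine ⟨w, hw, hv0, ?_⟩
    have hge := fun v' => (mem_riemannRochSpace_iff.mp hw.2.1 v').resolve_left hv0
    by_cases hvQ : v = Q'
    · subst hvQ
      rw [hE₂', Finsupp.sub_apply, Finsupp.single_eq_same] at hv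
      have := hge v
      omega
    · rw [hE₂', Finsupp.sub_apply, Finsupp.single_eq_of_ne hvQ] at hv
      have := hge v
      omega

/-- a glued space of large bidegree determines its first divisor -/
theorem le_of_glued_fst {E₁ E₁' : Divisor k Ft1} {E₂ : Divisor k Ft2} (h1 : ∀ j, E₁ (P j) = 0)
    (h2 : ∀ j, E₂ (Q j) = 0) (hd1 : c + 1 ≤ Divisor.degree E₁) (hd2 : c ≤ Divisor.degree E₂)
    (h : ∀ w ∈ glued P Q E₁ E₂, w.1 ∈ riemannRochSpace E₁') : E₁ ≤ E₁' := by
  rw [Finsupp.le_def]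
  intro Q'
  obtain ⟨w, hw, hw0, hord⟩ := H.exists_exact1 h1 h2 hd1 hd2 Q'
  have := (mem_riemannRochSpace_iff.mp (h w hw) Q').resolve_left hw0
  omega

/-- a glued space of large bidegree determines its second divisor -/
theorem le_of_glued_snd {E₁ : Divisor k Ft1} {E₂ E₂' : Divisor k Ft2} (h1 : ∀ j, E₁ (P j) = 0)
    (h2 : ∀ j, E₂ (Q j) = 0) (hd1 : c ≤ Divisor.degree E₁) (hd2 : c + 1 ≤ Divisor.degree E₂)
    (h : ∀ w ∈ glued P Q E₁ E₂, w.2 ∈ riemannRochSpace E₂') : E₂ ≤ E₂' := by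
  rw [Finsupp.le_def]
  intro Q'
  obtain ⟨w, hw, hw0, hord⟩ := H.exists_exact2 h1 h2 hd1 hd2 Q'
  have := (mem_riemannRochSpace_iff.mp (h w hw) Q').resolve_left hw0
  omega

end NodalHyp

/-! ### `D` reduces to `(E₁, E₂)` -/

/-- **`D` reduces to `(E₁, E₂)`**: `D` dominates the base pencil divisor `n₀ C`, the pair
`(E₁, E₂)` avoids the nodes, has the degree of `D`, and the pair reduction of `L(D)` is the glued
Riemann–Roch space of `(E₁, E₂)`. -/
structure Red (H : NodalHyp hc P Q C C₁ C₂ g c n₀) (D : Divisor K F) (E₁ : Divisor k Ft1)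
    (E₂ : Divisor k Ft2) : Prop where
  big : n₀ • C ≤ D
  node1 : ∀ j, E₁ (P j) = 0
  node2 : ∀ j, E₂ (Q j) = 0
  big1 : n₀ • C₁ ≤ E₁
  big2 : n₀ • C₂ ≤ E₂
  deg_eq : Divisor.degree E₁ + Divisor.degree E₂ = Divisor.degree D
  eq : redSpace2 hc D = glued P Q E₁ E₂

namespace Red

variable {H : NodalHyp hc P Q C C₁ C₂ g c n₀}
variable {D D' : Divisor K F} {E₁ E₁' : Divisor k Ft1} {E₂ E₂' : Divisor k Ft2}

theorem nonneg (hR : Red H D E₁ E₂) : 0 ≤ D :=
  (nsmul_div_nonneg n₀ H.C_nonneg).trans hR.big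

theorem deg1 (hR : Red H D E₁ E₂) : c + 1 ≤ Divisor.degree E₁ := by
  have h1 := degree_mono hR.big1
  rw [degree_nsmul'] at h1
  have := H.hn₀1
  omega

theorem deg2 (hR : Red H D E₁ E₂) : c + 1 ≤ Divisor.degree E₂ := by
  have h1 := degree_mono hR.big2
  rw [degree_nsmul'] at h1
  have := H.hn₀2
  omega

theorem degD (hR : Red H D E₁ E₂) : c ≤ Divisor.degree D := by
  have h1 := hR.deg1
  have h2 := hR.deg2
  have h3 := hR.deg_eq
  have := H.c_nonneg
  omega

/-- the base pencil divisors reduce to themselves -/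
theorem pencil (H : NodalHyp hc P Q C C₁ C₂ g c n₀) {n : ℕ} (hn : n₀ ≤ n) :
    Red H (n • C) (n • C₁) (n • C₂) where
  big := nsmul_div_le hn H.C_nonneg
  node1 j := by rw [nsmul_div_apply, H.C₁_node j, mul_zero]
  node2 j := by rw [nsmul_div_apply, H.C₂_node j, mul_zero]
  big1 := nsmul_div_le hn H.C₁_nonneg
  big2 := nsmul_div_le hn H.C₂_nonneg
  deg_eq := by rw [degree_nsmul', degree_nsmul', degree_nsmul', H.degC]; ring
  eq := by
    have h1 := H.le_mul_degC₁ hn
    have h2 := H.le_mul_degC₂ hn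
    have hcn := H.c_nonneg
    refine Submodule.eq_of_le_of_finrank_eq (H.pencil n hn) ?_
    have e1 : (Module.finrank k (redSpace2 hc (n • C)) : ℤ) = Divisor.degree (n • C) + 1 - g :=
      H.finrank_redSpace2 (by rw [degree_nsmul', H.degC]; nlinarith)
    have e2 := H.nr_dim (n • C₁) (n • C₂)
      (fun j => by rw [nsmul_div_apply, H.C₁_node j, mul_zero])
      (fun j => by rw [nsmul_div_apply, H.C₂_node j, mul_zero])
      (by rw [degree_nsmul']; omega) (by rw [degree_nsmul']; omega)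
    have : (Module.finrank k (redSpace2 hc (n • C)) : ℤ) =
        Module.finrank k (glued P Q (n • C₁) (n • C₂)) := by
      rw [e1, e2, degree_nsmul', degree_nsmul', degree_nsmul', H.degC]; ring
    exact_mod_cast this

/-- the reduction is unique -/
theorem unique (hR : Red H D E₁ E₂) (hR' : Red H D E₁' E₂') : E₁ = E₁' ∧ E₂ = E₂' := by
  have h := hR.eq.symm.trans hR'.eq
  have hc0 := H.c_nonneg
  refine ⟨le_antisymm ?_ ?_, le_antisymm ?_ ?_⟩
  · exact H.le_of_glued_fst hR.node1 hR.node2 hR.deg1 (by have := hR.deg2; omega)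
      fun w hw => by rw [h] at hw; exact hw.1
  · exact H.le_of_glued_fst hR'.node1 hR'.node2 hR'.deg1 (by have := hR'.deg2; omega)
      fun w hw => by rw [← h] at hw; exact hw.1
  · exact H.le_of_glued_snd hR.node1 hR.node2 (by have := hR.deg1; omega) hR.deg2
      fun w hw => by rw [h] at hw; exact hw.2.1
  · exact H.le_of_glued_snd hR'.node1 hR'.node2 (by have := hR'.deg1; omega) hR'.deg2
      fun w hw => by rw [← h] at hw; exact hw.2.1


/-! ### duality against the pencil -/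

/-- **duality**: for `N` large, the pair reduction of `L(N C - D)` is the glued space of
`(N C₁ - E₁, N C₂ - E₂)`. -/
theorem dual' (hR : Red H D E₁ E₂) {N : ℕ} (hN : n₀ ≤ N)
    (h1 : c + 1 + Divisor.degree D ≤ N * Divisor.degree C₁)
    (h2 : c + 1 + Divisor.degree D ≤ N * Divisor.degree C₂) :
    redSpace2 hc (N • C - D) = glued P Q (N • C₁ - E₁) (N • C₂ - E₂) ∧
      (∀ j, (N • C₁ - E₁) (P j) = 0) ∧ (∀ j, (N • C₂ - E₂) (Q j) = 0) ∧
      c + 1 ≤ Divisor.degree (N • C₁ - E₁) ∧ c + 1 ≤ Divisor.degree (N • C₂ - E₂) := by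
  have hD0 := hR.nonneg
  have hcn := H.c_nonneg
  have hd1 := hR.deg1
  have hd2 := hR.deg2
  have hdeq := hR.deg_eq
  have hn1 : ∀ j, (N • C₁ - E₁) (P j) = 0 := fun j => by
    rw [Finsupp.sub_apply, nsmul_div_apply, H.C₁_node j, hR.node1 j]; simp
  have hn2 : ∀ j, (N • C₂ - E₂) (Q j) = 0 := fun j => by
    rw [Finsupp.sub_apply, nsmul_div_apply, H.C₂_node j, hR.node2 j]; simp
  have hdg1 : c + 1 ≤ Divisor.degree (N • C₁ - E₁) := by
    rw [map_sub, degree_nsmul']; omega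
  have hdg2 : c + 1 ≤ Divisor.degree (N • C₂ - E₂) := by
    rw [map_sub, degree_nsmul']; omega
  refine ⟨?_, hn1, hn2, hdg1, hdg2⟩
  have hprod : ∀ z ∈ redSpace2 hc D, ∀ w ∈ redSpace2 hc (N • C - D),
      z * w ∈ glued P Q (N • C₁) (N • C₂) := by
    intro z hz w hw
    have := mul_mem_redSpace2 hc hz hw
    rw [add_sub_cancel] at this
    exact H.pencil N hN this
  have hle : redSpace2 hc (N • C - D) ≤ glued P Q (N • C₁ - E₁) (N • C₂ - E₂) := by
    intro w hw
    have hwN : w ∈ glued P Q (N • C₁) (N • C₂) :=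
      H.pencil N hN (redSpace2_mono hc (sub_le_self _ hD0) hw)
    refine ⟨?_, ?_, hwN.2.2⟩
    · rw [mem_riemannRochSpace_iff]
      intro Q'
      by_cases hw0 : w.1 = 0
      · exact Or.inl hw0
      right
      obtain ⟨z, hz, hz0, hzord⟩ := H.exists_exact1 hR.node1 hR.node2 hd1 (by omega) Q'
      have hzV : z ∈ redSpace2 hc D := by rw [hR.eq]; exact hz
      have h := (mem_riemannRochSpace_iff.mp (hprod z hzV w hw).1 Q').resolve_left
        (by rw [Prod.fst_mul]; exact mul_ne_zero hz0 hw0)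
      rw [Prod.fst_mul, Q'.ord_mul hz0 hw0, hzord] at h
      rw [Finsupp.sub_apply]
      omega
    · rw [mem_riemannRochSpace_iff]
      intro Q'
      by_cases hw0 : w.2 = 0
      · exact Or.inl hw0
      right
      obtain ⟨z, hz, hz0, hzord⟩ := H.exists_exact2 hR.node1 hR.node2 (by omega) hd2 Q'
      have hzV : z ∈ redSpace2 hc D := by rw [hR.eq]; exact hz
      have h := (mem_riemannRochSpace_iff.mp (hprod z hzV w hw).2.1 Q').resolve_left
        (by rw [Prod.snd_mul]; exact mul_ne_zero hz0 hw0)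
      rw [Prod.snd_mul, Q'.ord_mul hz0 hw0, hzord] at h
      rw [Finsupp.sub_apply]
      omega
  refine Submodule.eq_of_le_of_finrank_eq hle ?_
  have hC : (N : ℤ) * Divisor.degree C = N * Divisor.degree C₁ + N * Divisor.degree C₂ := by
    rw [H.degC]; ring
  have e1 : (Module.finrank k (redSpace2 hc (N • C - D)) : ℤ)
      = Divisor.degree (N • C - D) + 1 - g :=
    H.finrank_redSpace2 (by rw [map_sub, degree_nsmul']; omega)
  have e2 := H.nr_dim (N • C₁ - E₁) (N • C₂ - E₂) hn1 hn2 (by omega) (by omega)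
  have : (Module.finrank k (redSpace2 hc (N • C - D)) : ℤ) =
      Module.finrank k (glued P Q (N • C₁ - E₁) (N • C₂ - E₂)) := by
    rw [e1, e2, map_sub, map_sub, map_sub, degree_nsmul', degree_nsmul', degree_nsmul']
    omega
  exact_mod_cast this

/-- **additivity** of the reduction -/
theorem add (hR : Red H D E₁ E₂) (hR' : Red H D' E₁' E₂') :
    Red H (D + D') (E₁ + E₁') (E₂ + E₂') := by
  have hcn := H.c_nonneg
  have hD0 := hR.nonneg
  have hD'0 := hR'.nonneg
  have hdD := hR.degD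
  have hdD' := hR'.degD
  have hE₁'0 : 0 ≤ E₁' := (nsmul_div_nonneg n₀ H.C₁_nonneg).trans hR'.big1
  have hE₂'0 : 0 ≤ E₂' := (nsmul_div_nonneg n₀ H.C₂_nonneg).trans hR'.big2
  obtain ⟨N, hN, hB1, hB2⟩ := H.exists_large (c + 1 + Divisor.degree D + Divisor.degree D')
  obtain ⟨hW, hWn1, hWn2, hWd1, hWd2⟩ := hR.dual' hN (by omega) (by omega)
  obtain ⟨hW', hWn1', hWn2', hWd1', hWd2'⟩ := hR'.dual' hN (by omega) (by omega)
  have hNN : n₀ ≤ N + N := by omega
  have htriple : ∀ x ∈ redSpace2 hc (D + D'), ∀ w ∈ glued P Q (N • C₁ - E₁) (N • C₂ - E₂),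
      ∀ w' ∈ glued P Q (N • C₁ - E₁') (N • C₂ - E₂'),
      x * (w * w') ∈ glued P Q ((N + N) • C₁) ((N + N) • C₂) := by
    intro x hx w hw w' hw'
    rw [← hW] at hw
    rw [← hW'] at hw'
    have h1 := mul_mem_redSpace2 hc hx (mul_mem_redSpace2 hc hw hw')
    have e : D + D' + (N • C - D + (N • C - D')) = (N + N) • C := by
      rw [add_nsmul]; abel
    rw [e] at h1
    exact H.pencil (N + N) hNN h1
  have hle : redSpace2 hc (D + D') ≤ glued P Q (E₁ + E₁') (E₂ + E₂') := by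
    intro x hx
    refine ⟨?_, ?_, ?_⟩
    · rw [mem_riemannRochSpace_iff]
      intro Q'
      by_cases hx0 : x.1 = 0
      · exact Or.inl hx0
      right
      obtain ⟨w, hw, hw0, hword⟩ := H.exists_exact1 hWn1 hWn2 hWd1 (by omega) Q'
      obtain ⟨w', hw', hw0', hword'⟩ := H.exists_exact1 hWn1' hWn2' hWd1' (by omega) Q'
      have h := (mem_riemannRochSpace_iff.mp (htriple x hx w hw w' hw').1 Q').resolve_left
        (by rw [Prod.fst_mul, Prod.fst_mul]; exact mul_ne_zero hx0 (mul_ne_zero hw0 hw0'))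
      rw [Prod.fst_mul, Prod.fst_mul, Q'.ord_mul hx0 (mul_ne_zero hw0 hw0'),
        Q'.ord_mul hw0 hw0', hword, hword', add_nsmul, Finsupp.add_apply, Finsupp.sub_apply,
        Finsupp.sub_apply] at h
      rw [Finsupp.add_apply]
      omega
    · rw [mem_riemannRochSpace_iff]
      intro Q'
      by_cases hx0 : x.2 = 0
      · exact Or.inl hx0
      right
      obtain ⟨w, hw, hw0, hword⟩ := H.exists_exact2 hWn1 hWn2 (by omega) hWd2 Q'
      obtain ⟨w', hw', hw0', hword'⟩ := H.exists_exact2 hWn1' hWn2' (by omega) hWd2' Q'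
      have h := (mem_riemannRochSpace_iff.mp (htriple x hx w hw w' hw').2.1 Q').resolve_left
        (by rw [Prod.snd_mul, Prod.snd_mul]; exact mul_ne_zero hx0 (mul_ne_zero hw0 hw0'))
      rw [Prod.snd_mul, Prod.snd_mul, Q'.ord_mul hx0 (mul_ne_zero hw0 hw0'),
        Q'.ord_mul hw0 hw0', hword, hword', add_nsmul, Finsupp.add_apply, Finsupp.sub_apply,
        Finsupp.sub_apply] at h
      rw [Finsupp.add_apply]
      omega
    · intro j
      obtain ⟨w, hw, hwj⟩ := H.nr_node _ _ hWn1 hWn2 (by omega) (by omega) j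
      obtain ⟨w', hw', hwj'⟩ := H.nr_node _ _ hWn1' hWn2' (by omega) (by omega) j
      have hg := (htriple x hx w hw w' hw').2.2 j
      refine GluedAt.of_mul hg ((hw.2.2 j).mul (hw'.2.2 j)) ?_
      obtain ⟨e, he1, he2⟩ := hw.2.2 j
      obtain ⟨e', he1', he2'⟩ := hw'.2.2 j
      have he : e ≠ 0 := by
        rintro rfl
        exact hwj he1
      have he' : e' ≠ 0 := by
        rintro rfl
        exact hwj' he1'
      intro h0
      have := ValueAt.unique (he1.mul he1') h0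
      exact mul_ne_zero he he' this
  have hd1 := hR.deg1
  have hd2 := hR.deg2
  have hd1' := hR'.deg1
  have hd2' := hR'.deg2
  have hn1 : ∀ j, (E₁ + E₁') (P j) = 0 := fun j => by
    rw [Finsupp.add_apply, hR.node1 j, hR'.node1 j, add_zero]
  have hn2 : ∀ j, (E₂ + E₂') (Q j) = 0 := fun j => by
    rw [Finsupp.add_apply, hR.node2 j, hR'.node2 j, add_zero]
  refine ⟨hR.big.trans (le_add_of_nonneg_right hD'0), hn1, hn2,
    hR.big1.trans (le_add_of_nonneg_right hE₁'0), hR.big2.trans (le_add_of_nonneg_right hE₂'0),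
    by rw [map_add, map_add, map_add, ← hR.deg_eq, ← hR'.deg_eq]; ring, ?_⟩
  refine Submodule.eq_of_le_of_finrank_eq hle ?_
  have e1 : (Module.finrank k (redSpace2 hc (D + D')) : ℤ)
      = Divisor.degree (D + D') + 1 - g :=
    H.finrank_redSpace2 (by rw [map_add]; omega)
  have e2 := H.nr_dim (E₁ + E₁') (E₂ + E₂') hn1 hn2 (by rw [map_add]; omega)
    (by rw [map_add]; omega)
  have hdeq := hR.deg_eq
  have hdeq' := hR'.deg_eq
  have : (Module.finrank k (redSpace2 hc (D + D')) : ℤ) =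
      Module.finrank k (glued P Q (E₁ + E₁') (E₂ + E₂')) := by
    rw [e1, e2, map_add, map_add, map_add]
    omega
  exact_mod_cast this

/-- multiples -/
theorem nsmul (hR : Red H D E₁ E₂) {m : ℕ} (hm : 1 ≤ m) : Red H (m • D) (m • E₁) (m • E₂) := by
  induction m, hm using Nat.le_induction with
  | base => simpa using hR
  | succ m _ ih =>
    rw [succ_nsmul, succ_nsmul, succ_nsmul]
    exact ih.add hR

/-- padding by multiples of the base pencil divisor -/
theorem pad (hR : Red H D E₁ E₂) (m : ℕ) :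
    Red H (D + (m * n₀) • C) (E₁ + (m * n₀) • C₁) (E₂ + (m * n₀) • C₂) := by
  rcases Nat.eq_zero_or_pos m with rfl | hm
  · simpa using hR
  · exact hR.add (Red.pencil H (Nat.le_mul_of_pos_left n₀ hm))

/-! ### sub-divisors -/

theorem map_fst_ne_bot {A : Divisor K F} (hA0 : 0 ≤ A) :
    (redSpace2 hc A).map (LinearMap.fst k Ft1 Ft2) ≠ ⊥ := by
  intro h
  have : (1 : Ft1) ∈ (redSpace2 hc A).map (LinearMap.fst k Ft1 Ft2) :=
    ⟨1, one_mem_redSpace2 hc hA0, rfl⟩
  rw [h, Submodule.mem_bot] at this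
  exact one_ne_zero this

theorem map_snd_ne_bot {A : Divisor K F} (hA0 : 0 ≤ A) :
    (redSpace2 hc A).map (LinearMap.snd k Ft1 Ft2) ≠ ⊥ := by
  intro h
  have : (1 : Ft2) ∈ (redSpace2 hc A).map (LinearMap.snd k Ft1 Ft2) :=
    ⟨1, one_mem_redSpace2 hc hA0, rfl⟩
  rw [h, Submodule.mem_bot] at this
  exact one_ne_zero this

/-- the minimal divisor pair of a sub-divisor of a divisor with a reduction -/
theorem exists_minpair (hR' : Red H D' E₁' E₂') {A : Divisor K F} (hbig : n₀ • C ≤ A)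
    (hle : A ≤ D') :
    ∃ (A₁ : Divisor k Ft1) (A₂ : Divisor k Ft2),
      IsMinDiv ((redSpace2 hc A).map (LinearMap.fst k Ft1 Ft2)) A₁ ∧
      IsMinDiv ((redSpace2 hc A).map (LinearMap.snd k Ft1 Ft2)) A₂ ∧
      A₁ ≤ E₁' ∧ A₂ ≤ E₂' ∧ n₀ • C₁ ≤ A₁ ∧ n₀ • C₂ ≤ A₂ ∧
      (∀ j, A₁ (P j) = 0) ∧ (∀ j, A₂ (Q j) = 0) ∧
      redSpace2 hc A ≤ glued P Q A₁ A₂ ∧
      Divisor.degree A ≤ Divisor.degree A₁ + Divisor.degree A₂ := by
  have hcn := H.c_nonneg
  have hA0 : 0 ≤ A := (nsmul_div_nonneg n₀ H.C_nonneg).trans hbig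
  have hVA : redSpace2 hc A ≤ glued P Q E₁' E₂' := by
    rw [← hR'.eq]; exact redSpace2_mono hc hle
  have hV1le : (redSpace2 hc A).map (LinearMap.fst k Ft1 Ft2) ≤ riemannRochSpace E₁' := by
    rintro _ ⟨z, hz, rfl⟩
    exact (hVA hz).1
  have hV2le : (redSpace2 hc A).map (LinearMap.snd k Ft1 Ft2) ≤ riemannRochSpace E₂' := by
    rintro _ ⟨z, hz, rfl⟩
    exact (hVA hz).2.1
  obtain ⟨A₁, hA₁⟩ := exists_isMinDiv (map_fst_ne_bot hA0) hV1le
  obtain ⟨A₂, hA₂⟩ := exists_isMinDiv (map_snd_ne_bot hA0) hV2le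
  have hA₁le : A₁ ≤ E₁' := hA₁.2 _ hV1le
  have hA₂le : A₂ ≤ E₂' := hA₂.2 _ hV2le
  have hp := Red.pencil H (le_refl n₀)
  have hpV : glued P Q (n₀ • C₁) (n₀ • C₂) ≤ redSpace2 hc A := by
    rw [← hp.eq]; exact redSpace2_mono hc hbig
  have hA₁big : n₀ • C₁ ≤ A₁ :=
    H.le_of_glued_fst hp.node1 hp.node2 hp.deg1 (by have := hp.deg2; omega)
      fun w hw => hA₁.1 ⟨w, hpV hw, rfl⟩
  have hA₂big : n₀ • C₂ ≤ A₂ :=
    H.le_of_glued_snd hp.node1 hp.node2 (by have := hp.deg1; omega) hp.deg2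
      fun w hw => hA₂.1 ⟨w, hpV hw, rfl⟩
  have hA₁n : ∀ j, A₁ (P j) = 0 := fun j => by
    have h1 := Finsupp.le_def.mp hA₁le (P j)
    have h2 := Finsupp.le_def.mp hA₁big (P j)
    rw [hR'.node1 j] at h1
    rw [hp.node1 j] at h2
    omega
  have hA₂n : ∀ j, A₂ (Q j) = 0 := fun j => by
    have h1 := Finsupp.le_def.mp hA₂le (Q j)
    have h2 := Finsupp.le_def.mp hA₂big (Q j)
    rw [hR'.node2 j] at h1
    rw [hp.node2 j] at h2
    omega
  have hAle : redSpace2 hc A ≤ glued P Q A₁ A₂ := fun z hz =>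
    ⟨hA₁.1 ⟨z, hz, rfl⟩, hA₂.1 ⟨z, hz, rfl⟩, (hVA hz).2.2⟩
  refine ⟨A₁, A₂, hA₁, hA₂, hA₁le, hA₂le, hA₁big, hA₂big, hA₁n, hA₂n, hAle, ?_⟩
  have hdA₁ := degree_mono hA₁big
  have hdA₂ := degree_mono hA₂big
  have hdA := degree_mono hbig
  have hdp1 := hp.deg1
  have hdp2 := hp.deg2
  have hdpe := hp.deg_eq
  have e1 : (Module.finrank k (redSpace2 hc A) : ℤ) = Divisor.degree A + 1 - g :=
    H.finrank_redSpace2 (by omega)
  have e2 := H.nr_dim A₁ A₂ hA₁n hA₂n (by omega) (by omega)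
  have h3 : (Module.finrank k (redSpace2 hc A) : ℤ) ≤ Module.finrank k (glued P Q A₁ A₂) := by
    exact_mod_cast Submodule.finrank_mono hAle
  omega

variable [Infinite k]

/-- **sub-divisors**: a divisor between the base pencil divisor and a divisor with a reduction
has a reduction. -/
theorem sub (hR' : Red H D' E₁' E₂') {A : Divisor K F} (hbig : n₀ • C ≤ A) (hle : A ≤ D') :
    ∃ (A₁ : Divisor k Ft1) (A₂ : Divisor k Ft2), Red H A A₁ A₂ ∧ A₁ ≤ E₁' ∧ A₂ ≤ E₂' := by
  have hcn := H.c_nonneg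
  have hA0 : 0 ≤ A := (nsmul_div_nonneg n₀ H.C_nonneg).trans hbig
  have hp := Red.pencil H (le_refl n₀)
  have hR'' : Red H (D' + n₀ • C) (E₁' + n₀ • C₁) (E₂' + n₀ • C₂) := hR'.add hp
  obtain ⟨B, hB⟩ : ∃ B : Divisor K F, B = D' - A + n₀ • C := ⟨_, rfl⟩
  have hBbig : n₀ • C ≤ B := by rw [hB]; exact le_add_of_nonneg_left (sub_nonneg.mpr hle)
  have hB0 : 0 ≤ B := (nsmul_div_nonneg n₀ H.C_nonneg).trans hBbig
  have hBle : B ≤ D' + n₀ • C := by
    rw [hB, Finsupp.le_def]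
    intro v
    have := Finsupp.le_def.mp hA0 v
    simp only [Finsupp.coe_add, Finsupp.coe_sub, Pi.add_apply, Pi.sub_apply, Finsupp.coe_zero,
      Pi.zero_apply] at this ⊢
    omega
  obtain ⟨A₁, A₂, hA₁, hA₂, hA₁le, hA₂le, hA₁big, hA₂big, hA₁n, hA₂n, hAle, hAdeg⟩ :=
    hR'.exists_minpair hbig hle
  obtain ⟨B₁, B₂, hB₁, hB₂, -, -, hB₁big, hB₂big, -, -, -, hBdeg⟩ :=
    hR''.exists_minpair hBbig hBle
  have hAB : A + B = D' + n₀ • C := by rw [hB]; abel
  have h1 : A₁ + B₁ ≤ E₁' + n₀ • C₁ := by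
    rw [Finsupp.le_def]
    intro Q'
    obtain ⟨a, haV, ha0, haord⟩ := exists_generic (map_fst_ne_bot hA0) hA₁ {Q'}
    obtain ⟨b, hbV, hb0, hbord⟩ := exists_generic (map_fst_ne_bot hB0) hB₁ {Q'}
    obtain ⟨z, hz, rfl⟩ := haV
    obtain ⟨z', hz', rfl⟩ := hbV
    have hzz' := mul_mem_redSpace2 hc hz hz'
    rw [hAB, hR''.eq] at hzz'
    have h := (mem_riemannRochSpace_iff.mp hzz'.1 Q').resolve_left (mul_ne_zero ha0 hb0)
    change -(E₁' + n₀ • C₁) Q' ≤ Q'.ord (z.1 * z'.1) at h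
    have haord' := haord Q' (Finset.mem_singleton_self Q')
    have hbord' := hbord Q' (Finset.mem_singleton_self Q')
    change Q'.ord z.1 = -A₁ Q' at haord'
    change Q'.ord z'.1 = -B₁ Q' at hbord'
    have ha0' : z.1 ≠ 0 := ha0
    have hb0' : z'.1 ≠ 0 := hb0
    rw [Q'.ord_mul ha0' hb0', haord', hbord'] at h
    rw [Finsupp.add_apply]
    omega
  have h2 : A₂ + B₂ ≤ E₂' + n₀ • C₂ := by
    rw [Finsupp.le_def]
    intro Q'
    obtain ⟨a, haV, ha0, haord⟩ := exists_generic (map_snd_ne_bot hA0) hA₂ {Q'}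
    obtain ⟨b, hbV, hb0, hbord⟩ := exists_generic (map_snd_ne_bot hB0) hB₂ {Q'}
    obtain ⟨z, hz, rfl⟩ := haV
    obtain ⟨z', hz', rfl⟩ := hbV
    have hzz' := mul_mem_redSpace2 hc hz hz'
    rw [hAB, hR''.eq] at hzz'
    have h := (mem_riemannRochSpace_iff.mp hzz'.2.1 Q').resolve_left (mul_ne_zero ha0 hb0)
    change -(E₂' + n₀ • C₂) Q' ≤ Q'.ord (z.2 * z'.2) at h
    have haord' := haord Q' (Finset.mem_singleton_self Q')
    have hbord' := hbord Q' (Finset.mem_singleton_self Q')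
    change Q'.ord z.2 = -A₂ Q' at haord'
    change Q'.ord z'.2 = -B₂ Q' at hbord'
    have ha0' : z.2 ≠ 0 := ha0
    have hb0' : z'.2 ≠ 0 := hb0
    rw [Q'.ord_mul ha0' hb0', haord', hbord'] at h
    rw [Finsupp.add_apply]
    omega
  have d1 := degree_mono h1
  have d2 := degree_mono h2
  rw [map_add, map_add, degree_nsmul'] at d1 d2
  have hC : (n₀ : ℤ) * Divisor.degree C = n₀ * Divisor.degree C₁ + n₀ * Divisor.degree C₂ := by
    rw [H.degC]; ring
  have hdB : Divisor.degree B = Divisor.degree D' - Divisor.degree A + n₀ * Divisor.degree C := by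
    rw [hB, map_add, map_sub, degree_nsmul']
  have hdeq' := hR'.deg_eq
  have hdegA : Divisor.degree A₁ + Divisor.degree A₂ = Divisor.degree A := by omega
  have hdA₁ := degree_mono hA₁big
  have hdA₂ := degree_mono hA₂big
  have hdA := degree_mono hbig
  have hdp1 := hp.deg1
  have hdp2 := hp.deg2
  have hdpe := hp.deg_eq
  refine ⟨A₁, A₂, ⟨hbig, hA₁n, hA₂n, hA₁big, hA₂big, hdegA, ?_⟩, hA₁le, hA₂le⟩
  refine Submodule.eq_of_le_of_finrank_eq hAle ?_
  have e1 : (Module.finrank k (redSpace2 hc A) : ℤ) = Divisor.degree A + 1 - g :=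
    H.finrank_redSpace2 (by omega)
  have e2 := H.nr_dim A₁ A₂ hA₁n hA₂n (by omega) (by omega)
  have : (Module.finrank k (redSpace2 hc A) : ℤ) = Module.finrank k (glued P Q A₁ A₂) := by
    rw [e1, e2]; omega
  exact_mod_cast this

/-! ### principal divisors -/

/-- **principal divisors**: multiplication by a common unit `y` whose pair reduction is glued and
is a unit at the nodes shifts the reduction by the divisors of the two reductions of `y`. -/
theorem princ (hR : Red H D E₁ E₂) {y : F} (h1 : y ∈ R1.Rw) (h2 : y ∈ R2.Rw)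
    (hy1 : R1.red ⟨y, h1⟩ ≠ 0) (hy2 : R2.red ⟨y, h2⟩ ≠ 0) {Dy : Divisor K F}
    {Dt₁ : Divisor k Ft1} {Dt₂ : Divisor k Ft2} (hDy : ∀ v : Place K F, Dy v = v.ord y)
    (hDt₁ : ∀ v : Place k Ft1, Dt₁ v = v.ord (R1.red ⟨y, h1⟩))
    (hDt₂ : ∀ v : Place k Ft2, Dt₂ v = v.ord (R2.red ⟨y, h2⟩))
    (hn1 : ∀ j, Dt₁ (P j) = 0) (hn2 : ∀ j, Dt₂ (Q j) = 0)
    (hgl : ∀ j, GluedAt P Q j (R1.red ⟨y, h1⟩, R2.red ⟨y, h2⟩)) (hbig : n₀ • C ≤ D + Dy) :
    Red H (D + Dy) (E₁ + Dt₁) (E₂ + Dt₂) := by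
  have hcn := H.c_nonneg
  have hy0 : y ≠ 0 := by
    rintro rfl
    exact hy1 (map_zero R1.red)
  have hdegDy : Divisor.degree Dy = 0 := by
    obtain ⟨Dy', hDy', hd⟩ := HasPrincipalDivisors.exists_divisor (K := K) y hy0
    have : Dy = Dy' := Finsupp.ext fun v => by rw [hDy v, hDy' v]
    rw [this]; exact hd
  have hdegDt₁ : Divisor.degree Dt₁ = 0 := by
    obtain ⟨D', hD', hd⟩ := HasPrincipalDivisors.exists_divisor (K := k) _ hy1
    have : Dt₁ = D' := Finsupp.ext fun v => by rw [hDt₁ v, hD' v]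
    rw [this]; exact hd
  have hdegDt₂ : Divisor.degree Dt₂ = 0 := by
    obtain ⟨D', hD', hd⟩ := HasPrincipalDivisors.exists_divisor (K := k) _ hy2
    have : Dt₂ = D' := Finsupp.ext fun v => by rw [hDt₂ v, hD' v]
    rw [this]; exact hd
  set u : Ft1 × Ft2 := (R1.red ⟨y, h1⟩, R2.red ⟨y, h2⟩) with hu
  have hunode : ∀ j, ¬ ValueAt (P j) u.1 (0 : k) := by
    intro j
    rw [valueAt_zero_iff]
    push Not
    refine ⟨hy1, ?_⟩
    have := hDt₁ (P j)
    rw [hn1 j] at this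
    show (P j).ord (R1.red ⟨y, h1⟩) < 1
    omega
  have hmem : ∀ z : Ft1 × Ft2, z ∈ glued P Q (E₁ + Dt₁) (E₂ + Dt₂) ↔ u * z ∈ glued P Q E₁ E₂ := by
    intro z
    have e1 := mul_mem_riemannRochSpace_iff hy1 hDt₁ (E₁ + Dt₁) z.1
    have e2 := mul_mem_riemannRochSpace_iff hy2 hDt₂ (E₂ + Dt₂) z.2
    rw [add_sub_cancel_right] at e1 e2
    constructor
    · rintro ⟨hz1, hz2, hz3⟩
      exact ⟨e1.mpr hz1, e2.mpr hz2, fun j => (hgl j).mul (hz3 j)⟩
    · rintro ⟨hz1, hz2, hz3⟩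
      refine ⟨e1.mp hz1, e2.mp hz2, fun j => ?_⟩
      have := hz3 j
      rw [mul_comm] at this
      exact GluedAt.of_mul this (hgl j) (hunode j)
  have heq : redSpace2 hc (D + Dy) = glued P Q (E₁ + Dt₁) (E₂ + Dt₂) := by
    ext z
    rw [← mul_mem_redSpace2_iff hc h1 h2 hy1 hy2 hDy D z, hR.eq, hmem z]
  have hp := Red.pencil H (le_refl n₀)
  have hpV : glued P Q (n₀ • C₁) (n₀ • C₂) ≤ glued P Q (E₁ + Dt₁) (E₂ + Dt₂) := by
    rw [← hp.eq, ← heq]; exact redSpace2_mono hc hbig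
  refine ⟨hbig, fun j => by rw [Finsupp.add_apply, hR.node1 j, hn1 j, add_zero],
    fun j => by rw [Finsupp.add_apply, hR.node2 j, hn2 j, add_zero], ?_, ?_,
    by rw [map_add, map_add, map_add, hdegDy, hdegDt₁, hdegDt₂, ← hR.deg_eq]; ring, heq⟩
  · exact H.le_of_glued_fst hp.node1 hp.node2 hp.deg1 (by have := hp.deg2; omega)
      fun w hw => (hpV hw).1
  · exact H.le_of_glued_snd hp.node1 hp.node2 (by have := hp.deg1; omega) hp.deg2
      fun w hw => (hpV hw).2.1

end Red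

end Fermat.Agent.GS.Nodal.LSR2
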