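/-
CELL-S / GATE-S hedge, node [INST²](a), ABSTRACT half, part 3 (helper16): good places, the discs of
the smooth points of the special fibre, and the FIBRE FORMULA on the nodal frame.

* `GoodPlace H v` : `v + n₀ C` has a reduction; `disc1 H Q'`, `disc2 H Q'` : the places reducing to
  the place `Q'` of the first / second component (never a node);
* `Red.of_good` : an effective divisor supported on good places reduces to its push-forward;
* `ord_red_eq_sum2` : **fibre formula**. If `y` is a unit for both valuations, all POLES of `y` are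
  good places and both reductions of `y` are units at the nodes, then all ZEROS of `y` are good
  places and `ord_{Q'} (red_i y) = ∑_{v ∈ disc_i Q'} ord_v y` for every place `Q'` of `Ft_i`.
-/
import Mathlib
import Fermat.Agent.GS.Nodal.LSR2Red

set_option autoImplicit false
set_option linter.unusedSectionVars false

noncomputable section

open AlgebraicCurve

namespace Fermat.Agent.GS.Nodal.LSR2

open Fermat.Agent.RRh45 Fermat.Agent.GJ.S37MinDiv Fermat.Agent.GJ.J1 Fermat.Agent.GK.MultiVal
open Fermat.Agent.GK.NodalGraded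

variable {K F k Ft1 Ft2 : Type*} [Field K] [Field F] [Algebra K F] [Field k]
  [Field Ft1] [Algebra k Ft1] [Field Ft2] [Algebra k Ft2]
variable {R1 : RedData K F k Ft1} {R2 : RedData K F k Ft2} {hc : RedCompat R1 R2}
variable {ι : Type*} {P : ι → Place k Ft1} {Q : ι → Place k Ft2}
variable {C : Divisor K F} {C₁ : Divisor k Ft1} {C₂ : Divisor k Ft2} {g c : ℤ} {n₀ : ℕ}
variable [FiniteResidues K F] [HasPrincipalDivisors K F] [Nonempty (Place K F)]
variable [FiniteResidues k Ft1] [HasPrincipalDivisors k Ft1] [Nonempty (Place k Ft1)]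
variable [FiniteResidues k Ft2] [HasPrincipalDivisors k Ft2] [Nonempty (Place k Ft2)]

/-- an effective divisor of degree one is a single place of degree one -/
theorem eq_single_of_nonneg_of_degree_one {L E : Type*} [Field L] [Field E] [Algebra L E]
    [FiniteResidues L E] (hdeg1 : ∀ v : Place L E, v.deg = 1) {d : Divisor L E} (hd : 0 ≤ d)
    (hdeg : Divisor.degree d = 1) : ∃ v : Place L E, d = Finsupp.single v 1 := by
  have hne : d ≠ 0 := by
    rintro rfl
    simp at hdeg
  obtain ⟨v, hv⟩ : ∃ v, d v ≠ 0 := by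
    by_contra hall
    push Not at hall
    exact hne (Finsupp.ext hall)
  have hv0 : 0 ≤ d v := by simpa using Finsupp.le_def.mp hd v
  have hle : Finsupp.single v (1 : ℤ) ≤ d := by
    rw [Finsupp.le_def]
    intro w
    by_cases hw : w = v
    · subst hw; rw [Finsupp.single_eq_same]; omega
    · rw [Finsupp.single_eq_of_ne hw]; simpa using Finsupp.le_def.mp hd w
  refine ⟨v, (eq_of_le_of_degree_eq hle ?_).symm⟩
  rw [Divisor.degree_single, hdeg1 v, hdeg]; simp

/-! ### good places and discs -/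

/-- `v` is a **good place**: `v + n₀ C` has a reduction (i.e. `v` reduces to a smooth point). -/
def GoodPlace (H : NodalHyp hc P Q C C₁ C₂ g c n₀) (v : Place K F) : Prop :=
  ∃ (E₁ : Divisor k Ft1) (E₂ : Divisor k Ft2), Red H (Finsupp.single v 1 + n₀ • C) E₁ E₂

/-- the places of `F` reducing to the place `Q'` of the first component -/
def disc1 (H : NodalHyp hc P Q C C₁ C₂ g c n₀) (Q' : Place k Ft1) : Set (Place K F) :=
  {v | Red H (Finsupp.single v 1 + n₀ • C) (Finsupp.single Q' 1 + n₀ • C₁) (n₀ • C₂)}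

/-- the places of `F` reducing to the place `Q'` of the second component -/
def disc2 (H : NodalHyp hc P Q C C₁ C₂ g c n₀) (Q' : Place k Ft2) : Set (Place K F) :=
  {v | Red H (Finsupp.single v 1 + n₀ • C) (n₀ • C₁) (Finsupp.single Q' 1 + n₀ • C₂)}

variable {H : NodalHyp hc P Q C C₁ C₂ g c n₀}

/-- **classification**: the reduction of `v + n₀ C` is `Q' + n₀ C₁` on one component. -/
theorem Red.single_cases {v : Place K F} {E₁ : Divisor k Ft1} {E₂ : Divisor k Ft2}
    (hR : Red H (Finsupp.single v 1 + n₀ • C) E₁ E₂) :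
    (∃ Q' : Place k Ft1, E₁ = Finsupp.single Q' 1 + n₀ • C₁ ∧ E₂ = n₀ • C₂) ∨
      (∃ Q' : Place k Ft2, E₁ = n₀ • C₁ ∧ E₂ = Finsupp.single Q' 1 + n₀ • C₂) := by
  have hX1 : 0 ≤ E₁ - n₀ • C₁ := sub_nonneg.mpr hR.big1
  have hX2 : 0 ≤ E₂ - n₀ • C₂ := sub_nonneg.mpr hR.big2
  have hd1 := degree_nonneg_of_nonneg hX1
  have hd2 := degree_nonneg_of_nonneg hX2
  have hdeq := hR.deg_eq
  rw [map_add, Divisor.degree_single, H.degF v, degree_nsmul', H.degC] at hdeq
  rw [map_sub, degree_nsmul'] at hd1 hd2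
  have hsum : Divisor.degree (E₁ - n₀ • C₁) + Divisor.degree (E₂ - n₀ • C₂) = 1 := by
    rw [map_sub, map_sub, degree_nsmul', degree_nsmul']
    push_cast at hdeq
    linarith
  rw [map_sub, map_sub, degree_nsmul', degree_nsmul'] at hsum
  by_cases h0 : Divisor.degree E₂ - n₀ * Divisor.degree C₂ = 0
  · left
    have hE2 : E₂ - n₀ • C₂ = 0 :=
      eq_zero_of_nonneg_of_degree_eq_zero hX2 (by rw [map_sub, degree_nsmul']; exact h0)
    obtain ⟨Q', hQ'⟩ := eq_single_of_nonneg_of_degree_one H.degFt1 hX1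
      (by rw [map_sub, degree_nsmul']; omega)
    exact ⟨Q', by rw [← hQ', sub_add_cancel], (sub_eq_zero.mp hE2)⟩
  · right
    have hE1 : E₁ - n₀ • C₁ = 0 :=
      eq_zero_of_nonneg_of_degree_eq_zero hX1 (by rw [map_sub, degree_nsmul']; omega)
    obtain ⟨Q', hQ'⟩ := eq_single_of_nonneg_of_degree_one H.degFt2 hX2
      (by rw [map_sub, degree_nsmul']; omega)
    exact ⟨Q', (sub_eq_zero.mp hE1), by rw [← hQ', sub_add_cancel]⟩

theorem goodPlace_iff {v : Place K F} :
    GoodPlace H v ↔ (∃ Q', v ∈ disc1 H Q') ∨ (∃ Q', v ∈ disc2 H Q') := by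
  constructor
  · rintro ⟨E₁, E₂, hR⟩
    rcases hR.single_cases with ⟨Q', rfl, rfl⟩ | ⟨Q', rfl, rfl⟩
    · exact Or.inl ⟨Q', hR⟩
    · exact Or.inr ⟨Q', hR⟩
  · rintro (⟨Q', h⟩ | ⟨Q', h⟩)
    · exact ⟨_, _, h⟩
    · exact ⟨_, _, h⟩

theorem single_add_left_injective {L E : Type*} [Field L] [Field E] [Algebra L E]
    {v w : Place L E} {X : Divisor L E} (h : Finsupp.single v 1 + X = Finsupp.single w 1 + X) :
    v = w := by
  have h' : (Finsupp.single v (1 : ℤ) : Divisor L E) = Finsupp.single w 1 := add_right_cancel h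
  by_contra hne
  have := DFunLike.congr_fun h' v
  rw [Finsupp.single_eq_same, Finsupp.single_eq_of_ne hne] at this
  exact one_ne_zero this

theorem single_add_ne_self {L E : Type*} [Field L] [Field E] [Algebra L E]
    {v : Place L E} {X : Divisor L E} : Finsupp.single v 1 + X ≠ X := by
  intro h
  have h' : (Finsupp.single v (1 : ℤ) : Divisor L E) = 0 := by
    have := add_right_cancel (b := X) (a := Finsupp.single v (1 : ℤ)) (c := 0) (by rw [h, zero_add])
    exact this
  have := DFunLike.congr_fun h' v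
  rw [Finsupp.single_eq_same] at this
  exact one_ne_zero this

theorem disc1_unique {v : Place K F} {Q' Q'' : Place k Ft1} (h : v ∈ disc1 H Q')
    (h' : v ∈ disc1 H Q'') : Q' = Q'' :=
  single_add_left_injective (Red.unique h h').1

theorem disc2_unique {v : Place K F} {Q' Q'' : Place k Ft2} (h : v ∈ disc2 H Q')
    (h' : v ∈ disc2 H Q'') : Q' = Q'' :=
  single_add_left_injective (Red.unique h h').2

theorem disc1_disc2_disjoint {v : Place K F} {Q' : Place k Ft1} {Q'' : Place k Ft2}
    (h : v ∈ disc1 H Q') (h' : v ∈ disc2 H Q'') : False :=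
  single_add_ne_self (Red.unique h h').1

/-- no place reduces to a node -/
theorem notMem_disc1_node (v : Place K F) (j : ι) : v ∉ disc1 H (P j) := by
  intro h
  have := h.node1 j
  rw [Finsupp.add_apply, Finsupp.single_eq_same, nsmul_div_apply, H.C₁_node j] at this
  omega

theorem notMem_disc2_node (v : Place K F) (j : ι) : v ∉ disc2 H (Q j) := by
  intro h
  have := h.node2 j
  rw [Finsupp.add_apply, Finsupp.single_eq_same, nsmul_div_apply, H.C₂_node j] at this
  omega

/-! ### the push-forward of divisors supported on good places -/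

open Classical in
/-- the first component of the reduction of a good place (`0` for other places) -/
def rd1 (H : NodalHyp hc P Q C C₁ C₂ g c n₀) (v : Place K F) : Divisor k Ft1 :=
  if h : GoodPlace H v then h.choose - n₀ • C₁ else 0

open Classical in
/-- the second component of the reduction of a good place (`0` for other places) -/
def rd2 (H : NodalHyp hc P Q C C₁ C₂ g c n₀) (v : Place K F) : Divisor k Ft2 :=
  if h : GoodPlace H v then h.choose_spec.choose - n₀ • C₂ else 0

theorem rd_spec {v : Place K F} (h : GoodPlace H v) :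
    Red H (Finsupp.single v 1 + n₀ • C) (rd1 H v + n₀ • C₁) (rd2 H v + n₀ • C₂) := by
  rw [rd1, rd2, dif_pos h, dif_pos h, sub_add_cancel, sub_add_cancel]
  exact h.choose_spec.choose_spec

open Classical in
theorem rd1_apply {v : Place K F} (h : GoodPlace H v) (Q' : Place k Ft1) :
    rd1 H v Q' = if v ∈ disc1 H Q' then 1 else 0 := by
  have hs := rd_spec h
  rcases hs.single_cases with ⟨Q'', e1, e2⟩ | ⟨Q'', e1, e2⟩
  · have hr : rd1 H v = Finsupp.single Q'' 1 := add_right_cancel e1
    have hmem : v ∈ disc1 H Q'' := by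
      show Red H _ _ _
      rw [← e1, ← e2]; exact hs
    by_cases hv : v ∈ disc1 H Q'
    · rw [if_pos hv, disc1_unique hv hmem, hr, Finsupp.single_eq_same]
    · rw [if_neg hv, hr]
      have hne : Q' ≠ Q'' := by
        rintro rfl
        exact hv hmem
      exact Finsupp.single_eq_of_ne hne
  · have hr : rd1 H v = 0 := by
      have : rd1 H v + n₀ • C₁ = 0 + n₀ • C₁ := by rw [zero_add]; exact e1
      exact add_right_cancel this
    have hmem : v ∈ disc2 H Q'' := by
      show Red H _ _ _
      rw [← e1, ← e2]; exact hs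
    have hv : v ∉ disc1 H Q' := fun hv => disc1_disc2_disjoint hv hmem
    rw [if_neg hv, hr]
    rfl

open Classical in
theorem rd2_apply {v : Place K F} (h : GoodPlace H v) (Q' : Place k Ft2) :
    rd2 H v Q' = if v ∈ disc2 H Q' then 1 else 0 := by
  have hs := rd_spec h
  rcases hs.single_cases with ⟨Q'', e1, e2⟩ | ⟨Q'', e1, e2⟩
  · have hr : rd2 H v = 0 := by
      have : rd2 H v + n₀ • C₂ = 0 + n₀ • C₂ := by rw [zero_add]; exact e2
      exact add_right_cancel this
    have hmem : v ∈ disc1 H Q'' := by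
      show Red H _ _ _
      rw [← e1, ← e2]; exact hs
    have hv : v ∉ disc2 H Q' := fun hv => disc1_disc2_disjoint hmem hv
    rw [if_neg hv, hr]
    rfl
  · have hr : rd2 H v = Finsupp.single Q'' 1 := add_right_cancel e2
    have hmem : v ∈ disc2 H Q'' := by
      show Red H _ _ _
      rw [← e1, ← e2]; exact hs
    by_cases hv : v ∈ disc2 H Q'
    · rw [if_pos hv, disc2_unique hv hmem, hr, Finsupp.single_eq_same]
    · rw [if_neg hv, hr]
      have hne : Q' ≠ Q'' := by
        rintro rfl
        exact hv hmem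
      exact Finsupp.single_eq_of_ne hne

/-- the push-forward to the first component -/
def push1 (H : NodalHyp hc P Q C C₁ C₂ g c n₀) : Divisor K F →+ Divisor k Ft1 :=
  Finsupp.liftAddHom fun v => zmultiplesHom (Divisor k Ft1) (rd1 H v)

/-- the push-forward to the second component -/
def push2 (H : NodalHyp hc P Q C C₁ C₂ g c n₀) : Divisor K F →+ Divisor k Ft2 :=
  Finsupp.liftAddHom fun v => zmultiplesHom (Divisor k Ft2) (rd2 H v)

theorem push1_single (v : Place K F) (n : ℤ) :
    push1 H (Finsupp.single v n) = n • rd1 H v := by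
  rw [push1, Finsupp.liftAddHom_apply_single, zmultiplesHom_apply]

theorem push2_single (v : Place K F) (n : ℤ) :
    push2 H (Finsupp.single v n) = n • rd2 H v := by
  rw [push2, Finsupp.liftAddHom_apply_single, zmultiplesHom_apply]

theorem push1_apply (D : Divisor K F) (Q' : Place k Ft1) :
    push1 H D Q' = ∑ v ∈ D.support, D v * rd1 H v Q' := by
  rw [push1, Finsupp.liftAddHom_apply, Finsupp.sum, Finsupp.finsetSum_apply]
  refine Finset.sum_congr rfl fun v _ => ?_
  rw [zmultiplesHom_apply, Finsupp.smul_apply, smul_eq_mul]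

theorem push2_apply (D : Divisor K F) (Q' : Place k Ft2) :
    push2 H D Q' = ∑ v ∈ D.support, D v * rd2 H v Q' := by
  rw [push2, Finsupp.liftAddHom_apply, Finsupp.sum, Finsupp.finsetSum_apply]
  refine Finset.sum_congr rfl fun v _ => ?_
  rw [zmultiplesHom_apply, Finsupp.smul_apply, smul_eq_mul]

/-- **an effective divisor supported on good places reduces to its push-forward** (after padding
by a large multiple of the base pencil divisor). -/
theorem Red.of_good (H : NodalHyp hc P Q C C₁ C₂ g c n₀) {Z : Divisor K F} (hZ : 0 ≤ Z)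
    (hgood : ∀ v ∈ Z.support, GoodPlace H v) :
    ∃ M₀ : ℕ, ∀ M : ℕ, M₀ ≤ M →
      Red H (Z + (M * n₀) • C) (push1 H Z + (M * n₀) • C₁) (push2 H Z + (M * n₀) • C₂) := by
  classical
  induction Z using Finsupp.induction with
  | zero =>
    refine ⟨1, fun M hM => ?_⟩
    rw [map_zero, map_zero, zero_add, zero_add, zero_add]
    exact Red.pencil H (Nat.le_mul_of_pos_left n₀ hM)
  | single_add a b f haf hb ih =>
    have hfa : f a = 0 := Finsupp.notMem_support_iff.mp haf
    have hb0 : 0 ≤ b := by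
      have := Finsupp.le_def.mp hZ a
      simpa [hfa] using this
    have hf0 : 0 ≤ f := by
      rw [Finsupp.le_def]
      intro w
      by_cases hw : w = a
      · subst hw; simp [hfa]
      · have := Finsupp.le_def.mp hZ w
        simpa [Finsupp.single_eq_of_ne hw] using this
    have hga : GoodPlace H a := by
      apply hgood
      rw [Finsupp.mem_support_iff, Finsupp.add_apply, Finsupp.single_eq_same, hfa, add_zero]
      exact hb
    have hgf : ∀ v ∈ f.support, GoodPlace H v := by
      intro v hv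
      apply hgood
      have hva : v ≠ a := by
        rintro rfl
        exact haf hv
      rw [Finsupp.mem_support_iff, Finsupp.add_apply, Finsupp.single_eq_of_ne hva, zero_add]
      exact Finsupp.mem_support_iff.mp hv
    obtain ⟨M₀f, hM₀f⟩ := ih hf0 hgf
    obtain ⟨m, rfl⟩ : ∃ m : ℕ, b = m := ⟨b.toNat, (Int.toNat_of_nonneg hb0).symm⟩
    have hm1 : 1 ≤ m := by
      rcases Nat.eq_zero_or_pos m with rfl | h
      · exact absurd rfl hb
      · exact h
    refine ⟨m + M₀f, fun M hM => ?_⟩
    obtain ⟨M', rfl⟩ : ∃ M', M = m + M' := ⟨M - m, by omega⟩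
    have hM' : M₀f ≤ M' := by omega
    have hsum := ((rd_spec hga).nsmul hm1).add (hM₀f M' hM')
    have eD : Finsupp.single a (m : ℤ) + f + ((m + M') * n₀) • C
        = m • (Finsupp.single a 1 + n₀ • C) + (f + (M' * n₀) • C) := by
      have e1 : (Finsupp.single a (m : ℤ) : Divisor K F) = m • Finsupp.single a 1 := by
        rw [Finsupp.smul_single, nsmul_eq_mul, mul_one]
      rw [e1, add_mul, add_nsmul, mul_nsmul', nsmul_add]
      abel
    have eE1 : push1 H (Finsupp.single a (m : ℤ) + f) + ((m + M') * n₀) • C₁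
        = m • (rd1 H a + n₀ • C₁) + (push1 H f + (M' * n₀) • C₁) := by
      rw [map_add, push1_single, natCast_zsmul, add_mul, add_nsmul, mul_nsmul', nsmul_add]
      abel
    have eE2 : push2 H (Finsupp.single a (m : ℤ) + f) + ((m + M') * n₀) • C₂
        = m • (rd2 H a + n₀ • C₂) + (push2 H f + (M' * n₀) • C₂) := by
      rw [map_add, push2_single, natCast_zsmul, add_mul, add_nsmul, mul_nsmul', nsmul_add]
      abel
    rw [eD, eE1, eE2]
    exact hsum

/-! ### the fibre formula -/

variable [Infinite k]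

open Classical in
/-- **The fibre formula on the nodal frame.**  Let `y` be a unit for both valuations whose poles
are good places and whose two reductions are units at the nodes.  Then the zeros of `y` are good
places, and the order of `red_i y` at any place `Q'` of the `i`-th component of the special fibre
is the sum of the orders of `y` over the disc of `Q'`. -/
theorem ord_red_eq_sum2 (H : NodalHyp hc P Q C C₁ C₂ g c n₀) {y : F} (h1 : y ∈ R1.Rw)
    (h2 : y ∈ R2.Rw) (hy1 : R1.red ⟨y, h1⟩ ≠ 0) (hy2 : R2.red ⟨y, h2⟩ ≠ 0) {Dy : Divisor K F}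
    (hDy : ∀ v : Place K F, Dy v = v.ord y)
    (hpole : ∀ v : Place K F, v.ord y < 0 → GoodPlace H v)
    (hn1 : ∀ j, (P j).ord (R1.red ⟨y, h1⟩) = 0) (hn2 : ∀ j, (Q j).ord (R2.red ⟨y, h2⟩) = 0) :
    (∀ v : Place K F, 0 < v.ord y → GoodPlace H v) ∧
    (∀ Q' : Place k Ft1, Q'.ord (R1.red ⟨y, h1⟩) =
      ∑ v ∈ Dy.support.filter (fun v => v ∈ disc1 H Q'), v.ord y) ∧
    (∀ Q' : Place k Ft2, Q'.ord (R2.red ⟨y, h2⟩) =
      ∑ v ∈ Dy.support.filter (fun v => v ∈ disc2 H Q'), v.ord y) := by
  obtain ⟨Dt₁, hDt₁, -⟩ := HasPrincipalDivisors.exists_divisor (K := k) _ hy1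
  obtain ⟨Dt₂, hDt₂, -⟩ := HasPrincipalDivisors.exists_divisor (K := k) _ hy2
  -- poles and zeros
  obtain ⟨Pol, hPol⟩ : ∃ Pol : Divisor K F, Pol = (-Dy) ⊔ 0 := ⟨_, rfl⟩
  have hPolv : ∀ v, Pol v = max (-(Dy v)) 0 := fun v => by
    rw [hPol, Finsupp.sup_apply, Finsupp.neg_apply]; rfl
  have hPol0 : 0 ≤ Pol := by rw [hPol]; exact le_sup_right
  obtain ⟨Zer, hZer⟩ : ∃ Zer : Divisor K F, Zer = Pol + Dy := ⟨_, rfl⟩
  have hZerv : ∀ v, Zer v = max (Dy v) 0 := fun v => by
    rw [hZer, Finsupp.add_apply, hPolv v]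
    rcases le_total (-(Dy v)) 0 with h | h
    · rw [max_eq_right h, max_eq_left (by omega)]; ring
    · rw [max_eq_left h, max_eq_right (by omega)]; ring
  have hZer0 : 0 ≤ Zer := by
    rw [Finsupp.le_def]
    intro v
    rw [hZerv v]
    exact le_max_right _ _
  have hPolgood : ∀ v ∈ Pol.support, GoodPlace H v := by
    intro v hv
    apply hpole
    rw [Finsupp.mem_support_iff, hPolv v] at hv
    rw [← hDy v]
    by_contra hge
    exact hv (max_eq_right (by omega))
  obtain ⟨M₀, hM₀⟩ := Red.of_good H hPol0 hPolgood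
  obtain ⟨M, hM, hM1⟩ : ∃ M : ℕ, M₀ ≤ M ∧ 1 ≤ M := ⟨max M₀ 1, le_max_left _ _, le_max_right _ _⟩
  have hRP := hM₀ M hM
  have hpad0 : (0 : Divisor K F) ≤ (M * n₀) • C := nsmul_div_nonneg _ H.C_nonneg
  have hyL : y ∈ riemannRochSpace (Pol + (M * n₀) • C) := by
    rw [hPol]
    exact riemannRochSpace_mono (le_add_of_nonneg_right hpad0)
      (mem_riemannRochSpace_neg_sup_zero hDy)
  have hu : (R1.red ⟨y, h1⟩, R2.red ⟨y, h2⟩) ∈ redSpace2 hc (Pol + (M * n₀) • C) :=
    ⟨y, h1, h2, hyL, rfl, rfl⟩
  rw [hRP.eq] at hu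
  have hDeq : Pol + (M * n₀) • C + Dy = Zer + (M * n₀) • C := by rw [hZer]; abel
  have hn₀M : n₀ • C ≤ (M * n₀) • C :=
    nsmul_div_le (Nat.le_mul_of_pos_left n₀ hM1) H.C_nonneg
  have hbig : n₀ • C ≤ Pol + (M * n₀) • C + Dy := by
    rw [hDeq]
    exact hn₀M.trans (le_add_of_nonneg_left hZer0)
  have hRZ := hRP.princ h1 h2 hy1 hy2 hDy hDt₁ hDt₂
    (fun j => by rw [hDt₁ (P j), hn1 j]) (fun j => by rw [hDt₂ (Q j), hn2 j]) hu.2.2 hbig
  -- zeros are good
  have hzero : ∀ v : Place K F, 0 < v.ord y → GoodPlace H v := by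
    intro v hv
    have hle : Finsupp.single v 1 + n₀ • C ≤ Pol + (M * n₀) • C + Dy := by
      rw [hDeq, Finsupp.le_def]
      intro w
      have h1' := Finsupp.le_def.mp hn₀M w
      have h2' := hZerv w
      rw [Finsupp.add_apply, Finsupp.add_apply]
      by_cases hw : w = v
      · subst hw
        rw [Finsupp.single_eq_same]
        have : 1 ≤ Dy w := by rw [hDy w]; omega
        have : Zer w = Dy w := by rw [h2']; exact max_eq_left (by omega)
        omega
      · rw [Finsupp.single_eq_of_ne hw]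
        have : 0 ≤ Zer w := by rw [h2']; exact le_max_right _ _
        omega
    obtain ⟨A₁, A₂, hRA, -, -⟩ := hRZ.sub
      (le_add_of_nonneg_left (Finsupp.single_nonneg.mpr zero_le_one)) hle
    exact ⟨A₁, A₂, hRA⟩
  have hZergood : ∀ v ∈ Zer.support, GoodPlace H v := by
    intro v hv
    apply hzero
    rw [Finsupp.mem_support_iff, hZerv v] at hv
    rw [← hDy v]
    by_contra hle
    exact hv (max_eq_right (by omega))
  obtain ⟨M₀', hM₀'⟩ := Red.of_good H hZer0 hZergood
  obtain ⟨M₂, hM₂, hMM₂⟩ : ∃ M₂ : ℕ, M₀' ≤ M₂ ∧ M ≤ M₂ :=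
    ⟨max M₀' M, le_max_left _ _, le_max_right _ _⟩
  have hRZ₂ := hM₀' M₂ hM₂
  have hRZpad := hRZ.pad (M₂ - M)
  have hMn : M * n₀ + (M₂ - M) * n₀ = M₂ * n₀ := by
    rw [← add_mul]; congr 1; omega
  have eD : Pol + (M * n₀) • C + Dy + ((M₂ - M) * n₀) • C = Zer + (M₂ * n₀) • C := by
    rw [hDeq, add_assoc, ← add_nsmul, hMn]
  rw [eD] at hRZpad
  obtain ⟨e1, e2⟩ := Red.unique hRZpad hRZ₂
  have hDyeq : Dy = Zer - Pol := by rw [hZer]; abel
  have hDt₁eq : Dt₁ = push1 H Dy := by
    rw [hDyeq, map_sub]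
    have e1' : push1 H Pol + Dt₁ + ((M * n₀) • C₁ + ((M₂ - M) * n₀) • C₁)
        = push1 H Zer + (M₂ * n₀) • C₁ := by
      rw [← e1]; abel
    rw [← add_nsmul, hMn] at e1'
    have := add_right_cancel e1'
    rw [← this]; abel
  have hDt₂eq : Dt₂ = push2 H Dy := by
    rw [hDyeq, map_sub]
    have e2' : push2 H Pol + Dt₂ + ((M * n₀) • C₂ + ((M₂ - M) * n₀) • C₂)
        = push2 H Zer + (M₂ * n₀) • C₂ := by
      rw [← e2]; abel
    rw [← add_nsmul, hMn] at e2'
    have := add_right_cancel e2'
    rw [← this]; abel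
  have hsuppgood : ∀ v ∈ Dy.support, GoodPlace H v := by
    intro v hv
    rw [Finsupp.mem_support_iff, hDy v] at hv
    rcases lt_or_gt_of_ne hv with h | h
    · exact hpole v h
    · exact hzero v h
  refine ⟨hzero, fun Q' => ?_, fun Q' => ?_⟩
  · rw [← hDt₁ Q', hDt₁eq, push1_apply, Finset.sum_filter]
    refine Finset.sum_congr rfl fun v hv => ?_
    rw [rd1_apply (hsuppgood v hv) Q', hDy v]
    split_ifs <;> simp
  · rw [← hDt₂ Q', hDt₂eq, push2_apply, Finset.sum_filter]
    refine Finset.sum_congr rfl fun v hv => ?_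
    rw [rd2_apply (hsuppgood v hv) Q', hDy v]
    split_ifs <;> simp

end Fermat.Agent.GS.Nodal.LSR2
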