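/-
GATE-S / node [INST²](a), corollaries (helper48): the `GJ/S37/ROfSurj` package on the NODAL frame.

On the smooth frame `GJ/S37/ROfSurj.lean` derives from the fibre formula
`ord_Q (red y) = Σ_{P ↦ Q} ord_P y` that zeros / poles of `red y` are images of zeros / poles of `y`
and that the place reduction map is surjective.  Here the same corollaries are derived for a
function field with TWO Gauss valuations (`R1`, `R2`), in HYPOTHESIS FORM over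

* abstract residue discs `d1 Q' ⊆ Place K F` (`Q'` a place of the first component `Ft1`),
  `d2 Q'` (second component), and sets `S1`, `S2` of "smooth" places of the components (places over
  non-node values);
* ONE binder `FF2 R1 R2 d1 d2 S1 S2` — the conclusion of helper75's `ord_red_eq_sum_ball2`
  (`GS/Nodal/FF2.lean`) verbatim: for every `y` integral for both valuations with both reductions
  nonzero, `ord_{Q'} (red_i y) = Σ_{v ∈ d_i Q'} ord_v y` at every `Q' ∈ S_i`;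
* the surjectivity `PairSurj R1 R2` of the pair reduction `Rw₁ ∩ Rw₂ → Ft1 × Ft2`
  (`pairSurj_of_incomparable`: strong approximation, `GK/MultiVal/Approx.exists_approx`).

Output (for `i = 1, 2`): `exists_mem_d1_of_ord_pos`, `exists_mem_d1_of_ord_neg`,
`ord_red1_eq_zero_of_forall`, `exists_mem_d1_ord_pos_of_red` (a zero in the disc of a prescribed
lift), `d1_nonempty` (every smooth place is the reduction of a place of the generic fibre).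
-/
import Mathlib
import Fermat.Agent.GS.Nodal.LSR2Defs
import Fermat.Agent.GK.MultiVal.Approx

set_option autoImplicit false

noncomputable section

open AlgebraicCurve

namespace Fermat.Agent.GS.Nodal.ROfSurj2

open Fermat.Agent.RRh45 Fermat.Agent.GJ.J1 Fermat.Agent.GK.MultiVal

variable {K F k Ft1 Ft2 : Type*} [Field K] [Field F] [Algebra K F] [Field k]
  [Field Ft1] [Algebra k Ft1] [Field Ft2] [Algebra k Ft2]

/-! ### the binders -/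

open Classical in
/-- **The fibre formula on the nodal frame** (the conclusion of `ord_red_eq_sum_ball2`): for every
`y` integral for both valuations with both reductions nonzero, the order of `red_i y` at a smooth
place `Q'` of the `i`-th component is the sum of the orders of `y` over the residue disc of `Q'`. -/
def FF2 (R1 : RedData K F k Ft1) (R2 : RedData K F k Ft2)
    (d1 : Place k Ft1 → Set (Place K F)) (d2 : Place k Ft2 → Set (Place K F))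
    (S1 : Set (Place k Ft1)) (S2 : Set (Place k Ft2)) : Prop :=
  ∀ (y : F) (h1 : y ∈ R1.Rw) (h2 : y ∈ R2.Rw), R1.red ⟨y, h1⟩ ≠ 0 → R2.red ⟨y, h2⟩ ≠ 0 →
    ∀ Dy : Divisor K F, (∀ v : Place K F, Dy v = v.ord y) →
      (∀ Q' ∈ S1, Q'.ord (R1.red ⟨y, h1⟩)
        = ∑ v ∈ Dy.support.filter (fun v => v ∈ d1 Q'), v.ord y) ∧
      (∀ Q' ∈ S2, Q'.ord (R2.red ⟨y, h2⟩)
        = ∑ v ∈ Dy.support.filter (fun v => v ∈ d2 Q'), v.ord y)

/-- the pair reduction `Rw₁ ∩ Rw₂ → Ft1 × Ft2` is onto. -/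
def PairSurj (R1 : RedData K F k Ft1) (R2 : RedData K F k Ft2) : Prop :=
  ∀ z : Ft1 × Ft2, ∃ (x : F) (h1 : x ∈ R1.Rw) (h2 : x ∈ R2.Rw),
    R1.red ⟨x, h1⟩ = z.1 ∧ R2.red ⟨x, h2⟩ = z.2

variable {R1 : RedData K F k Ft1} {R2 : RedData K F k Ft2}

/-- congruent elements have the same reduction. -/
theorem red_eq_of_valuation_sub_lt (R : RedData K F k Ft1) {x a : F} (hx : x ∈ R.Rw)
    (ha : a ∈ R.Rw) (h : R.Rw.valuation (x - a) < 1) : R.red ⟨x, hx⟩ = R.red ⟨a, ha⟩ := by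
  have hmem : x - a ∈ R.Rw := sub_mem hx ha
  have h0 : R.red ⟨x - a, hmem⟩ = 0 := by
    rw [R.red_eq_zero_iff]
    exact (R.Rw.valuation_lt_one_iff ⟨x - a, hmem⟩).mpr h
  have e : (⟨x - a, hmem⟩ : R.Rw) = ⟨x, hx⟩ - ⟨a, ha⟩ := rfl
  rw [e, map_sub, sub_eq_zero] at h0
  exact h0

/-- **strong approximation**: two incomparable valuation rings ⟹ the pair reduction is onto. -/
theorem pairSurj_of_incomparable (hinc : Incomparable ![R1.Rw, R2.Rw]) : PairSurj R1 R2 := by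
  intro z
  obtain ⟨x1, hx1⟩ := R1.red_surjective z.1
  obtain ⟨x2, hx2⟩ := R2.red_surjective z.2
  have ha : ∀ i : Fin 2, (![(x1 : F), (x2 : F)] i) ∈ (![R1.Rw, R2.Rw] i) := by
    rw [Fin.forall_fin_two]
    exact ⟨x1.2, x2.2⟩
  obtain ⟨x, hxW, hxa⟩ := exists_approx hinc ![(x1 : F), (x2 : F)] ha
  have hm1 : x ∈ R1.Rw := (R1.Rw.valuation_le_one_iff x).mp (hxW 0)
  have hm2 : x ∈ R2.Rw := (R2.Rw.valuation_le_one_iff x).mp (hxW 1)
  refine ⟨x, hm1, hm2, ?_, ?_⟩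
  · rw [← hx1]
    exact red_eq_of_valuation_sub_lt R1 hm1 x1.2 (hxa 0)
  · rw [← hx2]
    have h := hxa 1
    have hmem : x - (x2 : F) ∈ R2.Rw := sub_mem hm2 x2.2
    have h0 : R2.red ⟨x - (x2 : F), hmem⟩ = 0 := by
      rw [R2.red_eq_zero_iff]
      exact (R2.Rw.valuation_lt_one_iff ⟨x - (x2 : F), hmem⟩).mpr h
    have e : (⟨x - (x2 : F), hmem⟩ : R2.Rw) = ⟨x, hm2⟩ - x2 := rfl
    rw [e, map_sub, sub_eq_zero] at h0
    exact h0

/-! ### elementary sums -/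

theorem exists_pos_of_sum_pos {α : Type*} (s : Finset α) (f : α → ℤ) (h : 0 < ∑ a ∈ s, f a) :
    ∃ a ∈ s, 0 < f a := by
  by_contra hcon
  push Not at hcon
  have : ∑ a ∈ s, f a ≤ 0 := Finset.sum_nonpos hcon
  omega

theorem exists_neg_of_sum_neg {α : Type*} (s : Finset α) (f : α → ℤ) (h : ∑ a ∈ s, f a < 0) :
    ∃ a ∈ s, f a < 0 := by
  by_contra hcon
  push Not at hcon
  have : 0 ≤ ∑ a ∈ s, f a := Finset.sum_nonneg hcon
  omega

/-! ### the corollaries -/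

section Cor

variable [HasPrincipalDivisors K F]
variable {d1 : Place k Ft1 → Set (Place K F)} {d2 : Place k Ft2 → Set (Place K F)}
  {S1 : Set (Place k Ft1)} {S2 : Set (Place k Ft2)}

omit [HasPrincipalDivisors K F] in
theorem ne_zero_of_red_ne_zero (R : RedData K F k Ft1) {y : F} (h : y ∈ R.Rw)
    (hy : R.red ⟨y, h⟩ ≠ 0) : y ≠ 0 := by
  rintro rfl
  exact hy (map_zero R.red)

/-- a zero of `red₁ y` at a smooth place is the image of a zero of `y` in the disc. -/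
theorem exists_mem_d1_of_ord_pos (hFF : FF2 R1 R2 d1 d2 S1 S2) {y : F} (h1 : y ∈ R1.Rw)
    (h2 : y ∈ R2.Rw) (hy1 : R1.red ⟨y, h1⟩ ≠ 0) (hy2 : R2.red ⟨y, h2⟩ ≠ 0)
    {Q' : Place k Ft1} (hQ' : Q' ∈ S1) (hpos : 0 < Q'.ord (R1.red ⟨y, h1⟩)) :
    ∃ v ∈ d1 Q', 0 < v.ord y := by
  classical
  obtain ⟨Dy, hDy, -⟩ := HasPrincipalDivisors.exists_divisor (K := K) y
    (ne_zero_of_red_ne_zero R1 h1 hy1)
  rw [(hFF y h1 h2 hy1 hy2 Dy hDy).1 Q' hQ'] at hpos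
  obtain ⟨v, hv, hv0⟩ := exists_pos_of_sum_pos _ _ hpos
  exact ⟨v, (Finset.mem_filter.mp hv).2, hv0⟩

/-- a pole of `red₁ y` at a smooth place is the image of a pole of `y` in the disc. -/
theorem exists_mem_d1_of_ord_neg (hFF : FF2 R1 R2 d1 d2 S1 S2) {y : F} (h1 : y ∈ R1.Rw)
    (h2 : y ∈ R2.Rw) (hy1 : R1.red ⟨y, h1⟩ ≠ 0) (hy2 : R2.red ⟨y, h2⟩ ≠ 0)
    {Q' : Place k Ft1} (hQ' : Q' ∈ S1) (hneg : Q'.ord (R1.red ⟨y, h1⟩) < 0) :
    ∃ v ∈ d1 Q', v.ord y < 0 := by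
  classical
  obtain ⟨Dy, hDy, -⟩ := HasPrincipalDivisors.exists_divisor (K := K) y
    (ne_zero_of_red_ne_zero R1 h1 hy1)
  rw [(hFF y h1 h2 hy1 hy2 Dy hDy).1 Q' hQ'] at hneg
  obtain ⟨v, hv, hv0⟩ := exists_neg_of_sum_neg _ _ hneg
  exact ⟨v, (Finset.mem_filter.mp hv).2, hv0⟩

/-- no zero or pole of `y` in the disc ⟹ `red₁ y` is a unit at the smooth place. -/
theorem ord_red1_eq_zero_of_forall (hFF : FF2 R1 R2 d1 d2 S1 S2) {y : F} (h1 : y ∈ R1.Rw)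
    (h2 : y ∈ R2.Rw) (hy1 : R1.red ⟨y, h1⟩ ≠ 0) (hy2 : R2.red ⟨y, h2⟩ ≠ 0)
    {Q' : Place k Ft1} (hQ' : Q' ∈ S1) (hall : ∀ v ∈ d1 Q', v.ord y = 0) :
    Q'.ord (R1.red ⟨y, h1⟩) = 0 := by
  classical
  obtain ⟨Dy, hDy, -⟩ := HasPrincipalDivisors.exists_divisor (K := K) y
    (ne_zero_of_red_ne_zero R1 h1 hy1)
  rw [(hFF y h1 h2 hy1 hy2 Dy hDy).1 Q' hQ']
  exact Finset.sum_eq_zero fun v hv => hall v (Finset.mem_filter.mp hv).2

/-- the same three statements on the second component. -/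
theorem exists_mem_d2_of_ord_pos (hFF : FF2 R1 R2 d1 d2 S1 S2) {y : F} (h1 : y ∈ R1.Rw)
    (h2 : y ∈ R2.Rw) (hy1 : R1.red ⟨y, h1⟩ ≠ 0) (hy2 : R2.red ⟨y, h2⟩ ≠ 0)
    {Q' : Place k Ft2} (hQ' : Q' ∈ S2) (hpos : 0 < Q'.ord (R2.red ⟨y, h2⟩)) :
    ∃ v ∈ d2 Q', 0 < v.ord y := by
  classical
  obtain ⟨Dy, hDy, -⟩ := HasPrincipalDivisors.exists_divisor (K := K) y
    (ne_zero_of_red_ne_zero R1 h1 hy1)
  rw [(hFF y h1 h2 hy1 hy2 Dy hDy).2 Q' hQ'] at hpos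
  obtain ⟨v, hv, hv0⟩ := exists_pos_of_sum_pos _ _ hpos
  exact ⟨v, (Finset.mem_filter.mp hv).2, hv0⟩

theorem exists_mem_d2_of_ord_neg (hFF : FF2 R1 R2 d1 d2 S1 S2) {y : F} (h1 : y ∈ R1.Rw)
    (h2 : y ∈ R2.Rw) (hy1 : R1.red ⟨y, h1⟩ ≠ 0) (hy2 : R2.red ⟨y, h2⟩ ≠ 0)
    {Q' : Place k Ft2} (hQ' : Q' ∈ S2) (hneg : Q'.ord (R2.red ⟨y, h2⟩) < 0) :
    ∃ v ∈ d2 Q', v.ord y < 0 := by
  classical
  obtain ⟨Dy, hDy, -⟩ := HasPrincipalDivisors.exists_divisor (K := K) y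
    (ne_zero_of_red_ne_zero R1 h1 hy1)
  rw [(hFF y h1 h2 hy1 hy2 Dy hDy).2 Q' hQ'] at hneg
  obtain ⟨v, hv, hv0⟩ := exists_neg_of_sum_neg _ _ hneg
  exact ⟨v, (Finset.mem_filter.mp hv).2, hv0⟩

theorem ord_red2_eq_zero_of_forall (hFF : FF2 R1 R2 d1 d2 S1 S2) {y : F} (h1 : y ∈ R1.Rw)
    (h2 : y ∈ R2.Rw) (hy1 : R1.red ⟨y, h1⟩ ≠ 0) (hy2 : R2.red ⟨y, h2⟩ ≠ 0)
    {Q' : Place k Ft2} (hQ' : Q' ∈ S2) (hall : ∀ v ∈ d2 Q', v.ord y = 0) :
    Q'.ord (R2.red ⟨y, h2⟩) = 0 := by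
  classical
  obtain ⟨Dy, hDy, -⟩ := HasPrincipalDivisors.exists_divisor (K := K) y
    (ne_zero_of_red_ne_zero R1 h1 hy1)
  rw [(hFF y h1 h2 hy1 hy2 Dy hDy).2 Q' hQ']
  exact Finset.sum_eq_zero fun v hv => hall v (Finset.mem_filter.mp hv).2

/-- **prescribed lift with a zero in the disc**: for `f₁` vanishing at the smooth place `Q'` of the
first component and ANY nonzero `f₂` on the second component there is `y ∈ Rw₁ ∩ Rw₂` with
`red₁ y = f₁`, `red₂ y = f₂` and a zero of `y` in the disc of `Q'`. -/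
theorem exists_mem_d1_ord_pos_of_red (hFF : FF2 R1 R2 d1 d2 S1 S2) (hsurj : PairSurj R1 R2)
    {Q' : Place k Ft1} (hQ' : Q' ∈ S1) {f₁ : Ft1} (hf₁ : 0 < Q'.ord f₁) {f₂ : Ft2} (hf₂ : f₂ ≠ 0) :
    ∃ (y : F) (h1 : y ∈ R1.Rw) (h2 : y ∈ R2.Rw), R1.red ⟨y, h1⟩ = f₁ ∧ R2.red ⟨y, h2⟩ = f₂ ∧
      ∃ v ∈ d1 Q', 0 < v.ord y := by
  obtain ⟨y, h1, h2, e1, e2⟩ := hsurj (f₁, f₂)
  have hf₁0 : f₁ ≠ 0 := by
    rintro rfl
    simp at hf₁
  have hy1 : R1.red ⟨y, h1⟩ ≠ 0 := by rw [e1]; exact hf₁0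
  have hy2 : R2.red ⟨y, h2⟩ ≠ 0 := by rw [e2]; exact hf₂
  refine ⟨y, h1, h2, e1, e2, exists_mem_d1_of_ord_pos hFF h1 h2 hy1 hy2 hQ' ?_⟩
  rw [e1]
  exact hf₁

theorem exists_mem_d2_ord_pos_of_red (hFF : FF2 R1 R2 d1 d2 S1 S2) (hsurj : PairSurj R1 R2)
    {Q' : Place k Ft2} (hQ' : Q' ∈ S2) {f₁ : Ft1} (hf₁ : f₁ ≠ 0) {f₂ : Ft2} (hf₂ : 0 < Q'.ord f₂) :
    ∃ (y : F) (h1 : y ∈ R1.Rw) (h2 : y ∈ R2.Rw), R1.red ⟨y, h1⟩ = f₁ ∧ R2.red ⟨y, h2⟩ = f₂ ∧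
      ∃ v ∈ d2 Q', 0 < v.ord y := by
  obtain ⟨y, h1, h2, e1, e2⟩ := hsurj (f₁, f₂)
  have hf₂0 : f₂ ≠ 0 := by
    rintro rfl
    simp at hf₂
  have hy1 : R1.red ⟨y, h1⟩ ≠ 0 := by rw [e1]; exact hf₁
  have hy2 : R2.red ⟨y, h2⟩ ≠ 0 := by rw [e2]; exact hf₂0
  refine ⟨y, h1, h2, e1, e2, exists_mem_d2_of_ord_pos hFF h1 h2 hy1 hy2 hQ' ?_⟩
  rw [e2]
  exact hf₂

end Cor

/-! ### surjectivity of the place reduction onto the smooth places -/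

section Surj

variable [HasPrincipalDivisors K F]
variable {d1 : Place k Ft1 → Set (Place K F)} {d2 : Place k Ft2 → Set (Place K F)}
  {S1 : Set (Place k Ft1)} {S2 : Set (Place k Ft2)}

/-- a place has a uniformiser. -/
theorem exists_ord_eq_one {L E : Type*} [Field L] [Field E] [Algebra L E] (v : Place L E) :
    ∃ f : E, v.ord f = 1 := by
  obtain ⟨π, hπ⟩ := IsDiscreteValuationRing.exists_irreducible v.toValuationSubring
  exact ⟨(π : E), v.ord_coe_irreducible hπ⟩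

theorem exists_ord_pos {L E : Type*} [Field L] [Field E] [Algebra L E] (v : Place L E) :
    ∃ f : E, 0 < v.ord f := by
  obtain ⟨π, hπ⟩ := exists_ord_eq_one v
  exact ⟨π, by rw [hπ]; exact zero_lt_one⟩

/-- **every smooth place of the first component is the reduction of a place of the generic
fibre**: its residue disc is nonempty. -/
theorem d1_nonempty (hFF : FF2 R1 R2 d1 d2 S1 S2) (hsurj : PairSurj R1 R2)
    {Q' : Place k Ft1} (hQ' : Q' ∈ S1) : (d1 Q').Nonempty := by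
  obtain ⟨f₁, hf₁⟩ := exists_ord_pos Q'
  obtain ⟨y, h1, h2, -, -, v, hv, -⟩ :=
    exists_mem_d1_ord_pos_of_red hFF hsurj hQ' hf₁ (one_ne_zero (α := Ft2))
  exact ⟨v, hv⟩

/-- a uniformiser at the smooth place `Q'` lifts to `y ∈ Rw₁ ∩ Rw₂` with `red₂ y = 1` and a zero in
the disc of `Q'` (the nodal analogue of `GJ/S37/ROfSurj.exists_rOf_eq_and_ord_pos`). -/
theorem exists_mem_d1_and_ord_pos (hFF : FF2 R1 R2 d1 d2 S1 S2) (hsurj : PairSurj R1 R2)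
    {Q' : Place k Ft1} (hQ' : Q' ∈ S1) :
    ∃ (y : F) (h1 : y ∈ R1.Rw) (h2 : y ∈ R2.Rw), Q'.ord (R1.red ⟨y, h1⟩) = 1 ∧
      R2.red ⟨y, h2⟩ = 1 ∧ ∃ v ∈ d1 Q', 0 < v.ord y := by
  obtain ⟨π, hπ⟩ := exists_ord_eq_one Q'
  obtain ⟨y, h1, h2, e1, e2, hv⟩ := exists_mem_d1_ord_pos_of_red hFF hsurj hQ'
    (f₁ := π) (by rw [hπ]; exact zero_lt_one) (one_ne_zero (α := Ft2))
  exact ⟨y, h1, h2, by rw [e1, hπ], e2, hv⟩

theorem exists_mem_d2_and_ord_pos (hFF : FF2 R1 R2 d1 d2 S1 S2) (hsurj : PairSurj R1 R2)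
    {Q' : Place k Ft2} (hQ' : Q' ∈ S2) :
    ∃ (y : F) (h1 : y ∈ R1.Rw) (h2 : y ∈ R2.Rw), R1.red ⟨y, h1⟩ = 1 ∧
      Q'.ord (R2.red ⟨y, h2⟩) = 1 ∧ ∃ v ∈ d2 Q', 0 < v.ord y := by
  obtain ⟨π, hπ⟩ := exists_ord_eq_one Q'
  obtain ⟨y, h1, h2, e1, e2, hv⟩ := exists_mem_d2_ord_pos_of_red hFF hsurj hQ'
    (one_ne_zero (α := Ft1)) (f₂ := π) (by rw [hπ]; exact zero_lt_one)
  exact ⟨y, h1, h2, e1, by rw [e2, hπ], hv⟩

theorem d2_nonempty (hFF : FF2 R1 R2 d1 d2 S1 S2) (hsurj : PairSurj R1 R2)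
    {Q' : Place k Ft2} (hQ' : Q' ∈ S2) : (d2 Q').Nonempty := by
  obtain ⟨f₂, hf₂⟩ := exists_ord_pos Q'
  obtain ⟨y, h1, h2, -, -, v, hv, -⟩ :=
    exists_mem_d2_ord_pos_of_red hFF hsurj hQ' (one_ne_zero (α := Ft1)) hf₂
  exact ⟨v, hv⟩

end Surj

end Fermat.Agent.GS.Nodal.ROfSurj2
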