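/-
GATE-S (S33) / seam INST² → FRAME² (helper16): the two LOCAL frames `FibreHyp R₁`, `FibreHyp R₂`
of the nodal frame (helper92's `GS/Frame/Local.lean`), built from

* `hc : RedCompat R1 R2` (two Gauss valuations over the same base),
* the fibre formula for ball2-units in helper48's hypothesis form `ROfSurj2.FF2 R1 R2 d1 d2 S1 S2`
  (= the conclusion of helper75's `ord_red_eq_sum_ball2`),
* uniqueness of the discs.

The global unit ball is `ball2 R1 R2` and its radical is `rad2 R1 R2` BY DEFINITION (`rfl`), the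
smooth points are `S_i`, and `rOf v = some Q' ↔ v ∈ d_i Q'`.  All the `rad_*` fields are proved from
the two valuations; no frame input.

`fibreHyp1_of_nodal`, `fibreHyp2_of_nodal` : the specialisation to `H : NodalHyp …` with
`d_i := disc_i H` (`GS/Nodal/LSR2Main.lean`).
-/
import Mathlib
import Fermat.Agent.GS.Frame.Local
import Fermat.Agent.GS.Nodal.ROfSurj2
import Fermat.Agent.GS.Nodal.LSR2Main

set_option autoImplicit false
set_option linter.unusedSectionVars false

noncomputable section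

open AlgebraicCurve

namespace Fermat.Agent.GS.Nodal.FibreHyp2

open Fermat.Agent.RRh45 Fermat.Agent.GJ.J1 Fermat.Agent.GK.MultiVal
open Fermat.Agent.GS.Frame.Local Fermat.Agent.GS.Nodal.ROfSurj2 Fermat.Agent.GS.Nodal.LSR2

open scoped Classical

variable {K F k Ft1 Ft2 : Type*} [Field K] [Field F] [Algebra K F] [Field k]
  [Field Ft1] [Algebra k Ft1] [Field Ft2] [Algebra k Ft2]
variable {R1 : RedData K F k Ft1} {R2 : RedData K F k Ft2}

/-! ### valuation facts about `ball2`, `rad2` -/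

theorem rad2_sub_ball2 {z : F} (hz : z ∈ rad2 R1 R2) : z ∈ ball2 R1 R2 := by
  rw [mem_rad2] at hz
  exact mem_ball2.mpr ⟨(ValuationSubring.valuation_le_one_iff _ _).mp hz.1.le,
    (ValuationSubring.valuation_le_one_iff _ _).mp hz.2.le⟩

theorem red_eq_zero_of_valuation_lt {Ft : Type*} [Field Ft] [Algebra k Ft]
    (R : RedData K F k Ft) {z : F} (hz : z ∈ R.Rw) (h : R.Rw.valuation z < 1) :
    R.red ⟨z, hz⟩ = 0 := by
  rw [R.orthoRedSystem.red_ker, ValuationSubring.mem_nonunits_iff]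
  exact h

theorem valuation_lt_of_red_eq_zero {Ft : Type*} [Field Ft] [Algebra k Ft]
    (R : RedData K F k Ft) {z : F} (hz : z ∈ R.Rw) (h : R.red ⟨z, hz⟩ = 0) :
    R.Rw.valuation z < 1 := by
  rw [R.orthoRedSystem.red_ker, ValuationSubring.mem_nonunits_iff] at h
  exact h

theorem mul_mem_rad2 {b z : F} (hb : b ∈ ball2 R1 R2) (hz : z ∈ rad2 R1 R2) :
    b * z ∈ rad2 R1 R2 := by
  rw [mem_rad2] at hz ⊢
  have hb' := mem_ball2.mp hb
  have h1 : R1.Rw.valuation b ≤ 1 := (ValuationSubring.valuation_le_one_iff _ _).mpr hb'.1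
  have h2 : R2.Rw.valuation b ≤ 1 := (ValuationSubring.valuation_le_one_iff _ _).mpr hb'.2
  constructor
  · rw [map_mul]
    calc R1.Rw.valuation b * R1.Rw.valuation z ≤ 1 * R1.Rw.valuation z :=
          mul_le_mul' h1 le_rfl
      _ = R1.Rw.valuation z := one_mul _
      _ < 1 := hz.1
  · rw [map_mul]
    calc R2.Rw.valuation b * R2.Rw.valuation z ≤ 1 * R2.Rw.valuation z :=
          mul_le_mul' h2 le_rfl
      _ = R2.Rw.valuation z := one_mul _
      _ < 1 := hz.2

theorem one_add_inv_mem {Rw : ValuationSubring F} {z : F} (hz : Rw.valuation z < 1) :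
    (1 + z)⁻¹ ∈ Rw := by
  have h1 : Rw.valuation (1 + z) = 1 := by
    rw [add_comm]
    have := Valuation.map_add_eq_of_lt_right Rw.valuation (x := z) (y := 1)
      (by rw [map_one]; exact hz)
    rw [this, map_one]
  rw [← ValuationSubring.valuation_le_one_iff, map_inv₀, h1, inv_one]

theorem const_mem_rad2 (hc : RedCompat R1 R2) {a : K} (ha : R1.A.valuation a < 1) :
    algebraMap K F a ∈ rad2 R1 R2 := by
  have haA : a ∈ R1.A := (ValuationSubring.valuation_le_one_iff _ _).mp ha.le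
  have hnu : a ∈ R1.A.nonunits := (ValuationSubring.mem_nonunits_iff _).mpr ha
  have hres : R1.res ⟨a, haA⟩ = 0 := (R1.orthoRedSystem.res_ker ⟨a, haA⟩).mpr hnu
  have haA2 : a ∈ R2.A := hc.A_eq ▸ haA
  have hres2 : R2.res ⟨a, haA2⟩ = 0 := by rw [← hc.res_eq a haA haA2]; exact hres
  rw [mem_rad2]
  constructor
  · apply valuation_lt_of_red_eq_zero R1 ((R1.mem_A_iff a).1 haA)
    rw [R1.red_algebraMap ⟨a, haA⟩, hres, map_zero]
  · apply valuation_lt_of_red_eq_zero R2 ((R2.mem_A_iff a).1 haA2)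
    rw [R2.red_algebraMap ⟨a, haA2⟩, hres2, map_zero]

/-- a unit of `ball2` has nonzero reductions -/
theorem red_ne_zero_of_inv_mem {Ft : Type*} [Field Ft] [Algebra k Ft] (R : RedData K F k Ft)
    {y : F} (hy0 : y ≠ 0) (hy : y ∈ R.Rw) (hyi : y⁻¹ ∈ R.Rw) : R.red ⟨y, hy⟩ ≠ 0 := by
  intro h
  have e : (⟨y, hy⟩ : R.Rw) * ⟨y⁻¹, hyi⟩ = 1 := by
    apply Subtype.ext
    show y * y⁻¹ = 1
    exact mul_inv_cancel₀ hy0
  have := congrArg R.red e
  rw [map_mul, h, zero_mul, map_one] at this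
  exact zero_ne_one this

/-! ### the two local frames -/

section Frames

variable (hc : RedCompat R1 R2) (degF : ∀ P : Place K F, P.deg = 1)
  {d1 : Place k Ft1 → Set (Place K F)} {d2 : Place k Ft2 → Set (Place K F)}
  {S1 : Set (Place k Ft1)} {S2 : Set (Place k Ft2)}
  (hFF : FF2 R1 R2 d1 d2 S1 S2)

/-- the partial place reduction attached to a family of discs -/
def rOfDisc {Ft : Type*} [Field Ft] [Algebra k Ft] (d : Place k Ft → Set (Place K F))
    (v : Place K F) : Option (Place k Ft) :=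
  if h : ∃ Q', v ∈ d Q' then some h.choose else none

theorem rOfDisc_eq_some_iff {Ft : Type*} [Field Ft] [Algebra k Ft]
    {d : Place k Ft → Set (Place K F)}
    (hu : ∀ (v : Place K F) (Q' Q'' : Place k Ft), v ∈ d Q' → v ∈ d Q'' → Q' = Q'')
    (v : Place K F) (Q' : Place k Ft) : rOfDisc d v = some Q' ↔ v ∈ d Q' := by
  unfold rOfDisc
  constructor
  · intro h
    split_ifs at h with hex
    · have := Option.some_injective _ h
      rw [← this]; exact hex.choose_spec
  · intro h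
    have hex : ∃ Q', v ∈ d Q' := ⟨Q', h⟩
    rw [dif_pos hex]
    exact congrArg some (hu v _ _ hex.choose_spec h)

/-- **the local frame of the first component** of the nodal frame -/
def fibreHyp1 (hu1 : ∀ (v : Place K F) (Q' Q'' : Place k Ft1), v ∈ d1 Q' → v ∈ d1 Q'' → Q' = Q'') :
    FibreHyp R1 where
  degF := degF
  B := ball2 R1 R2
  B_le x hx := (mem_ball2.mp hx).1
  const_mem_B a ha := mem_ball2.mpr
    ⟨(R1.mem_A_iff a).1 ha, (R2.mem_A_iff a).1 (hc.A_eq ▸ ha)⟩
  rad := (rad2 R1 R2 : Set F)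
  rad_sub_B z hz := rad2_sub_ball2 hz
  rad_red z hz := red_eq_zero_of_valuation_lt R1 _ (mem_rad2.mp hz).1
  rad_add z hz z' hz' := (rad2 R1 R2).add_mem hz hz'
  rad_mul b hb z hz := mul_mem_rad2 hb hz
  rad_const a ha := const_mem_rad2 hc ha
  rad_unit z hz := mem_ball2.mpr
    ⟨one_add_inv_mem (mem_rad2.mp hz).1, one_add_inv_mem (mem_rad2.mp hz).2⟩
  good := S1
  rOf := rOfDisc d1
  fibre y hy hyi Dy hDy Q' hQ' := by
    by_cases hy0 : y = 0
    · subst hy0
      have hD : Dy = 0 := Finsupp.ext fun P => by rw [hDy P, Place.ord_zero]; rfl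
      rw [hD]
      have e : ∀ h : (0 : F) ∈ R1.Rw, R1.red ⟨0, h⟩ = 0 := fun h => map_zero R1.red
      rw [e, Place.ord_zero]
      simp
    · have hy' := mem_ball2.mp hy
      have hyi' := mem_ball2.mp hyi
      have h := (hFF y hy'.1 hy'.2 (red_ne_zero_of_inv_mem R1 hy0 hy'.1 hyi'.1)
        (red_ne_zero_of_inv_mem R2 hy0 hy'.2 hyi'.2) Dy hDy).1 Q' hQ'
      rw [h]
      refine Finset.sum_congr ?_ fun _ _ => rfl
      ext P
      simp only [Finset.mem_filter]
      rw [rOfDisc_eq_some_iff hu1]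

/-- **the local frame of the second component** of the nodal frame -/
def fibreHyp2 (hu2 : ∀ (v : Place K F) (Q' Q'' : Place k Ft2), v ∈ d2 Q' → v ∈ d2 Q'' → Q' = Q'') :
    FibreHyp R2 where
  degF := degF
  B := ball2 R1 R2
  B_le x hx := (mem_ball2.mp hx).2
  const_mem_B a ha := mem_ball2.mpr
    ⟨(R1.mem_A_iff a).1 (hc.A_eq.symm ▸ ha), (R2.mem_A_iff a).1 ha⟩
  rad := (rad2 R1 R2 : Set F)
  rad_sub_B z hz := rad2_sub_ball2 hz
  rad_red z hz := red_eq_zero_of_valuation_lt R2 _ (mem_rad2.mp hz).2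
  rad_add z hz z' hz' := (rad2 R1 R2).add_mem hz hz'
  rad_mul b hb z hz := mul_mem_rad2 hb hz
  rad_const a ha := const_mem_rad2 hc (by rw [hc.A_eq]; exact ha)
  rad_unit z hz := mem_ball2.mpr
    ⟨one_add_inv_mem (mem_rad2.mp hz).1, one_add_inv_mem (mem_rad2.mp hz).2⟩
  good := S2
  rOf := rOfDisc d2
  fibre y hy hyi Dy hDy Q' hQ' := by
    by_cases hy0 : y = 0
    · subst hy0
      have hD : Dy = 0 := Finsupp.ext fun P => by rw [hDy P, Place.ord_zero]; rfl
      rw [hD]
      have e : ∀ h : (0 : F) ∈ R2.Rw, R2.red ⟨0, h⟩ = 0 := fun h => map_zero R2.red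
      rw [e, Place.ord_zero]
      simp
    · have hy' := mem_ball2.mp hy
      have hyi' := mem_ball2.mp hyi
      have h := (hFF y hy'.1 hy'.2 (red_ne_zero_of_inv_mem R1 hy0 hy'.1 hyi'.1)
        (red_ne_zero_of_inv_mem R2 hy0 hy'.2 hyi'.2) Dy hDy).2 Q' hQ'
      rw [h]
      refine Finset.sum_congr ?_ fun _ _ => rfl
      ext P
      simp only [Finset.mem_filter]
      rw [rOfDisc_eq_some_iff hu2]

variable {hc degF hFF}

@[simp] theorem fibreHyp1_B (hu1) : (fibreHyp1 hc degF hFF hu1).B = ball2 R1 R2 := rfl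
@[simp] theorem fibreHyp2_B (hu2) : (fibreHyp2 hc degF hFF hu2).B = ball2 R1 R2 := rfl
@[simp] theorem fibreHyp1_rad (hu1) : (fibreHyp1 hc degF hFF hu1).rad = (rad2 R1 R2 : Set F) := rfl
@[simp] theorem fibreHyp2_rad (hu2) : (fibreHyp2 hc degF hFF hu2).rad = (rad2 R1 R2 : Set F) := rfl
@[simp] theorem fibreHyp1_good (hu1) : (fibreHyp1 hc degF hFF hu1).good = S1 := rfl
@[simp] theorem fibreHyp2_good (hu2) : (fibreHyp2 hc degF hFF hu2).good = S2 := rfl

theorem fibreHyp1_rOf_eq_some_iff (hu1) (v : Place K F) (Q' : Place k Ft1) :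
    (fibreHyp1 hc degF hFF hu1).rOf v = some Q' ↔ v ∈ d1 Q' :=
  rOfDisc_eq_some_iff hu1 v Q'

theorem fibreHyp2_rOf_eq_some_iff (hu2) (v : Place K F) (Q' : Place k Ft2) :
    (fibreHyp2 hc degF hFF hu2).rOf v = some Q' ↔ v ∈ d2 Q' :=
  rOfDisc_eq_some_iff hu2 v Q'

/-- the disc of the local frame is the given disc -/
theorem disc_fibreHyp1 (hu1) (Q' : Place k Ft1) :
    Fermat.Agent.GS.Frame.Local.disc (fibreHyp1 hc degF hFF hu1) Q' = d1 Q' := by
  ext v
  exact fibreHyp1_rOf_eq_some_iff hu1 v Q'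

theorem disc_fibreHyp2 (hu2) (Q' : Place k Ft2) :
    Fermat.Agent.GS.Frame.Local.disc (fibreHyp2 hc degF hFF hu2) Q' = d2 Q' := by
  ext v
  exact fibreHyp2_rOf_eq_some_iff hu2 v Q'

end Frames

/-! ### specialisation to the nodal L-space construction -/

section Nodal

variable {hc : RedCompat R1 R2} {ι : Type*} {P : ι → Place k Ft1} {Q : ι → Place k Ft2}
variable {C : Divisor K F} {C₁ : Divisor k Ft1} {C₂ : Divisor k Ft2} {g c : ℤ} {n₀ : ℕ}
variable [FiniteResidues K F] [HasPrincipalDivisors K F] [Nonempty (Place K F)]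
variable [FiniteResidues k Ft1] [HasPrincipalDivisors k Ft1] [Nonempty (Place k Ft1)]
variable [FiniteResidues k Ft2] [HasPrincipalDivisors k Ft2] [Nonempty (Place k Ft2)]

/-- the first local frame of the nodal L-space construction -/
def fibreHyp1_of_nodal (H : NodalHyp hc P Q C C₁ C₂ g c n₀) {S1 : Set (Place k Ft1)}
    {S2 : Set (Place k Ft2)} (hFF : FF2 R1 R2 (disc1 H) (disc2 H) S1 S2) : FibreHyp R1 :=
  fibreHyp1 hc H.degF hFF fun _ _ _ h h' => disc1_unique h h'

/-- the second local frame of the nodal L-space construction -/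
def fibreHyp2_of_nodal (H : NodalHyp hc P Q C C₁ C₂ g c n₀) {S1 : Set (Place k Ft1)}
    {S2 : Set (Place k Ft2)} (hFF : FF2 R1 R2 (disc1 H) (disc2 H) S1 S2) : FibreHyp R2 :=
  fibreHyp2 hc H.degF hFF fun _ _ _ h h' => disc2_unique h h'

end Nodal

end Fermat.Agent.GS.Nodal.FibreHyp2
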