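/-
GATE-S (S33) / seam INST² → GLUE (helper16): the field `L5` of helper34's `GlueHyp`
(`GS/Frame/Glue/Data.lean`) for the nodal instance.

* `redSpace2_le_glued_push` : for an effective divisor `Z` supported on good places, the pair
  reduction of `L(Z) ∩ Rw₁ ∩ Rw₂` lies in the glued space of the push-forward `(push1 Z, push2 Z)`
  — WITHOUT padding by the pencil divisor.  Glueing at the nodes comes from `Red.of_good`; the
  padding is removed by the `x + a` trick and the fibre formula `ord_red_eq_sum2`, which is valid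
  at EVERY place of the two components (so the support of the reduced pencil is not special).
* `push1_sum_single`, `push2_sum_single` : the push-forward of `Σ_j [X_j]`, `X_j` in the disc of
  the special point `Qf j`, is `Σ_j comp_i (Qf j)`.
* `l5_of_nodal` : the field `GlueHyp.L5` VERBATIM for `Φ_i := fibreHyp{i}_of_nodal H hFF`.
-/
import Mathlib
import Fermat.Agent.GS.Nodal.FibreHyp2
import Fermat.Agent.GS.Frame.Glue.Data

set_option autoImplicit false
set_option linter.unusedSectionVars false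

noncomputable section

open AlgebraicCurve

namespace Fermat.Agent.GS.Nodal.L5

open Fermat.Agent.RRh45 Fermat.Agent.GJ.S37MinDiv Fermat.Agent.GJ.J1 Fermat.Agent.GK.MultiVal
open Fermat.Agent.GK.NodalGraded
open Fermat.Agent.GS.Nodal.LSR2 Fermat.Agent.GS.Nodal.FibreHyp2 Fermat.Agent.GS.Nodal.ROfSurj2

variable {K F k Ft1 Ft2 : Type*} [Field K] [Field F] [Algebra K F] [Field k]
  [Field Ft1] [Algebra k Ft1] [Field Ft2] [Algebra k Ft2]
variable {R1 : RedData K F k Ft1} {R2 : RedData K F k Ft2} {hc : RedCompat R1 R2}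
variable {ι : Type*} {P : ι → Place k Ft1} {Q : ι → Place k Ft2}
variable {C : Divisor K F} {C₁ : Divisor k Ft1} {C₂ : Divisor k Ft2} {g c : ℤ} {n₀ : ℕ}
variable [FiniteResidues K F] [HasPrincipalDivisors K F] [Nonempty (Place K F)]
variable [FiniteResidues k Ft1] [HasPrincipalDivisors k Ft1] [Nonempty (Place k Ft1)]
variable [FiniteResidues k Ft2] [HasPrincipalDivisors k Ft2] [Nonempty (Place k Ft2)]

/-- constants belong to `L(D)` for effective `D`. -/
theorem const_mem_L {L E : Type*} [Field L] [Field E] [Algebra L E] {D : Divisor L E}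
    (hD : 0 ≤ D) (a : L) : algebraMap L E a ∈ riemannRochSpace D := by
  have := (riemannRochSpace D).smul_mem a (one_mem_riemannRochSpace hD)
  rwa [Algebra.smul_def, mul_one] at this

/-! ### a finset inequality -/

/-- if `-g ≤ f` pointwise and `g ≥ 0`, the filtered sums over the supports compare. -/
theorem neg_sum_filter_le {α : Type*} (f g : α →₀ ℤ) (p : α → Prop) [DecidablePred p]
    (hg : ∀ a, 0 ≤ g a) (h : ∀ a, -g a ≤ f a) :
    -(∑ a ∈ g.support.filter p, g a) ≤ ∑ a ∈ f.support.filter p, f a := by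
  classical
  have h1 : ∑ a ∈ f.support.filter p, (-g a) ≤ ∑ a ∈ f.support.filter p, f a :=
    Finset.sum_le_sum fun a _ => h a
  have h2 : ∑ a ∈ f.support.filter p, g a ≤ ∑ a ∈ g.support.filter p, g a := by
    have e : ∑ a ∈ f.support.filter p, g a
        = ∑ a ∈ (f.support.filter p).filter (fun a => a ∈ g.support), g a := by
      refine (Finset.sum_filter_of_ne ?_).symm
      intro a _ ha
      exact Finsupp.mem_support_iff.mpr ha
    rw [e]
    refine Finset.sum_le_sum_of_subset_of_nonneg ?_ fun a _ _ => hg a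
    intro a ha
    rw [Finset.mem_filter, Finset.mem_filter] at ha
    exact Finset.mem_filter.mpr ⟨ha.2, ha.1.2⟩
  rw [Finset.sum_neg_distrib] at h1
  omega

/-! ### the push-forward as a filtered sum -/

variable {H : NodalHyp hc P Q C C₁ C₂ g c n₀}

open Classical in
theorem push1_apply_good {Z : Divisor K F} (hgood : ∀ v ∈ Z.support, GoodPlace H v)
    (Q' : Place k Ft1) :
    push1 H Z Q' = ∑ v ∈ Z.support.filter (fun v => v ∈ disc1 H Q'), Z v := by
  rw [push1_apply, Finset.sum_filter]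
  refine Finset.sum_congr rfl fun v hv => ?_
  rw [rd1_apply (hgood v hv)]
  split_ifs <;> simp

open Classical in
theorem push2_apply_good {Z : Divisor K F} (hgood : ∀ v ∈ Z.support, GoodPlace H v)
    (Q' : Place k Ft2) :
    push2 H Z Q' = ∑ v ∈ Z.support.filter (fun v => v ∈ disc2 H Q'), Z v := by
  rw [push2_apply, Finset.sum_filter]
  refine Finset.sum_congr rfl fun v hv => ?_
  rw [rd2_apply (hgood v hv)]
  split_ifs <;> simp

theorem push1_nonneg {Z : Divisor K F} (hZ : 0 ≤ Z) (hgood : ∀ v ∈ Z.support, GoodPlace H v) :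
    0 ≤ push1 H Z := by
  classical
  rw [Finsupp.le_def]
  intro Q'
  rw [push1_apply_good hgood]
  exact Finset.sum_nonneg fun v _ => by simpa using Finsupp.le_def.mp hZ v

theorem push2_nonneg {Z : Divisor K F} (hZ : 0 ≤ Z) (hgood : ∀ v ∈ Z.support, GoodPlace H v) :
    0 ≤ push2 H Z := by
  classical
  rw [Finsupp.le_def]
  intro Q'
  rw [push2_apply_good hgood]
  exact Finset.sum_nonneg fun v _ => by simpa using Finsupp.le_def.mp hZ v

/-! ### removal of the padding -/

variable [Infinite k]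

/-- **the pair reduction of `L(Z)`, `Z ≥ 0` supported on good places, is glued and has poles
bounded by the push-forward of `Z`** (no padding by the pencil divisor). -/
theorem redSpace2_le_glued_push (H : NodalHyp hc P Q C C₁ C₂ g c n₀) [Finite ι]
    {Z : Divisor K F} (hZ : 0 ≤ Z) (hgood : ∀ v ∈ Z.support, GoodPlace H v) :
    redSpace2 hc Z ≤ glued P Q (push1 H Z) (push2 H Z) := by
  classical
  rintro z ⟨x, h1, h2, hx, e1, e2⟩
  -- glueing at the nodes, from the padded reduction
  obtain ⟨M₀, hM₀⟩ := Red.of_good H hZ hgood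
  have hR := hM₀ M₀ le_rfl
  have hz : z ∈ redSpace2 hc (Z + (M₀ * n₀) • C) :=
    redSpace2_mono hc (le_add_of_nonneg_right (nsmul_div_nonneg _ H.C_nonneg))
      ⟨x, h1, h2, hx, e1, e2⟩
  rw [hR.eq] at hz
  have hgl : ∀ j, ∃ cj : k, ValueAt (P j) z.1 cj ∧ ValueAt (Q j) z.2 cj := hz.2.2
  choose cj hcj1 hcj2 using hgl
  -- the constant to add
  have hfin : ({b : k | z.1 + algebraMap k Ft1 b = 0} ∪ {b : k | z.2 + algebraMap k Ft2 b = 0} ∪
      Set.range fun j => -cj j).Finite := by
    refine Set.Finite.union (Set.Finite.union ?_ ?_) (Set.finite_range _)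
    · refine Set.Subsingleton.finite fun b hb b' hb' => ?_
      have : algebraMap k Ft1 b = algebraMap k Ft1 b' := by
        have h1 : z.1 + algebraMap k Ft1 b = 0 := hb
        have h2 : z.1 + algebraMap k Ft1 b' = 0 := hb'
        exact add_left_cancel (h1.trans h2.symm)
      exact (algebraMap k Ft1).injective this
    · refine Set.Subsingleton.finite fun b hb b' hb' => ?_
      have : algebraMap k Ft2 b = algebraMap k Ft2 b' := by
        have h1 : z.2 + algebraMap k Ft2 b = 0 := hb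
        have h2 : z.2 + algebraMap k Ft2 b' = 0 := hb'
        exact add_left_cancel (h1.trans h2.symm)
      exact (algebraMap k Ft2).injective this
  obtain ⟨b, hb⟩ := hfin.exists_notMem
  rw [Set.mem_union, Set.mem_union, not_or, not_or] at hb
  obtain ⟨⟨hb1, hb2⟩, hb3⟩ := hb
  have hb1' : z.1 + algebraMap k Ft1 b ≠ 0 := hb1
  have hb2' : z.2 + algebraMap k Ft2 b ≠ 0 := hb2
  have hb3' : ∀ j, cj j + b ≠ 0 := by
    intro j h0
    exact hb3 ⟨j, neg_eq_of_add_eq_zero_right h0⟩
  obtain ⟨a, rfl⟩ := R1.res_surjective b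
  have ha2' : (a : K) ∈ R2.A := hc.A_eq ▸ a.2
  have ha1 : algebraMap K F (a : K) ∈ R1.Rw := (R1.mem_A_iff a).1 a.2
  have ha2 : algebraMap K F (a : K) ∈ R2.Rw := (R2.mem_A_iff (a : K)).1 ha2'
  -- the shifted function
  obtain ⟨y, hy⟩ : ∃ y : F, y = x + algebraMap K F (a : K) := ⟨_, rfl⟩
  have hy1m : y ∈ R1.Rw := by rw [hy]; exact add_mem h1 ha1
  have hy2m : y ∈ R2.Rw := by rw [hy]; exact add_mem h2 ha2
  have er1 : R1.red ⟨y, hy1m⟩ = z.1 + algebraMap k Ft1 (R1.res a) := by
    have e : (⟨y, hy1m⟩ : R1.Rw) = ⟨x, h1⟩ + ⟨algebraMap K F (a : K), ha1⟩ := by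
      apply Subtype.ext; exact hy
    rw [e, map_add, e1, R1.red_algebraMap a]
  have er2 : R2.red ⟨y, hy2m⟩ = z.2 + algebraMap k Ft2 (R1.res a) := by
    have e : (⟨y, hy2m⟩ : R2.Rw) = ⟨x, h2⟩ + ⟨algebraMap K F (a : K), ha2⟩ := by
      apply Subtype.ext; exact hy
    rw [e, map_add, e2, R2.red_algebraMap ⟨(a : K), ha2'⟩, ← hc.res_eq (a : K) a.2 ha2']
  have hy1 : R1.red ⟨y, hy1m⟩ ≠ 0 := by rw [er1]; exact hb1'
  have hy2 : R2.red ⟨y, hy2m⟩ ≠ 0 := by rw [er2]; exact hb2'
  have hy0 : y ≠ 0 := by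
    rintro rfl
    exact hy1 (map_zero R1.red)
  have hyL : y ∈ riemannRochSpace Z := by
    rw [hy]
    exact add_mem hx (const_mem_L hZ (a : K))
  have hyord : ∀ v : Place K F, -Z v ≤ v.ord y := fun v =>
    (mem_riemannRochSpace_iff.mp hyL v).resolve_left hy0
  obtain ⟨Dy, hDy, -⟩ := HasPrincipalDivisors.exists_divisor (K := K) y hy0
  have hpole : ∀ v : Place K F, v.ord y < 0 → GoodPlace H v := by
    intro v hv
    apply hgood
    rw [Finsupp.mem_support_iff]
    have := hyord v
    omega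
  have hn1 : ∀ j, (P j).ord (R1.red ⟨y, hy1m⟩) = 0 := by
    intro j
    rw [er1]
    have hv : ValueAt (P j) (z.1 + algebraMap k Ft1 (R1.res a)) (cj j + R1.res a) := by
      have h1 := (valueAt_one (v := P j)).smul (R1.res a)
      rw [Algebra.smul_def, mul_one, mul_one] at h1
      exact (hcj1 j).add h1
    exact hv.ord_eq_zero (hb3' j)
  have hn2 : ∀ j, (Q j).ord (R2.red ⟨y, hy2m⟩) = 0 := by
    intro j
    rw [er2]
    have hv : ValueAt (Q j) (z.2 + algebraMap k Ft2 (R1.res a)) (cj j + R1.res a) := by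
      have h1 := (valueAt_one (v := Q j)).smul (R1.res a)
      rw [Algebra.smul_def, mul_one, mul_one] at h1
      exact (hcj2 j).add h1
    exact hv.ord_eq_zero (hb3' j)
  obtain ⟨-, hf1, hf2⟩ := ord_red_eq_sum2 H hy1m hy2m hy1 hy2 hDy hpole hn1 hn2
  have hp1 := push1_nonneg hZ hgood
  have hp2 := push2_nonneg hZ hgood
  refine ⟨?_, ?_, hz.2.2⟩
  · have hmem : R1.red ⟨y, hy1m⟩ ∈ riemannRochSpace (push1 H Z) := by
      rw [mem_riemannRochSpace_iff]
      intro Q'
      right
      rw [hf1 Q', push1_apply_good hgood]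
      have := neg_sum_filter_le Dy Z (fun v => v ∈ disc1 H Q')
        (fun v => by simpa using Finsupp.le_def.mp hZ v) (fun v => by rw [hDy v]; exact hyord v)
      refine this.trans (le_of_eq ?_)
      exact Finset.sum_congr rfl fun v _ => hDy v
    have hcst : algebraMap k Ft1 (R1.res a) ∈ riemannRochSpace (push1 H Z) :=
      const_mem_L hp1 _
    have : z.1 = R1.red ⟨y, hy1m⟩ - algebraMap k Ft1 (R1.res a) := by rw [er1]; ring
    rw [this]
    exact sub_mem hmem hcst
  · have hmem : R2.red ⟨y, hy2m⟩ ∈ riemannRochSpace (push2 H Z) := by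
      rw [mem_riemannRochSpace_iff]
      intro Q'
      right
      rw [hf2 Q', push2_apply_good hgood]
      have := neg_sum_filter_le Dy Z (fun v => v ∈ disc2 H Q')
        (fun v => by simpa using Finsupp.le_def.mp hZ v) (fun v => by rw [hDy v]; exact hyord v)
      refine this.trans (le_of_eq ?_)
      exact Finset.sum_congr rfl fun v _ => hDy v
    have hcst : algebraMap k Ft2 (R1.res a) ∈ riemannRochSpace (push2 H Z) :=
      const_mem_L hp2 _
    have : z.2 = R2.red ⟨y, hy2m⟩ - algebraMap k Ft2 (R1.res a) := by rw [er2]; ring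
    rw [this]
    exact sub_mem hmem hcst

/-! ### the reduction of a point of a disc -/

section Rd

variable {H : NodalHyp hc P Q C C₁ C₂ g c n₀}

theorem goodPlace_of_mem_disc1 {v : Place K F} {q : Place k Ft1} (h : v ∈ disc1 H q) :
    GoodPlace H v := goodPlace_iff.mpr (Or.inl ⟨q, h⟩)

theorem goodPlace_of_mem_disc2 {v : Place K F} {q : Place k Ft2} (h : v ∈ disc2 H q) :
    GoodPlace H v := goodPlace_iff.mpr (Or.inr ⟨q, h⟩)

theorem rd1_of_mem_disc1 {v : Place K F} {q : Place k Ft1} (h : v ∈ disc1 H q) :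
    rd1 H v = Finsupp.single q 1 := by
  classical
  ext Q'
  rw [rd1_apply (goodPlace_of_mem_disc1 h), Finsupp.single_apply]
  by_cases hq : q = Q'
  · subst hq; rw [if_pos h, if_pos rfl]
  · rw [if_neg hq, if_neg fun h' => hq (disc1_unique h h')]

theorem rd1_of_mem_disc2 {v : Place K F} {q : Place k Ft2} (h : v ∈ disc2 H q) :
    rd1 H v = 0 := by
  classical
  ext Q'
  rw [rd1_apply (goodPlace_of_mem_disc2 h), if_neg fun h' => disc1_disc2_disjoint h' h]
  rfl

theorem rd2_of_mem_disc1 {v : Place K F} {q : Place k Ft1} (h : v ∈ disc1 H q) :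
    rd2 H v = 0 := by
  classical
  ext Q'
  rw [rd2_apply (goodPlace_of_mem_disc1 h), if_neg fun h' => disc1_disc2_disjoint h h']
  rfl

theorem rd2_of_mem_disc2 {v : Place K F} {q : Place k Ft2} (h : v ∈ disc2 H q) :
    rd2 H v = Finsupp.single q 1 := by
  classical
  ext Q'
  rw [rd2_apply (goodPlace_of_mem_disc2 h), Finsupp.single_apply]
  by_cases hq : q = Q'
  · subst hq; rw [if_pos h, if_pos rfl]
  · rw [if_neg hq, if_neg fun h' => hq (disc2_unique h h')]

end Rd

/-! ### (L5) in the vocabulary of the glue -/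

section Glue

open Fermat.Agent.GS.Frame Fermat.Agent.GS.Frame.Glue Fermat.Agent.GS.Nod

variable {S1 : Set (Place k Ft1)} {S2 : Set (Place k Ft2)}

/-- `Nod.gluedSpace` and `LSR2.glued` are the same submodule. -/
theorem gluedSpace_eq_glued (E₁ : Divisor k Ft1) (E₂ : Divisor k Ft2) :
    gluedSpace P Q E₁ E₂ = glued P Q E₁ E₂ :=
  Submodule.ext fun _ => Iff.rfl

variable (H : NodalHyp hc P Q C C₁ C₂ g c n₀) (hFF : FF2 R1 R2 (disc1 H) (disc2 H) S1 S2)

/-- the discs of the two components of the nodal frame are disjoint. -/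
theorem hexcl_of_nodal (X : Place K F) (q : Place k Ft1) (q' : Place k Ft2)
    (h : (fibreHyp1_of_nodal H hFF).rOf X = some q) :
    (fibreHyp2_of_nodal H hFF).rOf X ≠ some q' := by
  intro h'
  have h1 : X ∈ disc1 H q := (fibreHyp1_rOf_eq_some_iff _ X q).mp h
  have h2 : X ∈ disc2 H q' := (fibreHyp2_rOf_eq_some_iff _ X q').mp h'
  exact disc1_disc2_disjoint h1 h2

theorem mem_disc1_of_discOf_inl {X : Place K F}
    {q : {q : Place k Ft1 // q ∈ (fibreHyp1_of_nodal H hFF).good}}
    (h : X ∈ discOf (fibreHyp1_of_nodal H hFF) (fibreHyp2_of_nodal H hFF) (Sum.inl q)) :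
    X ∈ disc1 H q.1 :=
  (fibreHyp1_rOf_eq_some_iff _ X q.1).mp h

theorem mem_disc2_of_discOf_inr {X : Place K F}
    {q : {q : Place k Ft2 // q ∈ (fibreHyp2_of_nodal H hFF).good}}
    (h : X ∈ discOf (fibreHyp1_of_nodal H hFF) (fibreHyp2_of_nodal H hFF) (Sum.inr q)) :
    X ∈ disc2 H q.1 :=
  (fibreHyp2_rOf_eq_some_iff _ X q.1).mp h

theorem goodPlace_of_discOf {X : Place K F}
    {s : SpPt (fibreHyp1_of_nodal H hFF) (fibreHyp2_of_nodal H hFF)}
    (h : X ∈ discOf (fibreHyp1_of_nodal H hFF) (fibreHyp2_of_nodal H hFF) s) :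
    GoodPlace H X := by
  rcases s with q | q
  · exact goodPlace_of_mem_disc1 (mem_disc1_of_discOf_inl H hFF h)
  · exact goodPlace_of_mem_disc2 (mem_disc2_of_discOf_inr H hFF h)

theorem rd1_eq_comp1 {X : Place K F}
    {s : SpPt (fibreHyp1_of_nodal H hFF) (fibreHyp2_of_nodal H hFF)}
    (h : X ∈ discOf (fibreHyp1_of_nodal H hFF) (fibreHyp2_of_nodal H hFF) s) :
    rd1 H X = comp1 s := by
  rcases s with q | q
  · exact rd1_of_mem_disc1 (mem_disc1_of_discOf_inl H hFF h)
  · exact rd1_of_mem_disc2 (mem_disc2_of_discOf_inr H hFF h)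

theorem rd2_eq_comp2 {X : Place K F}
    {s : SpPt (fibreHyp1_of_nodal H hFF) (fibreHyp2_of_nodal H hFF)}
    (h : X ∈ discOf (fibreHyp1_of_nodal H hFF) (fibreHyp2_of_nodal H hFF) s) :
    rd2 H X = comp2 s := by
  rcases s with q | q
  · exact rd2_of_mem_disc1 (mem_disc1_of_discOf_inl H hFF h)
  · exact rd2_of_mem_disc2 (mem_disc2_of_discOf_inr H hFF h)

/-- the push-forward of a sum of points of discs of special points. -/
theorem push1_sum_single {J : Type*} [Fintype J]
    (Qf : J → SpPt (fibreHyp1_of_nodal H hFF) (fibreHyp2_of_nodal H hFF)) (X : J → Place K F)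
    (hX : ∀ j, X j ∈ discOf (fibreHyp1_of_nodal H hFF) (fibreHyp2_of_nodal H hFF) (Qf j)) :
    push1 H (∑ j, Finsupp.single (X j) (1 : ℤ)) = ∑ j, comp1 (Qf j) := by
  rw [map_sum]
  refine Finset.sum_congr rfl fun j _ => ?_
  rw [push1_single, one_smul, rd1_eq_comp1 H hFF (hX j)]

theorem push2_sum_single {J : Type*} [Fintype J]
    (Qf : J → SpPt (fibreHyp1_of_nodal H hFF) (fibreHyp2_of_nodal H hFF)) (X : J → Place K F)
    (hX : ∀ j, X j ∈ discOf (fibreHyp1_of_nodal H hFF) (fibreHyp2_of_nodal H hFF) (Qf j)) :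
    push2 H (∑ j, Finsupp.single (X j) (1 : ℤ)) = ∑ j, comp2 (Qf j) := by
  rw [map_sum]
  refine Finset.sum_congr rfl fun j _ => ?_
  rw [push2_single, one_smul, rd2_eq_comp2 H hFF (hX j)]

/-- the reduced space of the glued frame is contained in the pair reduction. -/
theorem redSpace_glueData_le
    (hexcl : ∀ (X : Place K F) (q : Place k Ft1) (q' : Place k Ft2),
      (fibreHyp1_of_nodal H hFF).rOf X = some q → (fibreHyp2_of_nodal H hFF).rOf X ≠ some q')
    (g' : ℤ) (D : Divisor K F) :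
    redSpace (glueData hc (fibreHyp1_of_nodal H hFF) (fibreHyp2_of_nodal H hFF) rfl hexcl P Q g') D
      ≤ redSpace2 hc D := by
  rintro xt ⟨x, hxL, rfl⟩
  exact ⟨(x : F), (fibreHyp1_of_nodal H hFF).B_le _ x.2, (fibreHyp2_of_nodal H hFF).B_le _ x.2,
    hxL, rfl, rfl⟩

variable [Finite ι]

/-- **(L5)**: the pair reduction of `L(Σ X_j) ∩ B`, one point in each of finitely many good discs,
lies in the glued space of the special points.  (`Function.Injective Qf` is not needed.) -/
theorem l5_of_nodal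
    (hexcl : ∀ (X : Place K F) (q : Place k Ft1) (q' : Place k Ft2),
      (fibreHyp1_of_nodal H hFF).rOf X = some q → (fibreHyp2_of_nodal H hFF).rOf X ≠ some q')
    (g' : ℤ) {J : Type} [Fintype J]
    (Qf : J → SpPt (fibreHyp1_of_nodal H hFF) (fibreHyp2_of_nodal H hFF)) (X : J → Place K F)
    (hX : ∀ j, X j ∈ discOf (fibreHyp1_of_nodal H hFF) (fibreHyp2_of_nodal H hFF) (Qf j)) :
    redSpace (glueData hc (fibreHyp1_of_nodal H hFF) (fibreHyp2_of_nodal H hFF) rfl hexcl P Q g')
        (∑ j, Finsupp.single (X j) (1 : ℤ)) ≤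
      gluedSpace P Q (∑ j, comp1 (Qf j)) (∑ j, comp2 (Qf j)) := by
  classical
  have hZ : (0 : Divisor K F) ≤ ∑ j, Finsupp.single (X j) (1 : ℤ) :=
    Finset.sum_nonneg fun j _ => Finsupp.single_nonneg.mpr zero_le_one
  have hgood : ∀ v ∈ (∑ j, Finsupp.single (X j) (1 : ℤ) : Divisor K F).support,
      GoodPlace H v := by
    intro v hv
    have h1 := Finsupp.support_finsetSum hv
    rw [Finset.mem_biUnion] at h1
    obtain ⟨j, -, hj⟩ := h1
    have h2 := Finsupp.support_single_subset hj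
    rw [Finset.mem_singleton] at h2
    rw [h2]
    exact goodPlace_of_discOf H hFF (hX j)
  refine (redSpace_glueData_le H hFF hexcl g' _).trans ?_
  have h := redSpace2_le_glued_push H hZ hgood
  rw [push1_sum_single H hFF Qf X hX, push2_sum_single H hFF Qf X hX] at h
  rw [gluedSpace_eq_glued]
  exact h

/-- the field `GlueHyp.L5` of `GS/Frame/Glue/Data.lean`, VERBATIM. -/
theorem l5_field
    (hexcl : ∀ (X : Place K F) (q : Place k Ft1) (q' : Place k Ft2),
      (fibreHyp1_of_nodal H hFF).rOf X = some q → (fibreHyp2_of_nodal H hFF).rOf X ≠ some q')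
    (g' : ℤ) :
    ∀ {J : Type} [Fintype J]
      (Qf : J → SpPt (fibreHyp1_of_nodal H hFF) (fibreHyp2_of_nodal H hFF)),
      Function.Injective Qf → ∀ X : J → Place K F,
      (∀ j, X j ∈ discOf (fibreHyp1_of_nodal H hFF) (fibreHyp2_of_nodal H hFF) (Qf j)) →
      redSpace (glueData hc (fibreHyp1_of_nodal H hFF) (fibreHyp2_of_nodal H hFF) rfl hexcl P Q g')
          (∑ j, Finsupp.single (X j) (1 : ℤ)) ≤
        gluedSpace P Q (∑ j, comp1 (Qf j)) (∑ j, comp2 (Qf j)) :=
  fun Qf _ X hX => l5_of_nodal H hFF hexcl g' Qf X hX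

end Glue

end Fermat.Agent.GS.Nodal.L5
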