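/-
GATE-S (S33) / the DISC FRAME INSTANCE of the abstract nodal frame (helper16): plug of

* helper90's `Glue/Ball2.glueHyp_of_nodalHyp` (instance side of `GlueHyp`, open binder (L5)),
* `GS/Nodal/L5.l5_field` (the binder (L5)),
* helper99's `Loc/Facts.localFacts` (the facts (F1)–(F5) of one component),
* helper37's `Glue/F7.const_of_small_glue` (the fact (F7)),
* helper34's `Glue/Facts.discFacts_glue_of_F7` (the assembly),

into ONE theorem: for `H : NodalHyp hc P Q C C₁ C₂ g c n₀` and the fibre formula `hFF : FF2 …`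
(the only remaining input of INST²(a)), the glued disc frame

  `nodalData H hFF := glueData hc (fibreHyp1_of_nodal H hFF) (fibreHyp2_of_nodal H hFF) rfl
      (hexcl_of_nodal H hFF) P Q g`

satisfies ALL TEN facts: `discFacts_nodal H hFF : DiscFacts (nodalData H hFF)`.
-/
import Mathlib
import Fermat.Agent.GS.Nodal.L5
import Fermat.Agent.GS.Frame.Glue.Ball2
import Fermat.Agent.GS.Frame.Glue.F7
import Fermat.Agent.GS.Frame.Glue.Facts
import Fermat.Agent.GS.Frame.Loc.Facts
import Fermat.Agent.GS.Frame.Gen.Main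

set_option autoImplicit false
set_option linter.unusedSectionVars false

noncomputable section

open AlgebraicCurve

namespace Fermat.Agent.GS.Nodal.DiscFacts2

open Fermat.Agent.RRh45 Fermat.Agent.GJ.J1 Fermat.Agent.GK.MultiVal
open Fermat.Agent.GS.Nodal.LSR2 Fermat.Agent.GS.Nodal.FibreHyp2 Fermat.Agent.GS.Nodal.ROfSurj2
open Fermat.Agent.GS.Nodal.L5
open Fermat.Agent.GS.Frame Fermat.Agent.GS.Frame.Glue

variable {K F k Ft1 Ft2 : Type*} [Field K] [Field F] [Algebra K F] [Field k]
  [Field Ft1] [Algebra k Ft1] [Field Ft2] [Algebra k Ft2]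
variable {R1 : RedData K F k Ft1} {R2 : RedData K F k Ft2} {hc : RedCompat R1 R2}
variable {ι : Type*} {P : ι → Place k Ft1} {Q : ι → Place k Ft2}
variable {C : Divisor K F} {C₁ : Divisor k Ft1} {C₂ : Divisor k Ft2} {g c : ℤ} {n₀ : ℕ}
variable [FiniteResidues K F] [HasPrincipalDivisors K F] [Nonempty (Place K F)]
variable [FiniteResidues k Ft1] [HasPrincipalDivisors k Ft1] [Nonempty (Place k Ft1)]
variable [FiniteResidues k Ft2] [HasPrincipalDivisors k Ft2] [Nonempty (Place k Ft2)]
variable [Infinite k]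
variable {S1 : Set (Place k Ft1)} {S2 : Set (Place k Ft2)}
variable (H : NodalHyp hc P Q C C₁ C₂ g c n₀) (hFF : FF2 R1 R2 (disc1 H) (disc2 H) S1 S2)

/-- **the disc frame of the abstract nodal frame**: smooth special points `S1 ⊕ S2`, discs
`disc1 H`, `disc2 H`, unit ball `ball2`, genus `g`. -/
def nodalData : DiscData K F k (Ft1 × Ft2)
    (SpPt (fibreHyp1_of_nodal H hFF) (fibreHyp2_of_nodal H hFF)) :=
  glueData hc (fibreHyp1_of_nodal H hFF) (fibreHyp2_of_nodal H hFF) rfl (hexcl_of_nodal H hFF)
    P Q g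

@[simp] theorem nodalData_A : (nodalData H hFF).A = R1.A := rfl
@[simp] theorem nodalData_g : (nodalData H hFF).g = g := rfl
@[simp] theorem nodalData_B : (nodalData H hFF).B = ball2 R1 R2 := rfl

theorem nodalData_disc_inl (q : {q : Place k Ft1 // q ∈ (fibreHyp1_of_nodal H hFF).good}) :
    (nodalData H hFF).disc (Sum.inl q) = disc1 H q.1 :=
  disc_fibreHyp1 _ q.1

theorem nodalData_disc_inr (q : {q : Place k Ft2 // q ∈ (fibreHyp2_of_nodal H hFF).good}) :
    (nodalData H hFF).disc (Sum.inr q) = disc2 H q.1 :=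
  disc_fibreHyp2 _ q.1

variable [Finite ι]

/-- **`GlueHyp` of the abstract nodal frame** — no binder left. -/
theorem glueHyp_nodal :
    GlueHyp hc (fibreHyp1_of_nodal H hFF) (fibreHyp2_of_nodal H hFF) rfl (hexcl_of_nodal H hFF)
      P Q g :=
  Ball2.glueHyp_of_nodalHyp hc _ _ rfl (hexcl_of_nodal H hFF) P Q g H rfl rfl rfl
    (l5_field H hFF (hexcl_of_nodal H hFF) g)

/-- **ALL TEN FACTS of the disc frame of the abstract nodal frame.** -/
theorem discFacts_nodal : DiscFacts (nodalData H hFF) :=
  discFacts_glue_of_F7 (glueHyp_nodal H hFF) (Local.localFacts _) (Local.localFacts _)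
    (const_of_small_glue (glueHyp_nodal H hFF) (Local.localFacts _) (Local.localFacts _))

/-- **the FRAME² contracts of the abstract nodal frame** from the genus equation, the archimedean
property of the base valuation and a supply of charts. -/
theorem contracts_nodal {n : ℕ} (hn : (n : ℤ) = g)
    (harch : ∀ x y : K, R1.A.valuation x < 1 → y ≠ 0 →
      ∃ m : ℕ, R1.A.valuation x ^ m ≤ R1.A.valuation y)
    (hS : ChartSupply (nodalData H hFF) n) :
    AddSpec (nodalData H hFF) n ∧ CoordUnique (nodalData H hFF) n ∧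
      CoordSmall (nodalData H hFF) n ∧ CoordInj (nodalData H hFF) n :=
  Fermat.Agent.GS.Frame.Asm.frame_target (discFacts_nodal H hFF) hn harch hS

end Fermat.Agent.GS.Nodal.DiscFacts2
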