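/-
GATE-S (S33) / seam INST² → FRAME² (helper87): **existence of chart points on the nodal frame**
(the `hpt` binder of `GS/Frame/Glue/Supply.chartSupply_glue`), in the vocabulary of helper16's
nodal L-space construction `H : NodalHyp hc P Q C C₁ C₂ g c n₀`.

For a place `q` of the first component which is not a node and not in the support of the reduced
pencil divisor `C₁`:

* `notMem_disc1_of_mem_support` : POLE CONTROL — no place of `supp C` reduces to `q`;
* `exists_redParam1` : for `N` large there is `w ∈ glued (N • C₁) (N • C₂)` with `ord_q w.1 = 1` and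
  `w.2` NOT a constant (exactness of the glued spaces);
* `exists_param1` : its lift `t ∈ L(N • C) ∩ Rw₁ ∩ Rw₂` has no pole on `disc1 H q`, `ord_q (red₁ t) = 1`
  and both reductions are non-constant;
* `isU_sub_const` : then `t - a` is a unit of `ball2` for every `a ∈ A`;
* `chartPt1_of_nodal` : `Nonempty (ChartPt (fibreHyp1_of_nodal H hFF) q)` (helper48's
  `chartPtOfParam`: the centre is the unique zero of `t` on the disc).

The mirror statements `…2` for the second component.
-/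
import Mathlib
import Fermat.Agent.GS.Nodal.FibreHyp2
import Fermat.Agent.GS.Frame.Loc.Values
import Fermat.Agent.S24_helper38.OrdBasic

set_option autoImplicit false
set_option linter.unusedSectionVars false

noncomputable section

open AlgebraicCurve

namespace Fermat.Agent.GS.Nodal.ChartPt2

open Fermat.Agent.RRh45 Fermat.Agent.GJ.S37MinDiv Fermat.Agent.GJ.J1 Fermat.Agent.GK.MultiVal
open Fermat.Agent.GK.NodalGraded Fermat.Agent.S24
open Fermat.Agent.GS.Frame.Local Fermat.Agent.GS.Nodal.ROfSurj2 Fermat.Agent.GS.Nodal.LSR2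
open Fermat.Agent.GS.Nodal.FibreHyp2

variable {K F k Ft1 Ft2 : Type*} [Field K] [Field F] [Algebra K F] [Field k]
  [Field Ft1] [Algebra k Ft1] [Field Ft2] [Algebra k Ft2]
variable {R1 : RedData K F k Ft1} {R2 : RedData K F k Ft2} {hc : RedCompat R1 R2}
variable {ι : Type*} {P : ι → Place k Ft1} {Q : ι → Place k Ft2}
variable {C : Divisor K F} {C₁ : Divisor k Ft1} {C₂ : Divisor k Ft2} {g c : ℤ} {n₀ : ℕ}
variable [FiniteResidues K F] [HasPrincipalDivisors K F] [Nonempty (Place K F)]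
variable [FiniteResidues k Ft1] [HasPrincipalDivisors k Ft1] [Nonempty (Place k Ft1)]
variable [FiniteResidues k Ft2] [HasPrincipalDivisors k Ft2] [Nonempty (Place k Ft2)]

/-! ### generalities -/

/-- an element of a Gauss valuation ring with nonzero reduction is a unit. -/
theorem inv_mem_of_red_ne_zero {Ft : Type*} [Field Ft] [Algebra k Ft] (R : RedData K F k Ft)
    {y : F} (hy : y ∈ R.Rw) (h : R.red ⟨y, hy⟩ ≠ 0) : y⁻¹ ∈ R.Rw := by
  have hu : IsUnit (⟨y, hy⟩ : R.Rw) := by
    by_contra hnu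
    exact h ((R.red_eq_zero_iff _).mpr ((IsLocalRing.mem_maximalIdeal _).mpr hnu))
  obtain ⟨u, hu⟩ := hu
  have h1 : y * ((↑u⁻¹ : R.Rw) : F) = 1 := by
    have := congrArg Subtype.val (Units.mul_inv u)
    rw [hu] at this
    exact this
  rw [← eq_inv_of_mul_eq_one_right h1]
  exact (↑u⁻¹ : R.Rw).2

/-- a function of order `1` at some place is not a constant. -/
theorem ne_algebraMap_of_ord_eq_one {L E : Type*} [Field L] [Field E] [Algebra L E]
    {v : Place L E} {f : E} (h : v.ord f = 1) (b : L) : f ≠ algebraMap L E b := by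
  rintro rfl
  rcases eq_or_ne b 0 with rfl | hb
  · rw [map_zero, Place.ord_zero] at h
    omega
  · rw [PlaceB.ord_algebraMap v hb] at h
    omega

/-- a function with a pole is not a constant. -/
theorem ne_algebraMap_of_ord_neg {L E : Type*} [Field L] [Field E] [Algebra L E]
    {v : Place L E} {f : E} (h : v.ord f < 0) (b : L) : f ≠ algebraMap L E b := by
  rintro rfl
  rcases eq_or_ne b 0 with rfl | hb
  · rw [map_zero, Place.ord_zero] at h
    omega
  · rw [PlaceB.ord_algebraMap v hb] at h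
    omega

/-- an effective divisor of positive degree has a point in its support. -/
theorem exists_one_le_of_degree_pos {L E : Type*} [Field L] [Field E] [Algebra L E]
    {D : Divisor L E} (hD : 0 ≤ D) (hdeg : 1 ≤ Divisor.degree D) : ∃ v : Place L E, 1 ≤ D v := by
  have hne : D ≠ 0 := by
    rintro rfl
    simp at hdeg
  obtain ⟨v, hv⟩ : ∃ v, D v ≠ 0 := by
    by_contra hall
    push Not at hall
    exact hne (Finsupp.ext hall)
  have hv0 : 0 ≤ D v := by simpa using Finsupp.le_def.mp hD v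
  exact ⟨v, by omega⟩

/-- `t - a` is a unit of `ball2` for every integral constant `a`, as soon as both reductions of
`t` are non-constant. -/
theorem isU_sub_const (hc : RedCompat R1 R2) {t : F} (h1 : t ∈ R1.Rw) (h2 : t ∈ R2.Rw)
    (hn1 : ∀ b : k, R1.red ⟨t, h1⟩ ≠ algebraMap k Ft1 b)
    (hn2 : ∀ b : k, R2.red ⟨t, h2⟩ ≠ algebraMap k Ft2 b) {a : K} (ha : a ∈ R1.A) :
    t - algebraMap K F a ≠ 0 ∧ t - algebraMap K F a ∈ ball2 R1 R2 ∧
      (t - algebraMap K F a)⁻¹ ∈ ball2 R1 R2 := by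
  have ha2 : a ∈ R2.A := hc.A_eq ▸ ha
  have hw1 : algebraMap K F a ∈ R1.Rw := (R1.mem_A_iff a).1 ha
  have hw2 : algebraMap K F a ∈ R2.Rw := (R2.mem_A_iff a).1 ha2
  have hy1 : t - algebraMap K F a ∈ R1.Rw := sub_mem h1 hw1
  have hy2 : t - algebraMap K F a ∈ R2.Rw := sub_mem h2 hw2
  have hr1 : R1.red ⟨t - algebraMap K F a, hy1⟩ ≠ 0 := by
    have e : (⟨t - algebraMap K F a, hy1⟩ : R1.Rw) = ⟨t, h1⟩ - ⟨algebraMap K F a, hw1⟩ := rfl
    rw [e, map_sub, R1.red_algebraMap ⟨a, ha⟩, sub_ne_zero]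
    exact hn1 _
  have hr2 : R2.red ⟨t - algebraMap K F a, hy2⟩ ≠ 0 := by
    have e : (⟨t - algebraMap K F a, hy2⟩ : R2.Rw) = ⟨t, h2⟩ - ⟨algebraMap K F a, hw2⟩ := rfl
    rw [e, map_sub, R2.red_algebraMap ⟨a, ha2⟩, sub_ne_zero]
    exact hn2 _
  refine ⟨?_, mem_ball2.mpr ⟨hy1, hy2⟩,
    mem_ball2.mpr ⟨inv_mem_of_red_ne_zero R1 hy1 hr1, inv_mem_of_red_ne_zero R2 hy2 hr2⟩⟩
  intro h0
  apply hr1
  have e : (⟨t - algebraMap K F a, hy1⟩ : R1.Rw) = 0 := Subtype.ext h0
  rw [e, map_zero]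

variable {H : NodalHyp hc P Q C C₁ C₂ g c n₀}

/-! ### the first component -/

/-- **pole control**: no place of the support of the pencil divisor reduces to a place of the
first component outside the support of `C₁`. -/
theorem notMem_disc1_of_mem_support {q : Place k Ft1} (hC : C₁ q = 0) {v : Place K F}
    (hv : v ∈ C.support) : v ∉ disc1 H q := by
  intro hd
  have hd' : Red H (Finsupp.single v 1 + n₀ • C) (Finsupp.single q 1 + n₀ • C₁) (n₀ • C₂) := hd
  have hCv : 1 ≤ C v := by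
    have h0 : 0 ≤ C v := by simpa using Finsupp.le_def.mp H.C_nonneg v
    have hne : C v ≠ 0 := Finsupp.mem_support_iff.mp hv
    omega
  have hle : Finsupp.single v 1 + n₀ • C ≤ (n₀ + 1) • C := by
    rw [Finsupp.le_def]
    intro v'
    rw [Finsupp.add_apply, nsmul_div_apply, nsmul_div_apply]
    push_cast
    by_cases hv' : v' = v
    · subst hv'
      rw [Finsupp.single_eq_same]
      linarith
    · rw [Finsupp.single_eq_of_ne hv']
      have h0 : 0 ≤ C v' := by simpa using Finsupp.le_def.mp H.C_nonneg v'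
      linarith
  have hpen := Red.pencil H (n := n₀ + 1) (Nat.le_succ _)
  have hsub : glued P Q (Finsupp.single q 1 + n₀ • C₁) (n₀ • C₂) ≤
      glued P Q ((n₀ + 1) • C₁) ((n₀ + 1) • C₂) := by
    rw [← hd'.eq, ← hpen.eq]
    exact redSpace2_mono hc hle
  have hc0 := H.c_nonneg
  have key := H.le_of_glued_fst hd'.node1 hd'.node2 hd'.deg1 (by have := hd'.deg2; omega)
    (E₁' := (n₀ + 1) • C₁) fun w hw => (hsub hw).1
  have := Finsupp.le_def.mp key q
  rw [Finsupp.add_apply, Finsupp.single_eq_same, nsmul_div_apply, nsmul_div_apply, hC] at this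
  omega

/-- **the reduced parameter** at a place `q` of the first component off the nodes and off
`supp C₁`: an element of a glued space of the pencil whose first component is a uniformiser at `q`
and whose second component is not a constant. -/
theorem exists_redParam1 (H : NodalHyp hc P Q C C₁ C₂ g c n₀) {q : Place k Ft1}
    (hq : ∀ j, q ≠ P j) (hC : C₁ q = 0) :
    ∃ N : ℕ, n₀ ≤ N ∧ ∃ w ∈ glued P Q (N • C₁) (N • C₂), q.ord w.1 = 1 ∧
      ∀ b : k, w.2 ≠ algebraMap k Ft2 b := by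
  obtain ⟨N, hN, hN1, hN2⟩ := H.exists_large (c + 3)
  have hc0 := H.c_nonneg
  refine ⟨N, hN, ?_⟩
  set E₁' : Divisor k Ft1 := N • C₁ - Finsupp.single q 1 with hE₁'
  set E₁'' : Divisor k Ft1 := N • C₁ - Finsupp.single q 2 with hE₁''
  have hn1' : ∀ j, E₁' (P j) = 0 := fun j => by
    rw [hE₁', Finsupp.sub_apply, nsmul_div_apply, H.C₁_node j,
      Finsupp.single_eq_of_ne (hq j).symm]
    simp
  have hn1'' : ∀ j, E₁'' (P j) = 0 := fun j => by
    rw [hE₁'', Finsupp.sub_apply, nsmul_div_apply, H.C₁_node j,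
      Finsupp.single_eq_of_ne (hq j).symm]
    simp
  have hn2 : ∀ j, (N • C₂) (Q j) = 0 := fun j => by
    rw [nsmul_div_apply, H.C₂_node j, mul_zero]
  have hdeg' : Divisor.degree E₁' = N * Divisor.degree C₁ - 1 := by
    rw [hE₁', map_sub, degree_nsmul', Divisor.degree_single, H.degFt1 q]; simp
  have hdeg'' : Divisor.degree E₁'' = N * Divisor.degree C₁ - 2 := by
    rw [hE₁'', map_sub, degree_nsmul', Divisor.degree_single, H.degFt1 q]; simp
  have hdeg2 : Divisor.degree (N • C₂) = N * Divisor.degree C₂ := degree_nsmul' N C₂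
  have hle' : E₁' ≤ N • C₁ := by
    rw [hE₁']; exact sub_le_self _ (Finsupp.single_nonneg.mpr zero_le_one)
  have hle'' : E₁'' ≤ N • C₁ := by
    rw [hE₁'']; exact sub_le_self _ (Finsupp.single_nonneg.mpr (by norm_num))
  obtain ⟨w₀, hw₀, hw₀0, hw₀q⟩ := H.exists_exact1 hn1' hn2 (by omega) (by omega) q
  have hw₀q' : q.ord w₀.1 = 1 := by
    rw [hw₀q, hE₁', Finsupp.sub_apply, nsmul_div_apply, hC, Finsupp.single_eq_same]
    ring
  by_cases hconst : ∃ b : k, w₀.2 = algebraMap k Ft2 b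
  · obtain ⟨b, hb⟩ := hconst
    obtain ⟨Q', hQ'⟩ := exists_one_le_of_degree_pos H.C₂_nonneg H.degC₂_pos
    obtain ⟨w', hw', hw'0, hw'Q⟩ := H.exists_exact2 hn1'' hn2 (by omega) (by omega) Q'
    have hNpos : (1 : ℤ) ≤ N := by
      by_contra hlt
      have h0 : (N : ℤ) = 0 := by omega
      rw [h0, zero_mul] at hN2
      omega
    have hpole : Q'.ord w'.2 < 0 := by
      rw [hw'Q, nsmul_div_apply]
      have : (1 : ℤ) ≤ N * C₂ Q' := by nlinarith
      omega
    refine ⟨w₀ + w', Submodule.add_mem _ (glued_mono hle' le_rfl hw₀)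
      (glued_mono hle'' le_rfl hw'), ?_, ?_⟩
    · rw [Prod.fst_add]
      rcases eq_or_ne w'.1 0 with h0 | h0
      · rw [h0, add_zero]; exact hw₀q'
      · have hge := (mem_riemannRochSpace_iff.mp hw'.1 q).resolve_left h0
        rw [hE₁'', Finsupp.sub_apply, nsmul_div_apply, hC, Finsupp.single_eq_same] at hge
        have hlt : q.ord w₀.1 < q.ord w'.1 := by rw [hw₀q']; omega
        rw [(Fermat.Agent.S24_helper38.ord_add_eq_of_lt q hw₀0 h0 hlt).2]
        exact hw₀q'
    · intro b' hb'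
      rw [Prod.snd_add, hb] at hb'
      have : w'.2 = algebraMap k Ft2 (b' - b) := by
        rw [map_sub, ← hb']; ring
      exact ne_algebraMap_of_ord_neg hpole _ this
  · push Not at hconst
    exact ⟨w₀, glued_mono hle' le_rfl hw₀, hw₀q', hconst⟩

/-- **the parameter** at `q`: a function of `L(N • C)`, integral for both valuations, without pole
on the disc of `q`, whose first reduction is a uniformiser at `q` and both of whose reductions are
non-constant. -/
theorem exists_param1 (H : NodalHyp hc P Q C C₁ C₂ g c n₀) {q : Place k Ft1}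
    (hq : ∀ j, q ≠ P j) (hC : C₁ q = 0) :
    ∃ (t : F) (h1 : t ∈ R1.Rw) (h2 : t ∈ R2.Rw), (∀ v ∈ disc1 H q, t ∈ v.toValuationSubring) ∧
      q.ord (R1.red ⟨t, h1⟩) = 1 ∧ (∀ b : k, R1.red ⟨t, h1⟩ ≠ algebraMap k Ft1 b) ∧
      ∀ b : k, R2.red ⟨t, h2⟩ ≠ algebraMap k Ft2 b := by
  obtain ⟨N, hN, w, hw, hwq, hw2⟩ := exists_redParam1 H hq hC
  rw [← (Red.pencil H hN).eq] at hw
  obtain ⟨x, h1, h2, hx, e1, e2⟩ := hw
  refine ⟨x, h1, h2, ?_, by rw [e1]; exact hwq, ?_, by rw [e2]; exact hw2⟩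
  · intro v hv
    rcases eq_or_ne x 0 with rfl | hx0
    · exact zero_mem _
    · have hCv : C v = 0 := by
        by_contra hne
        exact notMem_disc1_of_mem_support hC (Finsupp.mem_support_iff.mpr hne) hv
      have := (mem_riemannRochSpace_iff.mp hx v).resolve_left hx0
      rw [nsmul_div_apply, hCv, mul_zero, neg_zero] at this
      exact (PlaceB.ord_nonneg_iff v hx0).mp this
  · rw [e1]
    exact ne_algebraMap_of_ord_eq_one hwq

/-- **chart points exist on the first component of the nodal frame**, over every smooth place off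
the support of the reduced pencil divisor. -/
theorem chartPt1_of_nodal (H : NodalHyp hc P Q C C₁ C₂ g c n₀) {S1 : Set (Place k Ft1)}
    {S2 : Set (Place k Ft2)} (hFF : FF2 R1 R2 (disc1 H) (disc2 H) S1 S2) {q : Place k Ft1}
    (hqS : q ∈ S1) (hq : ∀ j, q ≠ P j) (hC : C₁ q = 0) :
    Nonempty (ChartPt (fibreHyp1_of_nodal H hFF) q) := by
  obtain ⟨t, h1, h2, hdisc, hred, hn1, hn2⟩ := exists_param1 H hq hC
  have ht : t ∈ Odisc (fibreHyp1_of_nodal H hFF) q := by
    refine ⟨mem_ball2.mpr ⟨h1, h2⟩, fun v hv => hdisc v ?_⟩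
    exact (fibreHyp1_rOf_eq_some_iff _ v q).mp hv
  exact ⟨chartPtOfParam ht hqS hred fun a ha => isU_sub_const hc h1 h2 hn1 hn2 ha⟩

/-! ### the second component -/

/-- **pole control** on the second component. -/
theorem notMem_disc2_of_mem_support {q : Place k Ft2} (hC : C₂ q = 0) {v : Place K F}
    (hv : v ∈ C.support) : v ∉ disc2 H q := by
  intro hd
  have hd' : Red H (Finsupp.single v 1 + n₀ • C) (n₀ • C₁) (Finsupp.single q 1 + n₀ • C₂) := hd
  have hCv : 1 ≤ C v := by
    have h0 : 0 ≤ C v := by simpa using Finsupp.le_def.mp H.C_nonneg v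
    have hne : C v ≠ 0 := Finsupp.mem_support_iff.mp hv
    omega
  have hle : Finsupp.single v 1 + n₀ • C ≤ (n₀ + 1) • C := by
    rw [Finsupp.le_def]
    intro v'
    rw [Finsupp.add_apply, nsmul_div_apply, nsmul_div_apply]
    push_cast
    by_cases hv' : v' = v
    · subst hv'
      rw [Finsupp.single_eq_same]
      linarith
    · rw [Finsupp.single_eq_of_ne hv']
      have h0 : 0 ≤ C v' := by simpa using Finsupp.le_def.mp H.C_nonneg v'
      linarith
  have hpen := Red.pencil H (n := n₀ + 1) (Nat.le_succ _)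
  have hsub : glued P Q (n₀ • C₁) (Finsupp.single q 1 + n₀ • C₂) ≤
      glued P Q ((n₀ + 1) • C₁) ((n₀ + 1) • C₂) := by
    rw [← hd'.eq, ← hpen.eq]
    exact redSpace2_mono hc hle
  have hc0 := H.c_nonneg
  have key := H.le_of_glued_snd hd'.node1 hd'.node2 (by have := hd'.deg1; omega) hd'.deg2
    (E₂' := (n₀ + 1) • C₂) fun w hw => (hsub hw).2.1
  have := Finsupp.le_def.mp key q
  rw [Finsupp.add_apply, Finsupp.single_eq_same, nsmul_div_apply, nsmul_div_apply, hC] at this
  omega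

/-- **the reduced parameter** at a place `q` of the second component off the nodes and off
`supp C₂`. -/
theorem exists_redParam2 (H : NodalHyp hc P Q C C₁ C₂ g c n₀) {q : Place k Ft2}
    (hq : ∀ j, q ≠ Q j) (hC : C₂ q = 0) :
    ∃ N : ℕ, n₀ ≤ N ∧ ∃ w ∈ glued P Q (N • C₁) (N • C₂), q.ord w.2 = 1 ∧
      ∀ b : k, w.1 ≠ algebraMap k Ft1 b := by
  obtain ⟨N, hN, hN1, hN2⟩ := H.exists_large (c + 3)
  have hc0 := H.c_nonneg
  refine ⟨N, hN, ?_⟩
  set E₂' : Divisor k Ft2 := N • C₂ - Finsupp.single q 1 with hE₂'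
  set E₂'' : Divisor k Ft2 := N • C₂ - Finsupp.single q 2 with hE₂''
  have hn2' : ∀ j, E₂' (Q j) = 0 := fun j => by
    rw [hE₂', Finsupp.sub_apply, nsmul_div_apply, H.C₂_node j,
      Finsupp.single_eq_of_ne (hq j).symm]
    simp
  have hn2'' : ∀ j, E₂'' (Q j) = 0 := fun j => by
    rw [hE₂'', Finsupp.sub_apply, nsmul_div_apply, H.C₂_node j,
      Finsupp.single_eq_of_ne (hq j).symm]
    simp
  have hn1 : ∀ j, (N • C₁) (P j) = 0 := fun j => by
    rw [nsmul_div_apply, H.C₁_node j, mul_zero]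
  have hdeg' : Divisor.degree E₂' = N * Divisor.degree C₂ - 1 := by
    rw [hE₂', map_sub, degree_nsmul', Divisor.degree_single, H.degFt2 q]; simp
  have hdeg'' : Divisor.degree E₂'' = N * Divisor.degree C₂ - 2 := by
    rw [hE₂'', map_sub, degree_nsmul', Divisor.degree_single, H.degFt2 q]; simp
  have hdeg1 : Divisor.degree (N • C₁) = N * Divisor.degree C₁ := degree_nsmul' N C₁
  have hle' : E₂' ≤ N • C₂ := by
    rw [hE₂']; exact sub_le_self _ (Finsupp.single_nonneg.mpr zero_le_one)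
  have hle'' : E₂'' ≤ N • C₂ := by
    rw [hE₂'']; exact sub_le_self _ (Finsupp.single_nonneg.mpr (by norm_num))
  obtain ⟨w₀, hw₀, hw₀0, hw₀q⟩ := H.exists_exact2 hn1 hn2' (by omega) (by omega) q
  have hw₀q' : q.ord w₀.2 = 1 := by
    rw [hw₀q, hE₂', Finsupp.sub_apply, nsmul_div_apply, hC, Finsupp.single_eq_same]
    ring
  by_cases hconst : ∃ b : k, w₀.1 = algebraMap k Ft1 b
  · obtain ⟨b, hb⟩ := hconst
    obtain ⟨Q', hQ'⟩ := exists_one_le_of_degree_pos H.C₁_nonneg H.degC₁_pos
    obtain ⟨w', hw', hw'0, hw'Q⟩ := H.exists_exact1 hn1 hn2'' (by omega) (by omega) Q'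
    have hNpos : (1 : ℤ) ≤ N := by
      by_contra hlt
      have h0 : (N : ℤ) = 0 := by omega
      rw [h0, zero_mul] at hN1
      omega
    have hpole : Q'.ord w'.1 < 0 := by
      rw [hw'Q, nsmul_div_apply]
      have : (1 : ℤ) ≤ N * C₁ Q' := by nlinarith
      omega
    refine ⟨w₀ + w', Submodule.add_mem _ (glued_mono le_rfl hle' hw₀)
      (glued_mono le_rfl hle'' hw'), ?_, ?_⟩
    · rw [Prod.snd_add]
      rcases eq_or_ne w'.2 0 with h0 | h0
      · rw [h0, add_zero]; exact hw₀q'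
      · have hge := (mem_riemannRochSpace_iff.mp hw'.2.1 q).resolve_left h0
        rw [hE₂'', Finsupp.sub_apply, nsmul_div_apply, hC, Finsupp.single_eq_same] at hge
        have hlt : q.ord w₀.2 < q.ord w'.2 := by rw [hw₀q']; omega
        rw [(Fermat.Agent.S24_helper38.ord_add_eq_of_lt q hw₀0 h0 hlt).2]
        exact hw₀q'
    · intro b' hb'
      rw [Prod.fst_add, hb] at hb'
      have : w'.1 = algebraMap k Ft1 (b' - b) := by
        rw [map_sub, ← hb']; ring
      exact ne_algebraMap_of_ord_neg hpole _ this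
  · push Not at hconst
    exact ⟨w₀, glued_mono le_rfl hle' hw₀, hw₀q', hconst⟩

/-- **the parameter** at a place `q` of the second component. -/
theorem exists_param2 (H : NodalHyp hc P Q C C₁ C₂ g c n₀) {q : Place k Ft2}
    (hq : ∀ j, q ≠ Q j) (hC : C₂ q = 0) :
    ∃ (t : F) (h1 : t ∈ R1.Rw) (h2 : t ∈ R2.Rw), (∀ v ∈ disc2 H q, t ∈ v.toValuationSubring) ∧
      q.ord (R2.red ⟨t, h2⟩) = 1 ∧ (∀ b : k, R1.red ⟨t, h1⟩ ≠ algebraMap k Ft1 b) ∧
      ∀ b : k, R2.red ⟨t, h2⟩ ≠ algebraMap k Ft2 b := by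
  obtain ⟨N, hN, w, hw, hwq, hw1⟩ := exists_redParam2 H hq hC
  rw [← (Red.pencil H hN).eq] at hw
  obtain ⟨x, h1, h2, hx, e1, e2⟩ := hw
  refine ⟨x, h1, h2, ?_, by rw [e2]; exact hwq, by rw [e1]; exact hw1, ?_⟩
  · intro v hv
    rcases eq_or_ne x 0 with rfl | hx0
    · exact zero_mem _
    · have hCv : C v = 0 := by
        by_contra hne
        exact notMem_disc2_of_mem_support hC (Finsupp.mem_support_iff.mpr hne) hv
      have := (mem_riemannRochSpace_iff.mp hx v).resolve_left hx0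
      rw [nsmul_div_apply, hCv, mul_zero, neg_zero] at this
      exact (PlaceB.ord_nonneg_iff v hx0).mp this
  · rw [e2]
    exact ne_algebraMap_of_ord_eq_one hwq

/-- **chart points exist on the second component of the nodal frame**. -/
theorem chartPt2_of_nodal (H : NodalHyp hc P Q C C₁ C₂ g c n₀) {S1 : Set (Place k Ft1)}
    {S2 : Set (Place k Ft2)} (hFF : FF2 R1 R2 (disc1 H) (disc2 H) S1 S2) {q : Place k Ft2}
    (hqS : q ∈ S2) (hq : ∀ j, q ≠ Q j) (hC : C₂ q = 0) :
    Nonempty (ChartPt (fibreHyp2_of_nodal H hFF) q) := by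
  obtain ⟨t, h1, h2, hdisc, hred, hn1, hn2⟩ := exists_param2 H hq hC
  have ht : t ∈ Odisc (fibreHyp2_of_nodal H hFF) q := by
    refine ⟨mem_ball2.mpr ⟨h1, h2⟩, fun v hv => hdisc v ?_⟩
    exact (fibreHyp2_rOf_eq_some_iff _ v q).mp hv
  refine ⟨chartPtOfParam ht hqS hred fun a ha => ?_⟩
  have ha1 : a ∈ R1.A := hc.A_eq.symm ▸ ha
  exact isU_sub_const hc h1 h2 hn1 hn2 ha1

end Fermat.Agent.GS.Nodal.ChartPt2
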