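/-
GATE-S (S33) / seam INST² → [GAL-I] (helper87, request of helper26 5381): the chart points of
`GS/Nodal/ChartPt2.lean` WITH the Riemann–Roch membership of their parameter — the input of the
inertia-fixed lift (helper18 `exists_inertia_fixed_lift2` + helper48 `chartPtOfParam`).

* `disc1_C_eq_zero`, `disc2_C_eq_zero` : `C_i q = 0 ⟹ C v = 0` for every `v` in the disc of `q`;
* `exists_param1_rr`, `exists_param2_rr` : the parameter `t` of `exists_param1/2` together with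
  `t ∈ L(N • C)`;
* `chartPt_of_param1`, `chartPt_of_param2` : ANY `t ∈ ball2` without pole on the disc of `q`, with
  `ord_q (red_i t) = 1` and both reductions non-constant, is the parameter of a chart point over `q`
  (`.t = t` by `rfl`);
* `exists_chartPt1_rr`, `exists_chartPt2_rr` : a chart point over `q` whose parameter lies in
  `L(N • C)` and has non-constant reductions.
-/
import Mathlib
import Fermat.Agent.GS.Nodal.ChartPt2

set_option autoImplicit false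
set_option linter.unusedSectionVars false

noncomputable section

open AlgebraicCurve

namespace Fermat.Agent.GS.Nodal.ChartPt2

open Fermat.Agent.RRh45 Fermat.Agent.GJ.S37MinDiv Fermat.Agent.GJ.J1 Fermat.Agent.GK.MultiVal
open Fermat.Agent.GK.NodalGraded Fermat.Agent.S24
open Fermat.Agent.GS.Frame.Local Fermat.Agent.GS.Nodal.ROfSurj2 Fermat.Agent.GS.Nodal.LSR2
open Fermat.Agent.GS.Nodal.FibreHyp2

variable {K F k Ft1 Ft2 : Type*} [Field K] [Field F] [Algebra K F] [Field k]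
  [Field Ft1] [Algebra k Ft1] [Field Ft2] [Algebra k Ft2]
variable {R1 : RedData K F k Ft1} {R2 : RedData K F k Ft2} {hc : RedCompat R1 R2}
variable {ι : Type*} {P : ι → Place k Ft1} {Q : ι → Place k Ft2}
variable {C : Divisor K F} {C₁ : Divisor k Ft1} {C₂ : Divisor k Ft2} {g c : ℤ} {n₀ : ℕ}
variable [FiniteResidues K F] [HasPrincipalDivisors K F] [Nonempty (Place K F)]
variable [FiniteResidues k Ft1] [HasPrincipalDivisors k Ft1] [Nonempty (Place k Ft1)]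
variable [FiniteResidues k Ft2] [HasPrincipalDivisors k Ft2] [Nonempty (Place k Ft2)]

variable {H : NodalHyp hc P Q C C₁ C₂ g c n₀}

/-- the pencil divisor has no support on the disc of a place off `supp C₁`. -/
theorem disc1_C_eq_zero {q : Place k Ft1} (hC : C₁ q = 0) {v : Place K F} (hv : v ∈ disc1 H q) :
    C v = 0 := by
  by_contra hne
  exact notMem_disc1_of_mem_support hC (Finsupp.mem_support_iff.mpr hne) hv

/-- the pencil divisor has no support on the disc of a place off `supp C₂`. -/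
theorem disc2_C_eq_zero {q : Place k Ft2} (hC : C₂ q = 0) {v : Place K F} (hv : v ∈ disc2 H q) :
    C v = 0 := by
  by_contra hne
  exact notMem_disc2_of_mem_support hC (Finsupp.mem_support_iff.mpr hne) hv

/-- a function of `L(N • C)` has no pole on the disc of a place off `supp C₁`. -/
theorem mem_valuationSubring_of_mem_rr1 {q : Place k Ft1} (hC : C₁ q = 0) {N : ℕ} {x : F}
    (hx : x ∈ riemannRochSpace (N • C)) {v : Place K F} (hv : v ∈ disc1 H q) :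
    x ∈ v.toValuationSubring := by
  rcases eq_or_ne x 0 with rfl | hx0
  · exact zero_mem _
  · have := (mem_riemannRochSpace_iff.mp hx v).resolve_left hx0
    rw [nsmul_div_apply, disc1_C_eq_zero hC hv, mul_zero, neg_zero] at this
    exact (PlaceB.ord_nonneg_iff v hx0).mp this

/-- a function of `L(N • C)` has no pole on the disc of a place off `supp C₂`. -/
theorem mem_valuationSubring_of_mem_rr2 {q : Place k Ft2} (hC : C₂ q = 0) {N : ℕ} {x : F}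
    (hx : x ∈ riemannRochSpace (N • C)) {v : Place K F} (hv : v ∈ disc2 H q) :
    x ∈ v.toValuationSubring := by
  rcases eq_or_ne x 0 with rfl | hx0
  · exact zero_mem _
  · have := (mem_riemannRochSpace_iff.mp hx v).resolve_left hx0
    rw [nsmul_div_apply, disc2_C_eq_zero hC hv, mul_zero, neg_zero] at this
    exact (PlaceB.ord_nonneg_iff v hx0).mp this

/-- **the parameter at `q` with its Riemann–Roch membership** (first component). -/
theorem exists_param1_rr (H : NodalHyp hc P Q C C₁ C₂ g c n₀) {q : Place k Ft1}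
    (hq : ∀ j, q ≠ P j) (hC : C₁ q = 0) :
    ∃ (N : ℕ) (t : F) (h1 : t ∈ R1.Rw) (h2 : t ∈ R2.Rw), n₀ ≤ N ∧ t ∈ riemannRochSpace (N • C) ∧
      q.ord (R1.red ⟨t, h1⟩) = 1 ∧ (∀ b : k, R1.red ⟨t, h1⟩ ≠ algebraMap k Ft1 b) ∧
      ∀ b : k, R2.red ⟨t, h2⟩ ≠ algebraMap k Ft2 b := by
  obtain ⟨N, hN, w, hw, hwq, hw2⟩ := exists_redParam1 H hq hC
  rw [← (Red.pencil H hN).eq] at hw
  obtain ⟨x, h1, h2, hx, e1, e2⟩ := hw
  refine ⟨N, x, h1, h2, hN, hx, by rw [e1]; exact hwq, ?_, by rw [e2]; exact hw2⟩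
  rw [e1]
  exact ne_algebraMap_of_ord_eq_one hwq

/-- **the parameter at `q` with its Riemann–Roch membership** (second component). -/
theorem exists_param2_rr (H : NodalHyp hc P Q C C₁ C₂ g c n₀) {q : Place k Ft2}
    (hq : ∀ j, q ≠ Q j) (hC : C₂ q = 0) :
    ∃ (N : ℕ) (t : F) (h1 : t ∈ R1.Rw) (h2 : t ∈ R2.Rw), n₀ ≤ N ∧ t ∈ riemannRochSpace (N • C) ∧
      q.ord (R2.red ⟨t, h2⟩) = 1 ∧ (∀ b : k, R1.red ⟨t, h1⟩ ≠ algebraMap k Ft1 b) ∧
      ∀ b : k, R2.red ⟨t, h2⟩ ≠ algebraMap k Ft2 b := by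
  obtain ⟨N, hN, w, hw, hwq, hw1⟩ := exists_redParam2 H hq hC
  rw [← (Red.pencil H hN).eq] at hw
  obtain ⟨x, h1, h2, hx, e1, e2⟩ := hw
  refine ⟨N, x, h1, h2, hN, hx, by rw [e2]; exact hwq, by rw [e1]; exact hw1, ?_⟩
  rw [e2]
  exact ne_algebraMap_of_ord_eq_one hwq

/-- **chart point from ANY parameter** (first component): `t ∈ ball2` without pole on the disc of
`q`, `ord_q (red₁ t) = 1`, both reductions non-constant. -/
def chartPt_of_param1 (H : NodalHyp hc P Q C C₁ C₂ g c n₀) {S1 : Set (Place k Ft1)}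
    {S2 : Set (Place k Ft2)} (hFF : FF2 R1 R2 (disc1 H) (disc2 H) S1 S2) {q : Place k Ft1}
    (hqS : q ∈ S1) {t : F} (h1 : t ∈ R1.Rw) (h2 : t ∈ R2.Rw)
    (hdisc : ∀ v ∈ disc1 H q, t ∈ v.toValuationSubring) (hred : q.ord (R1.red ⟨t, h1⟩) = 1)
    (hn1 : ∀ b : k, R1.red ⟨t, h1⟩ ≠ algebraMap k Ft1 b)
    (hn2 : ∀ b : k, R2.red ⟨t, h2⟩ ≠ algebraMap k Ft2 b) :
    ChartPt (fibreHyp1_of_nodal H hFF) q :=
  chartPtOfParam (Φ := fibreHyp1_of_nodal H hFF) (Q := q) (t₀ := t)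
    ⟨mem_ball2.mpr ⟨h1, h2⟩, fun v hv => hdisc v ((fibreHyp1_rOf_eq_some_iff _ v q).mp hv)⟩
    hqS hred fun _ ha => isU_sub_const hc h1 h2 hn1 hn2 ha

@[simp] theorem chartPt_of_param1_t (H : NodalHyp hc P Q C C₁ C₂ g c n₀)
    {S1 : Set (Place k Ft1)} {S2 : Set (Place k Ft2)}
    (hFF : FF2 R1 R2 (disc1 H) (disc2 H) S1 S2) {q : Place k Ft1}
    (hqS : q ∈ S1) {t : F} (h1 : t ∈ R1.Rw) (h2 : t ∈ R2.Rw)
    (hdisc : ∀ v ∈ disc1 H q, t ∈ v.toValuationSubring) (hred : q.ord (R1.red ⟨t, h1⟩) = 1)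
    (hn1 : ∀ b : k, R1.red ⟨t, h1⟩ ≠ algebraMap k Ft1 b)
    (hn2 : ∀ b : k, R2.red ⟨t, h2⟩ ≠ algebraMap k Ft2 b) :
    (chartPt_of_param1 H hFF hqS h1 h2 hdisc hred hn1 hn2).t = t := rfl

/-- **chart point from ANY parameter** (second component). -/
def chartPt_of_param2 (H : NodalHyp hc P Q C C₁ C₂ g c n₀) {S1 : Set (Place k Ft1)}
    {S2 : Set (Place k Ft2)} (hFF : FF2 R1 R2 (disc1 H) (disc2 H) S1 S2) {q : Place k Ft2}
    (hqS : q ∈ S2) {t : F} (h1 : t ∈ R1.Rw) (h2 : t ∈ R2.Rw)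
    (hdisc : ∀ v ∈ disc2 H q, t ∈ v.toValuationSubring) (hred : q.ord (R2.red ⟨t, h2⟩) = 1)
    (hn1 : ∀ b : k, R1.red ⟨t, h1⟩ ≠ algebraMap k Ft1 b)
    (hn2 : ∀ b : k, R2.red ⟨t, h2⟩ ≠ algebraMap k Ft2 b) :
    ChartPt (fibreHyp2_of_nodal H hFF) q :=
  chartPtOfParam (Φ := fibreHyp2_of_nodal H hFF) (Q := q) (t₀ := t)
    ⟨mem_ball2.mpr ⟨h1, h2⟩, fun v hv => hdisc v ((fibreHyp2_rOf_eq_some_iff _ v q).mp hv)⟩
    hqS hred fun _ ha => isU_sub_const hc h1 h2 hn1 hn2 (hc.A_eq.symm ▸ ha)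

@[simp] theorem chartPt_of_param2_t (H : NodalHyp hc P Q C C₁ C₂ g c n₀)
    {S1 : Set (Place k Ft1)} {S2 : Set (Place k Ft2)}
    (hFF : FF2 R1 R2 (disc1 H) (disc2 H) S1 S2) {q : Place k Ft2}
    (hqS : q ∈ S2) {t : F} (h1 : t ∈ R1.Rw) (h2 : t ∈ R2.Rw)
    (hdisc : ∀ v ∈ disc2 H q, t ∈ v.toValuationSubring) (hred : q.ord (R2.red ⟨t, h2⟩) = 1)
    (hn1 : ∀ b : k, R1.red ⟨t, h1⟩ ≠ algebraMap k Ft1 b)
    (hn2 : ∀ b : k, R2.red ⟨t, h2⟩ ≠ algebraMap k Ft2 b) :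
    (chartPt_of_param2 H hFF hqS h1 h2 hdisc hred hn1 hn2).t = t := rfl

/-- **a chart point over `q` with parameter in `L(N • C)`** (first component). -/
theorem exists_chartPt1_rr (H : NodalHyp hc P Q C C₁ C₂ g c n₀) {S1 : Set (Place k Ft1)}
    {S2 : Set (Place k Ft2)} (hFF : FF2 R1 R2 (disc1 H) (disc2 H) S1 S2) {q : Place k Ft1}
    (hqS : q ∈ S1) (hq : ∀ j, q ≠ P j) (hC : C₁ q = 0) :
    ∃ (pt : ChartPt (fibreHyp1_of_nodal H hFF) q) (N : ℕ) (h1 : pt.t ∈ R1.Rw)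
      (h2 : pt.t ∈ R2.Rw), n₀ ≤ N ∧ pt.t ∈ riemannRochSpace (N • C) ∧
      (∀ b : k, R1.red ⟨pt.t, h1⟩ ≠ algebraMap k Ft1 b) ∧
      ∀ b : k, R2.red ⟨pt.t, h2⟩ ≠ algebraMap k Ft2 b := by
  obtain ⟨N, t, h1, h2, hN, ht, hred, hn1, hn2⟩ := exists_param1_rr H hq hC
  exact ⟨chartPt_of_param1 H hFF hqS h1 h2
    (fun v hv => mem_valuationSubring_of_mem_rr1 hC ht hv) hred hn1 hn2, N, h1, h2, hN, ht, hn1, hn2⟩

/-- **a chart point over `q` with parameter in `L(N • C)`** (second component). -/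
theorem exists_chartPt2_rr (H : NodalHyp hc P Q C C₁ C₂ g c n₀) {S1 : Set (Place k Ft1)}
    {S2 : Set (Place k Ft2)} (hFF : FF2 R1 R2 (disc1 H) (disc2 H) S1 S2) {q : Place k Ft2}
    (hqS : q ∈ S2) (hq : ∀ j, q ≠ Q j) (hC : C₂ q = 0) :
    ∃ (pt : ChartPt (fibreHyp2_of_nodal H hFF) q) (N : ℕ) (h1 : pt.t ∈ R1.Rw)
      (h2 : pt.t ∈ R2.Rw), n₀ ≤ N ∧ pt.t ∈ riemannRochSpace (N • C) ∧
      (∀ b : k, R1.red ⟨pt.t, h1⟩ ≠ algebraMap k Ft1 b) ∧
      ∀ b : k, R2.red ⟨pt.t, h2⟩ ≠ algebraMap k Ft2 b := by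
  obtain ⟨N, t, h1, h2, hN, ht, hred, hn1, hn2⟩ := exists_param2_rr H hq hC
  exact ⟨chartPt_of_param2 H hFF hqS h1 h2
    (fun v hv => mem_valuationSubring_of_mem_rr2 hC ht hv) hred hn1 hn2, N, h1, h2, hN, ht, hn1, hn2⟩

end Fermat.Agent.GS.Nodal.ChartPt2
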