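/-
GATE-S (S33) / seam INST² → FRAME² (helper87): **the chart supply of the nodal frame, no chart-point
binder left** — `ChartSupply (glueData hc Φ1 Φ2 rfl hexcl P Q g') n` for the two local frames
`Φ_i := fibreHyp_i_of_nodal H hFF` of helper16's nodal L-space construction `H : NodalHyp …`.

* `chartSupply_of_points_off`, `chartSupply_glue_off` : the supply when chart points are known only
  off a FINITE set of special points (the supply never needs more);
* `gluedGenus_eq_of_nodal` : the genus `g` of `NodalHyp` IS the arithmetic genus `gluedGenus` of the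
  glued curve (compare the two Riemann theorems on a large multiple of the pencil);
* `hexcl_of_nodal` : the discs of the two components are disjoint;
* `chartSupply_nodal` : the chart supply, for every `n` with `(n : ℤ) ≤ g`; the exceptional set is
  the support of the reduced pencil divisors `C₁`, `C₂` (chart points over all other smooth points:
  `GS/Nodal/ChartPt2.lean`).
-/
import Mathlib
import Fermat.Agent.GS.Frame.Glue.Supply
import Fermat.Agent.GS.Nodal.ChartPt2
import Fermat.Agent.GS.Nodal.GluedRR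

set_option autoImplicit false
set_option linter.unusedSectionVars false

noncomputable section

open AlgebraicCurve

namespace Fermat.Agent.GS.Nodal.Supply2

open Fermat.Agent.RRh45 Fermat.Agent.RR Fermat.Agent.GJ.S37MinDiv Fermat.Agent.GJ.J1
open Fermat.Agent.GK.MultiVal Fermat.Agent.GH
open Fermat.Agent.GS.Frame Fermat.Agent.GS.Frame.Local Fermat.Agent.GS.Frame.Glue
open Fermat.Agent.GS.Nod Fermat.Agent.GS.Nodal.ROfSurj2 Fermat.Agent.GS.Nodal.LSR2
open Fermat.Agent.GS.Nodal.FibreHyp2 Fermat.Agent.GS.Nodal.ChartPt2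

open scoped Classical

/-! ### the supply with a finite exceptional set -/

section Generic

variable {K F k Sp 𝒬 : Type*} [Field K] [Field F] [Algebra K F] [Field k]
  [CommRing Sp] [Algebra k Sp]
variable {Φ : DiscData K F k Sp 𝒬} {n : ℕ}

/-- `ChartSupply` from chart points over every special point OFF A FINITE SET + non-special
families off any finite set. -/
theorem chartSupply_of_points_off (S₀ : Finset 𝒬) (hpt : ∀ Q : 𝒬, Q ∉ S₀ → Nonempty (CPt Φ Q))
    (hfam : ∀ S : Finset 𝒬, ∃ Qf : Fin n → 𝒬, Function.Injective Qf ∧ (∀ i, Qf i ∉ S) ∧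
      Φ.NS (Set.range Qf)) : ChartSupply Φ n := by
  intro S
  obtain ⟨Qf, hinj, hS, hns⟩ := hfam (S ∪ S₀)
  exact ⟨⟨Qf, hinj, fun i => (hpt (Qf i) fun h => hS i (Finset.mem_union_right _ h)).some, hns⟩,
    fun i h => hS i (Finset.mem_union_left _ h)⟩

end Generic

section Glue

variable {K F k Ft1 Ft2 : Type*} [Field K] [Field F] [Algebra K F] [Field k]
  [Field Ft1] [Algebra k Ft1] [Field Ft2] [Algebra k Ft2]
variable {R1 : RedData K F k Ft1} {R2 : RedData K F k Ft2}
variable {Φ1 : FibreHyp R1} {Φ2 : FibreHyp R2}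
variable {ι : Type*} [Fintype ι] {P : ι → Place k Ft1} {Q : ι → Place k Ft2}
variable [FiniteResidues k Ft1] [HasPrincipalDivisors k Ft1] [Nonempty (Place k Ft1)]
variable [FiniteResidues k Ft2] [HasPrincipalDivisors k Ft2] [Nonempty (Place k Ft2)]

/-- **[ChartSupply²]** with chart points off a finite set of special points only. -/
theorem chartSupply_glue_off [Nonempty ι] [Infinite (Place k Ft1)] [Infinite (Place k Ft2)]
    (hc : RedCompat R1 R2) (hB2 : Φ2.B = Φ1.B)
    (hexcl : ∀ (X : Place K F) (q : Place k Ft1) (q' : Place k Ft2),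
      Φ1.rOf X = some q → Φ2.rOf X ≠ some q') (g : ℤ)
    (hP : Function.Injective P) (hQ : Function.Injective Q)
    (hdeg₁ : ∀ v : Place k Ft1, v.deg = 1) (hdeg₂ : ∀ w : Place k Ft2, w.deg = 1)
    (B₁ : Finset (Place k Ft1)) (hgood₁ : ∀ q : Place k Ft1, q ∉ B₁ → q ∈ Φ1.good)
    (B₂ : Finset (Place k Ft2)) (hgood₂ : ∀ q : Place k Ft2, q ∉ B₂ → q ∈ Φ2.good)
    (S₀ : Finset (SpPt Φ1 Φ2))
    (hpt : ∀ s : SpPt Φ1 Φ2, s ∉ S₀ → Nonempty (CPt (glueData hc Φ1 Φ2 hB2 hexcl P Q g) s))
    (n : ℕ) (hn : (n : ℤ) ≤ gluedGenus k Ft1 Ft2 ι) :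
    ChartSupply (glueData hc Φ1 Φ2 hB2 hexcl P Q g) n :=
  chartSupply_of_points_off S₀ hpt fun S =>
    exists_nsFamily (Φ1 := Φ1) (Φ2 := Φ2) hP hQ hdeg₁ hdeg₂ B₁ hgood₁ B₂ hgood₂ n hn S

end Glue

/-! ### the nodal frame -/

section Nodal

variable {K F k Ft1 Ft2 : Type*} [Field K] [Field F] [Algebra K F] [Field k]
  [Field Ft1] [Algebra k Ft1] [Field Ft2] [Algebra k Ft2]
variable {R1 : RedData K F k Ft1} {R2 : RedData K F k Ft2} {hc : RedCompat R1 R2}
variable {ι : Type*} {P : ι → Place k Ft1} {Q : ι → Place k Ft2}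
variable {C : Divisor K F} {C₁ : Divisor k Ft1} {C₂ : Divisor k Ft2} {g c : ℤ} {n₀ : ℕ}
variable [FiniteResidues K F] [HasPrincipalDivisors K F] [Nonempty (Place K F)]
variable [FiniteResidues k Ft1] [HasPrincipalDivisors k Ft1] [Nonempty (Place k Ft1)]
variable [FiniteResidues k Ft2] [HasPrincipalDivisors k Ft2] [Nonempty (Place k Ft2)]

/-- **the genus of `NodalHyp` is the arithmetic genus of the glued curve**. -/
theorem gluedGenus_eq_of_nodal [Fintype ι] (H : NodalHyp hc P Q C C₁ C₂ g c n₀)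
    (hP : Function.Injective P) (hQ : Function.Injective Q) :
    gluedGenus k Ft1 Ft2 ι = g := by
  obtain ⟨c', hc'⟩ := riemann_gluedSpace (P := P) (Q := Q) hP hQ (fun j => H.degFt1 (P j))
    (fun j => H.degFt2 (Q j))
  obtain ⟨N, hN, hN1, hN2⟩ := H.exists_large (max c (c' : ℤ))
  have hn1 : ∀ j, (N • C₁) (P j) = 0 := fun j => by
    rw [nsmul_div_apply, H.C₁_node j, mul_zero]
  have hn2 : ∀ j, (N • C₂) (Q j) = 0 := fun j => by
    rw [nsmul_div_apply, H.C₂_node j, mul_zero]
  have hd1 : Divisor.degree (N • C₁) = N * Divisor.degree C₁ := degree_nsmul' N C₁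
  have hd2 : Divisor.degree (N • C₂) = N * Divisor.degree C₂ := degree_nsmul' N C₂
  have e1 := H.nr_dim (N • C₁) (N • C₂) hn1 hn2
    (by rw [hd1]; exact le_trans (le_max_left _ _) hN1)
    (by rw [hd2]; exact le_trans (le_max_left _ _) hN2)
  have e2 := hc' (N • C₁) (N • C₂) hn1 hn2
    (by rw [hd1]; exact le_trans (le_max_right _ _) hN1)
    (by rw [hd2]; exact le_trans (le_max_right _ _) hN2)
  rw [Fermat.Agent.GS.Nodal.GluedRR.glued_eq_gluedSpace, e2] at e1
  linarith

/-- the discs of the two components of the nodal frame are disjoint. -/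
theorem hexcl_of_nodal (H : NodalHyp hc P Q C C₁ C₂ g c n₀) {S1 : Set (Place k Ft1)}
    {S2 : Set (Place k Ft2)} (hFF : FF2 R1 R2 (disc1 H) (disc2 H) S1 S2)
    (X : Place K F) (q : Place k Ft1) (q' : Place k Ft2)
    (h1 : (fibreHyp1_of_nodal H hFF).rOf X = some q) :
    (fibreHyp2_of_nodal H hFF).rOf X ≠ some q' := by
  intro h2
  exact disc1_disc2_disjoint ((fibreHyp1_rOf_eq_some_iff _ X q).mp h1)
    ((fibreHyp2_rOf_eq_some_iff _ X q').mp h2)

/-- **[ChartSupply²] for the nodal frame**: no chart-point binder left. `S_i` = the smooth points of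
the `i`-th component (cofinite, off the nodes); `g'` = the genus field of the frame (free). -/
theorem chartSupply_nodal [Fintype ι] [Nonempty ι] [Infinite (Place k Ft1)]
    [Infinite (Place k Ft2)] (H : NodalHyp hc P Q C C₁ C₂ g c n₀) {S1 : Set (Place k Ft1)}
    {S2 : Set (Place k Ft2)} (hFF : FF2 R1 R2 (disc1 H) (disc2 H) S1 S2)
    (hP : Function.Injective P) (hQ : Function.Injective Q)
    (hS1 : ∀ q ∈ S1, ∀ j, q ≠ P j) (hS2 : ∀ q ∈ S2, ∀ j, q ≠ Q j)
    (B₁ : Finset (Place k Ft1)) (hgood₁ : ∀ q : Place k Ft1, q ∉ B₁ → q ∈ S1)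
    (B₂ : Finset (Place k Ft2)) (hgood₂ : ∀ q : Place k Ft2, q ∉ B₂ → q ∈ S2)
    (hexcl : ∀ (X : Place K F) (q : Place k Ft1) (q' : Place k Ft2),
      (fibreHyp1_of_nodal H hFF).rOf X = some q → (fibreHyp2_of_nodal H hFF).rOf X ≠ some q')
    (g' : ℤ) (n : ℕ) (hn : (n : ℤ) ≤ g) :
    ChartSupply (glueData hc (fibreHyp1_of_nodal H hFF) (fibreHyp2_of_nodal H hFF) rfl hexcl
      P Q g') n := by
  refine chartSupply_glue_off hc rfl hexcl g' hP hQ H.degFt1 H.degFt2 B₁ hgood₁ B₂ hgood₂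
    (ofFinsets (fibreHyp1_of_nodal H hFF) (fibreHyp2_of_nodal H hFF) C₁.support C₂.support)
    ?_ n (by rw [gluedGenus_eq_of_nodal H hP hQ]; exact hn)
  rintro (q | q) hs
  · rw [inl_mem_ofFinsets, Finsupp.mem_support_iff, not_not] at hs
    obtain ⟨pt⟩ := chartPt1_of_nodal H hFF q.2 (hS1 q.1 q.2) hs
    exact ⟨cptOfLocal₁ hc rfl hexcl P Q g' pt⟩
  · rw [inr_mem_ofFinsets, Finsupp.mem_support_iff, not_not] at hs
    obtain ⟨pt⟩ := chartPt2_of_nodal H hFF q.2 (hS2 q.1 q.2) hs
    exact ⟨cptOfLocal₂ hc rfl hexcl P Q g' pt⟩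

end Nodal

end Fermat.Agent.GS.Nodal.Supply2
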