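/-
GATE-S (S33) / the PINNED abstract nodal node (helper87; helper60 5385): smooth points :=
non-node places OFF the support of the reduced pencil divisors,

  `S1 P C₁ := {q | (∀ j, q ≠ P j) ∧ C₁ q = 0}`,  `S2 Q C₂ := {q | (∀ j, q ≠ Q j) ∧ C₂ q = 0}`,

so that EVERY smooth special point carries a chart point (`GS/Nodal/ChartPt2.lean`) and the fibre
formula is helper26's binder-free `Fib.ff2` (monotone in `S_i`).  For `H : NodalHyp …`:

* `ff2_pin H`        : `FF2 R1 R2 (disc1 H) (disc2 H) (S1 P C₁) (S2 Q C₂)`;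
* `pinData H`        : the disc frame `nodalData H (ff2_pin H)` (helper16 `DiscFacts2`);
* `hpt_pin H`        : one chart point over EVERY special point of `pinData H`;
* `B1`, `B2`         : the finite exceptional sets (nodes ∪ supp C_i);
* `chartSupply_pin`  : `ChartSupply (pinData H) n` for `(n : ℤ) = g` — no binder but `hP hQ`;
* `pin_target`       : `DiscFacts ∧ ChartSupply ∧ AddSpec ∧ CoordUnique ∧ CoordSmall ∧ CoordInj`
                       for `pinData H`, the ONLY binder being the archimedean property `harch`.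
-/
import Mathlib
import Fermat.Agent.GS.Nodal.Supply2
import Fermat.Agent.GS.Nodal.DiscFacts2
import Fermat.Agent.GS.Fib.FF2

set_option autoImplicit false
set_option linter.unusedSectionVars false

noncomputable section

open AlgebraicCurve

namespace Fermat.Agent.GS.Nodal.SupplyPin

open Fermat.Agent.RRh45 Fermat.Agent.GJ.S37MinDiv Fermat.Agent.GJ.J1 Fermat.Agent.GK.MultiVal
open Fermat.Agent.GS.Frame Fermat.Agent.GS.Frame.Local Fermat.Agent.GS.Frame.Glue
open Fermat.Agent.GS.Nodal.ROfSurj2 Fermat.Agent.GS.Nodal.LSR2 Fermat.Agent.GS.Nodal.FibreHyp2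
open Fermat.Agent.GS.Nodal.ChartPt2 Fermat.Agent.GS.Nodal.Supply2
open Fermat.Agent.GS.Nodal.DiscFacts2

open scoped Classical

variable {K F k Ft1 Ft2 : Type*} [Field K] [Field F] [Algebra K F] [Field k]
  [Field Ft1] [Algebra k Ft1] [Field Ft2] [Algebra k Ft2]
variable {R1 : RedData K F k Ft1} {R2 : RedData K F k Ft2} {hc : RedCompat R1 R2}
variable {ι : Type*} {P : ι → Place k Ft1} {Q : ι → Place k Ft2}
variable {C : Divisor K F} {C₁ : Divisor k Ft1} {C₂ : Divisor k Ft2} {g c : ℤ} {n₀ : ℕ}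
variable [FiniteResidues K F] [HasPrincipalDivisors K F] [Nonempty (Place K F)]
variable [FiniteResidues k Ft1] [HasPrincipalDivisors k Ft1] [Nonempty (Place k Ft1)]
variable [FiniteResidues k Ft2] [HasPrincipalDivisors k Ft2] [Nonempty (Place k Ft2)]

/-- the smooth points of the first component: non-node places off `supp C₁`. -/
def S1 (P : ι → Place k Ft1) (C₁ : Divisor k Ft1) : Set (Place k Ft1) :=
  {q | (∀ j, q ≠ P j) ∧ C₁ q = 0}

/-- the smooth points of the second component: non-node places off `supp C₂`. -/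
def S2 (Q : ι → Place k Ft2) (C₂ : Divisor k Ft2) : Set (Place k Ft2) :=
  {q | (∀ j, q ≠ Q j) ∧ C₂ q = 0}

/-- the fibre formula on the pinned smooth points (helper26 `Fib.ff2`, monotone in `S_i`). -/
theorem ff2_pin (H : NodalHyp hc P Q C C₁ C₂ g c n₀) :
    FF2 R1 R2 (disc1 H) (disc2 H) (S1 P C₁) (S2 Q C₂) := by
  intro y h1 h2 hy1 hy2 Dy hDy
  have h := Fermat.Agent.GS.Fib.ff2 H y h1 h2 hy1 hy2 Dy hDy
  exact ⟨fun Q' hQ' => h.1 Q' hQ'.1, fun Q' hQ' => h.2 Q' hQ'.1⟩

variable [Infinite k]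

/-- **the pinned disc frame of the abstract nodal frame**. -/
abbrev pinData (H : NodalHyp hc P Q C C₁ C₂ g c n₀) :=
  nodalData H (ff2_pin H)

/-- **one chart point over every special point** of the pinned frame. -/
theorem hpt_pin (H : NodalHyp hc P Q C C₁ C₂ g c n₀) :
    ∀ s : SpPt (fibreHyp1_of_nodal H (ff2_pin H)) (fibreHyp2_of_nodal H (ff2_pin H)),
      Nonempty (CPt (pinData H) s) := by
  rintro (q | q)
  · obtain ⟨pt⟩ := chartPt1_of_nodal H (ff2_pin H) q.2 q.2.1 q.2.2
    exact ⟨cptOfLocal₁ hc rfl _ P Q g pt⟩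
  · obtain ⟨pt⟩ := chartPt2_of_nodal H (ff2_pin H) q.2 q.2.1 q.2.2
    exact ⟨cptOfLocal₂ hc rfl _ P Q g pt⟩

/-- the finite exceptional set of the first component: nodes and `supp C₁`. -/
def B1 [Fintype ι] (P : ι → Place k Ft1) (C₁ : Divisor k Ft1) : Finset (Place k Ft1) :=
  Finset.univ.image P ∪ C₁.support

/-- the finite exceptional set of the second component: nodes and `supp C₂`. -/
def B2 [Fintype ι] (Q : ι → Place k Ft2) (C₂ : Divisor k Ft2) : Finset (Place k Ft2) :=
  Finset.univ.image Q ∪ C₂.support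

theorem mem_S1_of_notMem_B1 [Fintype ι] {q : Place k Ft1} (hq : q ∉ B1 P C₁) : q ∈ S1 P C₁ := by
  rw [B1, Finset.mem_union, not_or] at hq
  refine ⟨fun j hj => hq.1 ?_, ?_⟩
  · rw [hj]; exact Finset.mem_image_of_mem P (Finset.mem_univ j)
  · by_contra hne
    exact hq.2 (Finsupp.mem_support_iff.mpr hne)

theorem mem_S2_of_notMem_B2 [Fintype ι] {q : Place k Ft2} (hq : q ∉ B2 Q C₂) : q ∈ S2 Q C₂ := by
  rw [B2, Finset.mem_union, not_or] at hq
  refine ⟨fun j hj => hq.1 ?_, ?_⟩
  · rw [hj]; exact Finset.mem_image_of_mem Q (Finset.mem_univ j)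
  · by_contra hne
    exact hq.2 (Finsupp.mem_support_iff.mpr hne)

/-- **the chart supply of the pinned nodal frame** — no binder but the injectivity of the node
branches. -/
theorem chartSupply_pin [Fintype ι] [Nonempty ι] [Infinite (Place k Ft1)]
    [Infinite (Place k Ft2)] (H : NodalHyp hc P Q C C₁ C₂ g c n₀)
    (hP : Function.Injective P) (hQ : Function.Injective Q) (n : ℕ) (hn : (n : ℤ) = g) :
    ChartSupply (pinData H) n :=
  chartSupply_nodal H (ff2_pin H) hP hQ (fun _ hq => hq.1) (fun _ hq => hq.1)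
    (B1 P C₁) (fun _ hq => mem_S1_of_notMem_B1 hq) (B2 Q C₂) (fun _ hq => mem_S2_of_notMem_B2 hq)
    _ g n hn.le

/-- **the pinned nodal node**: the ten facts, the chart supply and the four FRAME² contracts of the
pinned disc frame, from `NodalHyp` and the archimedean property of the base valuation ALONE. -/
theorem pin_target [Fintype ι] [Nonempty ι] [Infinite (Place k Ft1)] [Infinite (Place k Ft2)]
    (H : NodalHyp hc P Q C C₁ C₂ g c n₀) (hP : Function.Injective P) (hQ : Function.Injective Q)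
    (harch : ∀ x y : K, R1.A.valuation x < 1 → y ≠ 0 →
      ∃ m : ℕ, R1.A.valuation x ^ m ≤ R1.A.valuation y)
    (n : ℕ) (hn : (n : ℤ) = g) :
    DiscFacts (pinData H) ∧ ChartSupply (pinData H) n ∧ AddSpec (pinData H) n ∧
      CoordUnique (pinData H) n ∧ CoordSmall (pinData H) n ∧ CoordInj (pinData H) n := by
  have hΦ : DiscFacts (pinData H) := discFacts_nodal H (ff2_pin H)
  have hS := chartSupply_pin H hP hQ n hn
  exact ⟨hΦ, hS, contracts_nodal H (ff2_pin H) hn harch hS⟩

end Fermat.Agent.GS.Nodal.SupplyPin
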