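/-
GATE-S (S33) / seam INST² → [KER] (helper16; request of helper71 5322 / helper60 5323): (L5) WITH
MULTIPLICITIES, as corollaries of `L5.redSpace2_le_glued_push`.

* `mem_glued_of_mem_L` : the element form of `redSpace2_le_glued_push`, for ANY effective `Z`
  supported on good places;
* `l5_mult`      : `redSpace (glueData …) (m • Σ X_j) ≤ gluedSpace P Q (m • Σ comp1) (m • Σ comp2)`;
* `l5_mult_mem`  : the same in element form, target `LSR2.glued`;
* `l5_chart`     : for a chart `𝔠` of the glued frame and `x ∈ L(m • 𝔠.D0) ∩ Rw₁ ∩ Rw₂` the pair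
  reduction lies in `glued P Q (m • Σ comp1 (𝔠.Q i)) (m • Σ comp2 (𝔠.Q i))` — the second conjunct of
  the binder `hchart` of `GS/Loc2/KerStar.coordExists_of_glued`.
-/
import Mathlib
import Fermat.Agent.GS.Nodal.L5

set_option autoImplicit false
set_option linter.unusedSectionVars false

noncomputable section

open AlgebraicCurve

namespace Fermat.Agent.GS.Nodal.L5

open Fermat.Agent.RRh45 Fermat.Agent.GJ.S37MinDiv Fermat.Agent.GJ.J1 Fermat.Agent.GK.MultiVal
open Fermat.Agent.GK.NodalGraded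
open Fermat.Agent.GS.Nodal.LSR2 Fermat.Agent.GS.Nodal.FibreHyp2 Fermat.Agent.GS.Nodal.ROfSurj2
open Fermat.Agent.GS.Frame Fermat.Agent.GS.Frame.Glue Fermat.Agent.GS.Nod

variable {K F k Ft1 Ft2 : Type*} [Field K] [Field F] [Algebra K F] [Field k]
  [Field Ft1] [Algebra k Ft1] [Field Ft2] [Algebra k Ft2]
variable {R1 : RedData K F k Ft1} {R2 : RedData K F k Ft2} {hc : RedCompat R1 R2}
variable {ι : Type*} {P : ι → Place k Ft1} {Q : ι → Place k Ft2}
variable {C : Divisor K F} {C₁ : Divisor k Ft1} {C₂ : Divisor k Ft2} {g c : ℤ} {n₀ : ℕ}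
variable [FiniteResidues K F] [HasPrincipalDivisors K F] [Nonempty (Place K F)]
variable [FiniteResidues k Ft1] [HasPrincipalDivisors k Ft1] [Nonempty (Place k Ft1)]
variable [FiniteResidues k Ft2] [HasPrincipalDivisors k Ft2] [Nonempty (Place k Ft2)]
variable [Infinite k] [Finite ι]

/-- element form of `redSpace2_le_glued_push`. -/
theorem mem_glued_of_mem_L (H : NodalHyp hc P Q C C₁ C₂ g c n₀) {Z : Divisor K F} (hZ : 0 ≤ Z)
    (hgood : ∀ v ∈ Z.support, GoodPlace H v) {x : F} (h1 : x ∈ R1.Rw) (h2 : x ∈ R2.Rw)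
    (hx : x ∈ riemannRochSpace Z) :
    (R1.red ⟨x, h1⟩, R2.red ⟨x, h2⟩) ∈ glued P Q (push1 H Z) (push2 H Z) :=
  redSpace2_le_glued_push H hZ hgood ⟨x, h1, h2, hx, rfl, rfl⟩

variable {S1 : Set (Place k Ft1)} {S2 : Set (Place k Ft2)}
variable (H : NodalHyp hc P Q C C₁ C₂ g c n₀) (hFF : FF2 R1 R2 (disc1 H) (disc2 H) S1 S2)

section Mult

variable {J : Type*} [Fintype J]
  (Qf : J → SpPt (fibreHyp1_of_nodal H hFF) (fibreHyp2_of_nodal H hFF)) (X : J → Place K F)
  (hX : ∀ j, X j ∈ discOf (fibreHyp1_of_nodal H hFF) (fibreHyp2_of_nodal H hFF) (Qf j)) (m : ℕ)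

theorem mult_nonneg : (0 : Divisor K F) ≤ (m : ℤ) • ∑ j, Finsupp.single (X j) (1 : ℤ) :=
  smul_nonneg (Int.natCast_nonneg m)
    (Finset.sum_nonneg fun _ _ => Finsupp.single_nonneg.mpr zero_le_one)

include hX in
theorem mult_good :
    ∀ v ∈ ((m : ℤ) • ∑ j, Finsupp.single (X j) (1 : ℤ) : Divisor K F).support,
      GoodPlace H v := by
  classical
  intro v hv
  have h0 := Finsupp.support_smul hv
  have h1 := Finsupp.support_finsetSum h0
  rw [Finset.mem_biUnion] at h1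
  obtain ⟨j, -, hj⟩ := h1
  have h2 := Finsupp.support_single_subset hj
  rw [Finset.mem_singleton] at h2
  rw [h2]
  exact goodPlace_of_discOf H hFF (hX j)

include hX in
theorem push1_mult :
    push1 H ((m : ℤ) • ∑ j, Finsupp.single (X j) (1 : ℤ)) = (m : ℤ) • ∑ j, comp1 (Qf j) := by
  rw [map_zsmul, push1_sum_single H hFF Qf X hX]

include hX in
theorem push2_mult :
    push2 H ((m : ℤ) • ∑ j, Finsupp.single (X j) (1 : ℤ)) = (m : ℤ) • ∑ j, comp2 (Qf j) := by
  rw [map_zsmul, push2_sum_single H hFF Qf X hX]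

include hX in
/-- **(L5) with multiplicities**, element form. -/
theorem l5_mult_mem {x : F} (h1 : x ∈ R1.Rw) (h2 : x ∈ R2.Rw)
    (hx : x ∈ riemannRochSpace ((m : ℤ) • ∑ j, Finsupp.single (X j) (1 : ℤ))) :
    (R1.red ⟨x, h1⟩, R2.red ⟨x, h2⟩) ∈
      glued P Q ((m : ℤ) • ∑ j, comp1 (Qf j)) ((m : ℤ) • ∑ j, comp2 (Qf j)) := by
  have h := mem_glued_of_mem_L H (mult_nonneg X m) (mult_good H hFF Qf X hX m) h1 h2 hx
  rwa [push1_mult H hFF Qf X hX m, push2_mult H hFF Qf X hX m] at h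

include hX in
/-- **(L5) with multiplicities**, in the vocabulary of the glue. -/
theorem l5_mult
    (hexcl : ∀ (X : Place K F) (q : Place k Ft1) (q' : Place k Ft2),
      (fibreHyp1_of_nodal H hFF).rOf X = some q → (fibreHyp2_of_nodal H hFF).rOf X ≠ some q')
    (g' : ℤ) :
    redSpace (glueData hc (fibreHyp1_of_nodal H hFF) (fibreHyp2_of_nodal H hFF) rfl hexcl P Q g')
        ((m : ℤ) • ∑ j, Finsupp.single (X j) (1 : ℤ)) ≤
      gluedSpace P Q ((m : ℤ) • ∑ j, comp1 (Qf j)) ((m : ℤ) • ∑ j, comp2 (Qf j)) := by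
  refine (redSpace_glueData_le H hFF hexcl g' _).trans ?_
  have h := redSpace2_le_glued_push H (mult_nonneg X m) (mult_good H hFF Qf X hX m)
  rw [push1_mult H hFF Qf X hX m, push2_mult H hFF Qf X hX m] at h
  rw [gluedSpace_eq_glued]
  exact h

end Mult

/-- **(L5) on a chart, with multiplicities**: the second conjunct of the binder `hchart` of
`GS/Loc2/KerStar.coordExists_of_glued`, with `E_i := Σ_i comp_i (𝔠.Q i)`. -/
theorem l5_chart
    (hexcl : ∀ (X : Place K F) (q : Place k Ft1) (q' : Place k Ft2),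
      (fibreHyp1_of_nodal H hFF).rOf X = some q → (fibreHyp2_of_nodal H hFF).rOf X ≠ some q')
    (g' : ℤ) {n : ℕ}
    (𝔠 : Chart (glueData hc (fibreHyp1_of_nodal H hFF) (fibreHyp2_of_nodal H hFF) rfl hexcl
      P Q g') n) (m : ℕ) (x : F) (h1 : x ∈ R1.Rw) (h2 : x ∈ R2.Rw)
    (hx : x ∈ riemannRochSpace ((m : ℤ) • 𝔠.D0)) :
    (R1.red ⟨x, h1⟩, R2.red ⟨x, h2⟩) ∈
      glued P Q ((m : ℤ) • ∑ i, comp1 (𝔠.Q i)) ((m : ℤ) • ∑ i, comp2 (𝔠.Q i)) :=
  l5_mult_mem H hFF 𝔠.Q (fun i => (𝔠.pt i).P) (fun i => (𝔠.pt i).hP) m h1 h2 hx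

end Fermat.Agent.GS.Nodal.L5
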