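/-
GATE-S (S33) / NODAL FRAME, the ABSTRACT ASSEMBLY (helper92, FRAME² graph keeper): from helper16's
`NodalHyp` and the fibre formula `FF2` to the abstract disc frame with ALL its facts and the four
FRAME² contracts.

* `nodalData H hFF`    : the disc frame `glueData hc (fibreHyp1_of_nodal H hFF)
                         (fibreHyp2_of_nodal H hFF) rfl (hexcl_of_nodal H hFF) P Q g`;
* `glueHyp_nodal`      : `GlueHyp …` (helper90 `glueHyp_of_nodalHyp` + helper16 `l5_field`);
* `discFacts_nodal`    : `DiscFacts (nodalData H hFF)` (helper34 `discFacts_glue_of_F7` + helper37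
                         `const_of_small_glue` + helper99 `localFacts` on both components);
* `genus_eq_nodal`     : `g = gluedGenus k Ft1 Ft2 ι` (the Riemann count of `NodalHyp` against
                         helper34's `riemann_gluedSpace`, on the pencil divisors `n • C_i`);
* `chartSupply_nodal`  : `ChartSupply (nodalData H hFF) n` for `(n : ℤ) = g` (helper87
                         `chartSupply_glue`), the chart points being a binder `hpt`;
* `nodal_target`       : `DiscFacts ∧ ChartSupply ∧ AddSpec ∧ CoordUnique ∧ CoordSmall ∧ CoordInj`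
                         (helper33 `frame_target`).
-/
import Mathlib
import Fermat.Agent.GS.Nodal.L5
import Fermat.Agent.GS.Nodal.GluedRR
import Fermat.Agent.GS.Frame.Glue.Ball2
import Fermat.Agent.GS.Frame.Glue.Facts
import Fermat.Agent.GS.Frame.Glue.F7
import Fermat.Agent.GS.Frame.Glue.Supply
import Fermat.Agent.GS.Frame.Loc.Facts
import Fermat.Agent.GS.Frame.Gen.Main

set_option autoImplicit false
set_option linter.unusedSectionVars false

noncomputable section

open AlgebraicCurve

namespace Fermat.Agent.GS.Nodal.Node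

open Fermat.Agent.RRh45 Fermat.Agent.GJ.S37MinDiv Fermat.Agent.GJ.J1 Fermat.Agent.GK.MultiVal
open Fermat.Agent.GK.NodalGraded
open Fermat.Agent.GS.Nodal.LSR2 Fermat.Agent.GS.Nodal.FibreHyp2 Fermat.Agent.GS.Nodal.ROfSurj2
open Fermat.Agent.GS.Nodal.L5
open Fermat.Agent.GS.Frame Fermat.Agent.GS.Frame.Glue Fermat.Agent.GS.Frame.Local
open Fermat.Agent.GS.Nod

variable {K F k Ft1 Ft2 : Type*} [Field K] [Field F] [Algebra K F] [Field k]
  [Field Ft1] [Algebra k Ft1] [Field Ft2] [Algebra k Ft2]
variable {R1 : RedData K F k Ft1} {R2 : RedData K F k Ft2} {hc : RedCompat R1 R2}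
variable {ι : Type*} {P : ι → Place k Ft1} {Q : ι → Place k Ft2}
variable {C : Divisor K F} {C₁ : Divisor k Ft1} {C₂ : Divisor k Ft2} {g c : ℤ} {n₀ : ℕ}
variable [FiniteResidues K F] [HasPrincipalDivisors K F] [Nonempty (Place K F)]
variable [FiniteResidues k Ft1] [HasPrincipalDivisors k Ft1] [Nonempty (Place k Ft1)]
variable [FiniteResidues k Ft2] [HasPrincipalDivisors k Ft2] [Nonempty (Place k Ft2)]
variable {S1 : Set (Place k Ft1)} {S2 : Set (Place k Ft2)}

/-- **The genus of `NodalHyp` is the arithmetic genus of the glued curve.** -/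
theorem genus_eq_nodal [Fintype ι] (H : NodalHyp hc P Q C C₁ C₂ g c n₀)
    (hP : Function.Injective P) (hQ : Function.Injective Q) :
    g = gluedGenus k Ft1 Ft2 ι := by
  obtain ⟨c₁, hc₁⟩ := riemann_gluedSpace hP hQ (fun j => H.degFt1 (P j)) (fun j => H.degFt2 (Q j))
  obtain ⟨N, hN, hN1, hN2⟩ := H.exists_large (max c (c₁ : ℤ))
  have hnode1 : ∀ j, (N • C₁) (P j) = 0 := fun j => by
    rw [nsmul_div_apply, H.C₁_node j, mul_zero]
  have hnode2 : ∀ j, (N • C₂) (Q j) = 0 := fun j => by
    rw [nsmul_div_apply, H.C₂_node j, mul_zero]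
  have hd1 : Divisor.degree (N • C₁) = N * Divisor.degree C₁ := degree_nsmul' N C₁
  have hd2 : Divisor.degree (N • C₂) = N * Divisor.degree C₂ := degree_nsmul' N C₂
  have e1 := H.nr_dim (N • C₁) (N • C₂) hnode1 hnode2
    (by rw [hd1]; exact le_trans (le_max_left _ _) hN1)
    (by rw [hd2]; exact le_trans (le_max_left _ _) hN2)
  have e2 := hc₁ (N • C₁) (N • C₂) hnode1 hnode2
    (by rw [hd1]; exact le_trans (le_max_right _ _) hN1)
    (by rw [hd2]; exact le_trans (le_max_right _ _) hN2)
  rw [GluedRR.glued_eq_gluedSpace] at e1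
  linarith

variable [Infinite k]

/-- **The disc frame of the nodal `L`-space construction.** -/
def nodalData (H : NodalHyp hc P Q C C₁ C₂ g c n₀) (hFF : FF2 R1 R2 (disc1 H) (disc2 H) S1 S2) :
    DiscData K F k (Ft1 × Ft2) (SpPt (fibreHyp1_of_nodal H hFF) (fibreHyp2_of_nodal H hFF)) :=
  glueData hc (fibreHyp1_of_nodal H hFF) (fibreHyp2_of_nodal H hFF) rfl (hexcl_of_nodal H hFF)
    P Q g

variable (H : NodalHyp hc P Q C C₁ C₂ g c n₀) (hFF : FF2 R1 R2 (disc1 H) (disc2 H) S1 S2)

@[simp] theorem nodalData_A : (nodalData H hFF).A = R1.A := rfl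

@[simp] theorem nodalData_g : (nodalData H hFF).g = g := rfl

@[simp] theorem nodalData_B : ((nodalData H hFF).B : Set F) = (ball2 R1 R2 : Set F) := rfl

/-- the hypotheses of the glueing hold on the nodal frame. -/
theorem glueHyp_nodal [Finite ι] :
    GlueHyp hc (fibreHyp1_of_nodal H hFF) (fibreHyp2_of_nodal H hFF) rfl (hexcl_of_nodal H hFF)
      P Q g :=
  Ball2.glueHyp_of_nodalHyp hc (fibreHyp1_of_nodal H hFF) (fibreHyp2_of_nodal H hFF) rfl
    (hexcl_of_nodal H hFF) P Q g H rfl rfl rfl (l5_field H hFF (hexcl_of_nodal H hFF) g)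

/-- **The ten facts of the nodal disc frame.** -/
theorem discFacts_nodal [Finite ι] : DiscFacts (nodalData H hFF) :=
  discFacts_glue_of_F7 (glueHyp_nodal H hFF) (localFacts _) (localFacts _)
    (const_of_small_glue (glueHyp_nodal H hFF) (localFacts _) (localFacts _))

/-- **The chart supply of the nodal disc frame**, the chart points being a binder. -/
theorem chartSupply_nodal [Fintype ι] [Nonempty ι] [Infinite (Place k Ft1)]
    [Infinite (Place k Ft2)] (hP : Function.Injective P) (hQ : Function.Injective Q)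
    (B₁ : Finset (Place k Ft1)) (hgood₁ : ∀ q : Place k Ft1, q ∉ B₁ → q ∈ S1)
    (B₂ : Finset (Place k Ft2)) (hgood₂ : ∀ q : Place k Ft2, q ∉ B₂ → q ∈ S2)
    (hpt : ∀ s : SpPt (fibreHyp1_of_nodal H hFF) (fibreHyp2_of_nodal H hFF),
      Nonempty (CPt (nodalData H hFF) s))
    (n : ℕ) (hn : (n : ℤ) = g) : ChartSupply (nodalData H hFF) n :=
  chartSupply_glue hc rfl (hexcl_of_nodal H hFF) g hP hQ H.degFt1 H.degFt2 B₁ hgood₁ B₂ hgood₂
    hpt n (by rw [hn, genus_eq_nodal H hP hQ])

/-- **The nodal node, abstract form**: the facts of the nodal disc frame, its chart supply and the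
four FRAME² contracts, from `NodalHyp`, the fibre formula, the chart points and the archimedean
property of the valuation. -/
theorem nodal_target [Fintype ι] [Nonempty ι] [Infinite (Place k Ft1)]
    [Infinite (Place k Ft2)] (hP : Function.Injective P) (hQ : Function.Injective Q)
    (B₁ : Finset (Place k Ft1)) (hgood₁ : ∀ q : Place k Ft1, q ∉ B₁ → q ∈ S1)
    (B₂ : Finset (Place k Ft2)) (hgood₂ : ∀ q : Place k Ft2, q ∉ B₂ → q ∈ S2)
    (hpt : ∀ s : SpPt (fibreHyp1_of_nodal H hFF) (fibreHyp2_of_nodal H hFF),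
      Nonempty (CPt (nodalData H hFF) s))
    (harch : ∀ x y : K, R1.A.valuation x < 1 → y ≠ 0 →
      ∃ m : ℕ, R1.A.valuation x ^ m ≤ R1.A.valuation y)
    (n : ℕ) (hn : (n : ℤ) = g) :
    DiscFacts (nodalData H hFF) ∧ ChartSupply (nodalData H hFF) n ∧ AddSpec (nodalData H hFF) n ∧
      CoordUnique (nodalData H hFF) n ∧ CoordSmall (nodalData H hFF) n ∧
      CoordInj (nodalData H hFF) n := by
  have hΦ := discFacts_nodal H hFF
  have hS := chartSupply_nodal H hFF hP hQ B₁ hgood₁ B₂ hgood₂ hpt n hn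
  exact ⟨hΦ, hS, Asm.frame_target hΦ hn harch hS⟩

end Fermat.Agent.GS.Nodal.Node
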