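/-
GATE-S (S33) / node [INST²](a), part FF2 (helper75): the fibre formula for ALL common units of the
two Gauss valuations of the nodal frame.

`GS/Nodal/LSR2*.lean` (helper16) constructs, from the hypothesis package `NodalHyp`, the relation
`Red D E₁ E₂` ("the pair reduction of `L(D)` is the glued space of `(E₁, E₂)`"), the residue discs
`disc1 Q'`, `disc2 Q'` of the non-node places of the two components, and proves the fibre formula
for functions whose reductions are units at the nodes and whose poles are good.  This file removes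
both restrictions: for EVERY `y` that is a unit for both valuations (zeros and poles anywhere, also
at places whose centre is a node) and every place `Q'` of a component lying over a non-node value
of a chart,
  `ord_{Q'} (red_i y) = ∑_{v ∈ disc_i Q'} ord_v y`.

The file is in HYPOTHESIS FORM over two structures:
* `RedCalc`   : the part of the `Red` calculus that is used (`eq`, `exact1/2`, `of_good`, disjointness
  of the discs) for an abstract relation `RedP` and abstract discs `d1`, `d2`;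
* `NormFibre` : the fibre-sum identity for a chart (norm to `K(x)` + Gauss' lemma on the line) and the
  compatibility of the discs with the values of the chart.

Steps: (2) `ord_red_ge_dsum1/2` — the inequality `≥` for units with good poles, at every place;
(3) `ord_red_eq_dsum_of_good_poles` — equality over non-node values (the fibre sum is an equality, so
every inequality in the fibre is); (4) `ord_red_eq_sum_ball2` — arbitrary units: `y = y₁ / y₂` with
`y₁, y₂` units with poles on the pencil divisor.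
-/
import Mathlib
import Fermat.Agent.GS.Nodal.LSR2Defs

set_option autoImplicit false
set_option linter.unusedSectionVars false

noncomputable section

open AlgebraicCurve Classical

namespace Fermat.Agent.GS.Nodal.FF2

open Fermat.Agent.RRh45 Fermat.Agent.GJ.S37MinDiv Fermat.Agent.GJ.J1 Fermat.Agent.GK.MultiVal
open Fermat.Agent.GK.NodalGraded Fermat.Agent.GS.Nodal.LSR2

/-! ### sums of a finitely supported function over a set -/

section DSum

variable {α : Type*}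

/-- the sum of the values of `D` over the points of its support lying in `s`. -/
def dsum (D : α →₀ ℤ) (s : Set α) : ℤ := ∑ v ∈ D.support.filter (· ∈ s), D v

theorem dsum_eq_sum_of_subset (D : α →₀ ℤ) (s : Set α) {S : Finset α} (hS : D.support ⊆ S) :
    dsum D s = ∑ v ∈ S.filter (· ∈ s), D v := by
  unfold dsum
  refine Finset.sum_subset (Finset.filter_subset_filter _ hS) fun v hv hv' => ?_
  rw [Finset.mem_filter] at hv hv'
  by_contra h
  exact hv' ⟨Finsupp.mem_support_iff.mpr h, hv.2⟩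

theorem dsum_add (D D' : α →₀ ℤ) (s : Set α) : dsum (D + D') s = dsum D s + dsum D' s := by
  have h1 : (D + D').support ⊆ D.support ∪ D'.support := Finsupp.support_add
  rw [dsum_eq_sum_of_subset (D + D') s h1,
    dsum_eq_sum_of_subset D s (Finset.subset_union_left (s₂ := D'.support)),
    dsum_eq_sum_of_subset D' s (Finset.subset_union_right (s₁ := D.support)),
    ← Finset.sum_add_distrib]
  exact Finset.sum_congr rfl fun v _ => Finsupp.add_apply D D' v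

theorem dsum_neg (D : α →₀ ℤ) (s : Set α) : dsum (-D) s = -dsum D s := by
  unfold dsum
  rw [Finsupp.support_neg, ← Finset.sum_neg_distrib]
  exact Finset.sum_congr rfl fun v _ => Finsupp.neg_apply D v

theorem dsum_sub (D D' : α →₀ ℤ) (s : Set α) : dsum (D - D') s = dsum D s - dsum D' s := by
  rw [sub_eq_add_neg, dsum_add, dsum_neg, sub_eq_add_neg]

/-- `dsum` only depends on the values on `s`. -/
theorem dsum_congr_on {D D' : α →₀ ℤ} {s : Set α} (h : ∀ v ∈ s, D v = D' v) :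
    dsum D s = dsum D' s := by
  rw [dsum_eq_sum_of_subset D s (Finset.subset_union_left (s₂ := D'.support)),
    dsum_eq_sum_of_subset D' s (Finset.subset_union_right (s₁ := D.support))]
  exact Finset.sum_congr rfl fun v hv => h v (Finset.mem_filter.mp hv).2

theorem dsum_nonneg {D : α →₀ ℤ} (hD : 0 ≤ D) (s : Set α) : 0 ≤ dsum D s :=
  Finset.sum_nonneg fun v _ => Finsupp.le_def.mp hD v

theorem dsum_union (D : α →₀ ℤ) {s t : Set α} (h : Disjoint s t) :
    dsum D (s ∪ t) = dsum D s + dsum D t := by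
  unfold dsum
  rw [Finset.sum_filter, Finset.sum_filter, Finset.sum_filter, ← Finset.sum_add_distrib]
  refine Finset.sum_congr rfl fun v _ => ?_
  by_cases hs : v ∈ s
  · have ht : v ∉ t := fun ht => Set.disjoint_left.mp h hs ht
    have hst : v ∈ s ∪ t := Or.inl hs
    rw [if_pos hst, if_pos hs, if_neg ht, add_zero]
  · by_cases ht : v ∈ t
    · have hst : v ∈ s ∪ t := Or.inr ht
      rw [if_pos hst, if_neg hs, if_pos ht, zero_add]
    · have hst : v ∉ s ∪ t := fun h' => h'.elim hs ht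
      rw [if_neg hst, if_neg hs, if_neg ht, add_zero]

theorem dsum_empty (D : α →₀ ℤ) : dsum D (∅ : Set α) = 0 := by
  unfold dsum
  simp

theorem dsum_biUnion {β : Type*} (D : α →₀ ℤ) (I : Finset β) (s : β → Set α)
    (hd : ∀ i ∈ I, ∀ j ∈ I, i ≠ j → Disjoint (s i) (s j)) :
    dsum D (⋃ i ∈ I, s i) = ∑ i ∈ I, dsum D (s i) := by
  induction I using Finset.induction_on with
  | empty => simp [dsum_empty]
  | insert a I ha ih =>
    rw [Finset.set_biUnion_insert, Finset.sum_insert ha, dsum_union, ih]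
    · intro i hi j hj hij
      exact hd i (Finset.mem_insert_of_mem hi) j (Finset.mem_insert_of_mem hj) hij
    · rw [Set.disjoint_iUnion₂_right]
      intro i hi
      refine hd a (Finset.mem_insert_self a I) i (Finset.mem_insert_of_mem hi) ?_
      rintro rfl
      exact ha hi

end DSum


variable {K F k Ft1 Ft2 : Type*} [Field K] [Field F] [Algebra K F] [Field k]
  [Field Ft1] [Algebra k Ft1] [Field Ft2] [Algebra k Ft2]
variable {R1 : RedData K F k Ft1} {R2 : RedData K F k Ft2}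
variable {ι : Type*} {P : ι → Place k Ft1} {Q : ι → Place k Ft2}

/-! ### the abstract calculus -/

/-- a place of the generic fibre lying in one of the residue discs. -/
def IsGood (d1 : Place k Ft1 → Set (Place K F)) (d2 : Place k Ft2 → Set (Place K F))
    (v : Place K F) : Prop :=
  (∃ Q' : Place k Ft1, v ∈ d1 Q') ∨ (∃ Q' : Place k Ft2, v ∈ d2 Q')

/-- **The part of the `Red` calculus of `GS/Nodal/LSR2*.lean` used here**, for an abstract relation
`RedP` and abstract residue discs `d1`, `d2`. -/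
structure RedCalc (hc : RedCompat R1 R2) (P : ι → Place k Ft1) (Q : ι → Place k Ft2)
    (C : Divisor K F) (C₁ : Divisor k Ft1) (C₂ : Divisor k Ft2)
    (RedP : Divisor K F → Divisor k Ft1 → Divisor k Ft2 → Prop)
    (d1 : Place k Ft1 → Set (Place K F)) (d2 : Place k Ft2 → Set (Place K F)) : Prop where
  eq : ∀ {D : Divisor K F} {E₁ : Divisor k Ft1} {E₂ : Divisor k Ft2}, RedP D E₁ E₂ →
    redSpace2 hc D = glued P Q E₁ E₂
  exact1 : ∀ {D : Divisor K F} {E₁ : Divisor k Ft1} {E₂ : Divisor k Ft2}, RedP D E₁ E₂ →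
    ∀ Q' : Place k Ft1, ∃ w ∈ glued P Q E₁ E₂, w.1 ≠ 0 ∧ Q'.ord w.1 = -E₁ Q'
  exact2 : ∀ {D : Divisor K F} {E₁ : Divisor k Ft1} {E₂ : Divisor k Ft2}, RedP D E₁ E₂ →
    ∀ Q' : Place k Ft2, ∃ w ∈ glued P Q E₁ E₂, w.2 ≠ 0 ∧ Q'.ord w.2 = -E₂ Q'
  of_good : ∀ Z : Divisor K F, 0 ≤ Z → (∀ v ∈ Z.support, IsGood d1 d2 v) →
    ∃ M₀ : ℕ, ∀ M : ℕ, M₀ ≤ M → ∃ (E₁ : Divisor k Ft1) (E₂ : Divisor k Ft2),
      RedP (Z + M • C) E₁ E₂ ∧
      (∀ Q' : Place k Ft1, E₁ Q' = dsum Z (d1 Q') + (M : ℤ) * C₁ Q') ∧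
      (∀ Q' : Place k Ft2, E₂ Q' = dsum Z (d2 Q') + (M : ℤ) * C₂ Q')
  disj11 : ∀ Q' Q'' : Place k Ft1, Q' ≠ Q'' → Disjoint (d1 Q') (d1 Q'')
  disj22 : ∀ Q' Q'' : Place k Ft2, Q' ≠ Q'' → Disjoint (d2 Q') (d2 Q'')
  disj12 : ∀ (Q' : Place k Ft1) (Q'' : Place k Ft2), Disjoint (d1 Q') (d2 Q'')

/-! ### pole part and good zero part of a divisor -/

section Parts

variable {α : Type*}

/-- the pole part `D⁻ ≥ 0`. -/
def polePart (D : α →₀ ℤ) : α →₀ ℤ := -(D.filter fun v => D v < 0)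

theorem polePart_apply (D : α →₀ ℤ) (v : α) :
    polePart D v = if D v < 0 then -D v else 0 := by
  unfold polePart
  rw [Finsupp.neg_apply, Finsupp.filter_apply]
  split_ifs <;> simp

theorem polePart_nonneg (D : α →₀ ℤ) : 0 ≤ polePart D := by
  rw [Finsupp.le_def]
  intro v
  rw [polePart_apply]
  split_ifs with h
  · simp only [Finsupp.coe_zero, Pi.zero_apply]; omega
  · exact le_refl _

theorem neg_of_mem_support_polePart {D : α →₀ ℤ} {v : α} (hv : v ∈ (polePart D).support) :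
    D v < 0 := by
  rw [Finsupp.mem_support_iff, polePart_apply] at hv
  by_contra h
  rw [if_neg h] at hv
  exact hv rfl

/-- the part of the zero divisor supported on the places satisfying `good`. -/
def goodZeroPart (good : α → Prop) (D : α →₀ ℤ) : α →₀ ℤ :=
  D.filter fun v => 0 < D v ∧ good v

theorem goodZeroPart_apply (good : α → Prop) (D : α →₀ ℤ) (v : α) :
    goodZeroPart good D v = if 0 < D v ∧ good v then D v else 0 := by
  unfold goodZeroPart
  rw [Finsupp.filter_apply]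

theorem goodZeroPart_nonneg (good : α → Prop) (D : α →₀ ℤ) : 0 ≤ goodZeroPart good D := by
  rw [Finsupp.le_def]
  intro v
  rw [goodZeroPart_apply]
  split_ifs with h
  · simp only [Finsupp.coe_zero, Pi.zero_apply]; omega
  · exact le_refl _

theorem good_of_mem_support_goodZeroPart {good : α → Prop} {D : α →₀ ℤ} {v : α}
    (hv : v ∈ (goodZeroPart good D).support) : good v := by
  rw [Finsupp.mem_support_iff, goodZeroPart_apply] at hv
  by_contra h
  rw [if_neg (fun h' => h h'.2)] at hv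
  exact hv rfl

/-- `D⁺_good ≤ D⁻ + D`. -/
theorem goodZeroPart_le (good : α → Prop) (D : α →₀ ℤ) :
    goodZeroPart good D ≤ polePart D + D := by
  rw [Finsupp.le_def]
  intro v
  rw [Finsupp.add_apply, goodZeroPart_apply, polePart_apply]
  split_ifs with h h' h'
  · omega
  · omega
  · omega
  · omega

/-- on good places, `D = D⁺_good − D⁻`. -/
theorem goodZeroPart_sub_polePart (good : α → Prop) (D : α →₀ ℤ) {v : α} (hv : good v) :
    (goodZeroPart good D - polePart D) v = D v := by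
  rw [Finsupp.sub_apply, goodZeroPart_apply, polePart_apply]
  split_ifs with h h' h'
  · omega
  · omega
  · omega
  · have : ¬ 0 < D v := fun h0 => h ⟨h0, hv⟩
    omega

end Parts

/-! ### (2) the inequality for units with good poles -/

section Ineq

variable {hc : RedCompat R1 R2} {C : Divisor K F} {C₁ : Divisor k Ft1} {C₂ : Divisor k Ft2}
  {RedP : Divisor K F → Divisor k Ft1 → Divisor k Ft2 → Prop}
  {d1 : Place k Ft1 → Set (Place K F)} {d2 : Place k Ft2 → Set (Place K F)}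

/-- the common set-up of the two inequalities: the two reduced divisors and the inclusion. -/
theorem exists_red_pair (RC : RedCalc hc P Q C C₁ C₂ RedP d1 d2) {u : F} (h1 : u ∈ R1.Rw)
    (h2 : u ∈ R2.Rw) (hy1 : R1.red ⟨u, h1⟩ ≠ 0) (hy2 : R2.red ⟨u, h2⟩ ≠ 0) {Du : Divisor K F}
    (hDu : ∀ v : Place K F, Du v = v.ord u)
    (hpole : ∀ v : Place K F, v.ord u < 0 → IsGood d1 d2 v) :
    ∃ (M : ℕ) (E₁ : Divisor k Ft1) (E₂ : Divisor k Ft2) (E₁' : Divisor k Ft1)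
      (E₂' : Divisor k Ft2),
      (∀ Q' : Place k Ft1, E₁ Q' = dsum (polePart Du) (d1 Q') + (M : ℤ) * C₁ Q') ∧
      (∀ Q' : Place k Ft2, E₂ Q' = dsum (polePart Du) (d2 Q') + (M : ℤ) * C₂ Q') ∧
      (∀ Q' : Place k Ft1,
        E₁' Q' = dsum (goodZeroPart (IsGood d1 d2) Du) (d1 Q') + (M : ℤ) * C₁ Q') ∧
      (∀ Q' : Place k Ft2,
        E₂' Q' = dsum (goodZeroPart (IsGood d1 d2) Du) (d2 Q') + (M : ℤ) * C₂ Q') ∧
      (∀ Q' : Place k Ft1, ∃ w ∈ glued P Q E₁' E₂', w.1 ≠ 0 ∧ Q'.ord w.1 = -E₁' Q') ∧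
      (∀ Q' : Place k Ft2, ∃ w ∈ glued P Q E₁' E₂', w.2 ≠ 0 ∧ Q'.ord w.2 = -E₂' Q') ∧
      ∀ w ∈ glued P Q E₁' E₂', (R1.red ⟨u, h1⟩, R2.red ⟨u, h2⟩) * w ∈ glued P Q E₁ E₂ := by
  have hZp_good : ∀ v ∈ (polePart Du).support, IsGood d1 d2 v := fun v hv =>
    hpole v (by rw [← hDu v]; exact neg_of_mem_support_polePart hv)
  have hZg_good : ∀ v ∈ (goodZeroPart (IsGood d1 d2) Du).support, IsGood d1 d2 v := fun v hv =>
    good_of_mem_support_goodZeroPart hv
  obtain ⟨M₁, hM₁⟩ := RC.of_good (polePart Du) (polePart_nonneg Du) hZp_good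
  obtain ⟨M₂, hM₂⟩ := RC.of_good (goodZeroPart (IsGood d1 d2) Du) (goodZeroPart_nonneg _ Du)
    hZg_good
  obtain ⟨E₁, E₂, hRed, hE₁, hE₂⟩ := hM₁ (max M₁ M₂) (le_max_left _ _)
  obtain ⟨E₁', E₂', hRed', hE₁', hE₂'⟩ := hM₂ (max M₁ M₂) (le_max_right _ _)
  refine ⟨max M₁ M₂, E₁, E₂, E₁', E₂', hE₁, hE₂, hE₁', hE₂', RC.exact1 hRed', RC.exact2 hRed', ?_⟩
  intro w hw
  rw [← RC.eq hRed'] at hw
  rw [← RC.eq hRed]
  refine (mul_mem_redSpace2_iff hc h1 h2 hy1 hy2 hDu (polePart Du + max M₁ M₂ • C) w).mpr ?_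
  refine redSpace2_mono hc ?_ hw
  have h := goodZeroPart_le (IsGood d1 d2) Du
  have e : polePart Du + max M₁ M₂ • C + Du = (polePart Du + Du) + max M₁ M₂ • C := by
    rw [add_right_comm]
  rw [e]
  exact add_le_add h le_rfl

/-- **(2), first component.** For a common unit `u` with good poles and EVERY place `Q'` of the
first component: `∑_{v ∈ d1 Q'} ord_v u ≤ ord_{Q'} (red₁ u)`. -/
theorem ord_red_ge_dsum1 (RC : RedCalc hc P Q C C₁ C₂ RedP d1 d2) {u : F} (h1 : u ∈ R1.Rw)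
    (h2 : u ∈ R2.Rw) (hy1 : R1.red ⟨u, h1⟩ ≠ 0) (hy2 : R2.red ⟨u, h2⟩ ≠ 0) {Du : Divisor K F}
    (hDu : ∀ v : Place K F, Du v = v.ord u)
    (hpole : ∀ v : Place K F, v.ord u < 0 → IsGood d1 d2 v) (Q' : Place k Ft1) :
    dsum Du (d1 Q') ≤ Q'.ord (R1.red ⟨u, h1⟩) := by
  obtain ⟨M, E₁, E₂, E₁', E₂', hE₁, -, hE₁', -, hex, -, hmul⟩ :=
    exists_red_pair RC h1 h2 hy1 hy2 hDu hpole
  obtain ⟨w, hw, hw0, hword⟩ := hex Q'
  have hmem := (hmul w hw).1
  rw [Prod.fst_mul, mem_riemannRochSpace_iff] at hmem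
  have hne : R1.red ⟨u, h1⟩ * w.1 ≠ 0 := mul_ne_zero hy1 hw0
  have h3 := (hmem Q').resolve_left hne
  rw [Q'.ord_mul hy1 hw0, hword, hE₁ Q', hE₁' Q'] at h3
  have h4 : dsum Du (d1 Q') =
      dsum (goodZeroPart (IsGood d1 d2) Du) (d1 Q') - dsum (polePart Du) (d1 Q') := by
    rw [← dsum_sub]
    exact dsum_congr_on fun v hv =>
      (goodZeroPart_sub_polePart (IsGood d1 d2) Du (Or.inl ⟨Q', hv⟩)).symm
  rw [h4]
  linarith

/-- **(2), second component.** -/
theorem ord_red_ge_dsum2 (RC : RedCalc hc P Q C C₁ C₂ RedP d1 d2) {u : F} (h1 : u ∈ R1.Rw)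
    (h2 : u ∈ R2.Rw) (hy1 : R1.red ⟨u, h1⟩ ≠ 0) (hy2 : R2.red ⟨u, h2⟩ ≠ 0) {Du : Divisor K F}
    (hDu : ∀ v : Place K F, Du v = v.ord u)
    (hpole : ∀ v : Place K F, v.ord u < 0 → IsGood d1 d2 v) (Q' : Place k Ft2) :
    dsum Du (d2 Q') ≤ Q'.ord (R2.red ⟨u, h2⟩) := by
  obtain ⟨M, E₁, E₂, E₁', E₂', -, hE₂, -, hE₂', -, hex, hmul⟩ :=
    exists_red_pair RC h1 h2 hy1 hy2 hDu hpole
  obtain ⟨w, hw, hw0, hword⟩ := hex Q'
  have hmem := (hmul w hw).2.1
  rw [Prod.snd_mul, mem_riemannRochSpace_iff] at hmem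
  have hne : R2.red ⟨u, h2⟩ * w.2 ≠ 0 := mul_ne_zero hy2 hw0
  have h3 := (hmem Q').resolve_left hne
  rw [Q'.ord_mul hy2 hw0, hword, hE₂ Q', hE₂' Q'] at h3
  have h4 : dsum Du (d2 Q') =
      dsum (goodZeroPart (IsGood d1 d2) Du) (d2 Q') - dsum (polePart Du) (d2 Q') := by
    rw [← dsum_sub]
    exact dsum_congr_on fun v hv =>
      (goodZeroPart_sub_polePart (IsGood d1 d2) Du (Or.inr ⟨Q', hv⟩)).symm
  rw [h4]
  linarith

end Ineq

/-! ### (3) equality over non-node values -/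

/-- **The fibre-sum identity of a chart and the compatibility of the discs with its values.**
`Zt` is the set of residue values of the chart (with `∞`), `πF v` the residue of the value of the
chart at `v`, `π1`, `π2` the values of the reduced chart on the two components. -/
structure NormFibre (P : ι → Place k Ft1) (Q : ι → Place k Ft2)
    (d1 : Place k Ft1 → Set (Place K F)) (d2 : Place k Ft2 → Set (Place K F)) {Zt : Type*}
    (πF : Place K F → Zt) (π1 : Place k Ft1 → Zt) (π2 : Place k Ft2 → Zt)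
    (fib1 : Zt → Finset (Place k Ft1)) (fib2 : Zt → Finset (Place k Ft2)) : Prop where
  mem_fib1 : ∀ (z : Zt) (Q' : Place k Ft1), Q' ∈ fib1 z ↔ π1 Q' = z
  mem_fib2 : ∀ (z : Zt) (Q' : Place k Ft2), Q' ∈ fib2 z ↔ π2 Q' = z
  /-- norm to the line of the chart + Gauss' lemma on the line -/
  norm : ∀ (y : F) (h1 : y ∈ R1.Rw) (h2 : y ∈ R2.Rw), R1.red ⟨y, h1⟩ ≠ 0 → R2.red ⟨y, h2⟩ ≠ 0 →
    ∀ Dy : Divisor K F, (∀ v : Place K F, Dy v = v.ord y) → ∀ z : Zt,
      dsum Dy {v | πF v = z} =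
        ∑ Q' ∈ fib1 z, Q'.ord (R1.red ⟨y, h1⟩) + ∑ Q' ∈ fib2 z, Q'.ord (R2.red ⟨y, h2⟩)
  /-- every place over a non-node value lies in a disc -/
  good_of_val : ∀ v : Place K F, (∀ j, π1 (P j) ≠ πF v) → (∀ j, π2 (Q j) ≠ πF v) →
    IsGood d1 d2 v
  val_d1 : ∀ (Q' : Place k Ft1) (v : Place K F), v ∈ d1 Q' → πF v = π1 Q'
  val_d2 : ∀ (Q' : Place k Ft2) (v : Place K F), v ∈ d2 Q' → πF v = π2 Q'

section Eq

variable {hc : RedCompat R1 R2} {C : Divisor K F} {C₁ : Divisor k Ft1} {C₂ : Divisor k Ft2}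
  {RedP : Divisor K F → Divisor k Ft1 → Divisor k Ft2 → Prop}
  {d1 : Place k Ft1 → Set (Place K F)} {d2 : Place k Ft2 → Set (Place K F)}
  {Zt : Type*} {πF : Place K F → Zt} {π1 : Place k Ft1 → Zt} {π2 : Place k Ft2 → Zt}
  {fib1 : Zt → Finset (Place k Ft1)} {fib2 : Zt → Finset (Place k Ft2)}

/-- over a non-node value, the fibre of the chart on the generic fibre is the disjoint union of the
discs of the points of the fibres on the two components. -/
theorem dsum_fibre_eq (RC : RedCalc hc P Q C C₁ C₂ RedP d1 d2)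
    (NF : NormFibre (R1 := R1) (R2 := R2) P Q d1 d2 πF π1 π2 fib1 fib2) (D : Divisor K F) (z : Zt)
    (hz1 : ∀ j, π1 (P j) ≠ z) (hz2 : ∀ j, π2 (Q j) ≠ z) :
    dsum D {v | πF v = z} =
      ∑ Q' ∈ fib1 z, dsum D (d1 Q') + ∑ Q' ∈ fib2 z, dsum D (d2 Q') := by
  have hset : {v | πF v = z} = (⋃ Q' ∈ fib1 z, d1 Q') ∪ (⋃ Q' ∈ fib2 z, d2 Q') := by
    ext v
    simp only [Set.mem_ofPred_eq, Set.mem_union, Set.mem_iUnion, exists_prop]
    constructor
    · intro hv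
      rcases NF.good_of_val v (fun j => by rw [hv]; exact hz1 j)
        (fun j => by rw [hv]; exact hz2 j) with ⟨Q', hQ'⟩ | ⟨Q', hQ'⟩
      · exact Or.inl ⟨Q', (NF.mem_fib1 z Q').mpr (by rw [← NF.val_d1 Q' v hQ', hv]), hQ'⟩
      · exact Or.inr ⟨Q', (NF.mem_fib2 z Q').mpr (by rw [← NF.val_d2 Q' v hQ', hv]), hQ'⟩
    · rintro (⟨Q', hQ', hv⟩ | ⟨Q', hQ', hv⟩)
      · rw [NF.val_d1 Q' v hv]; exact (NF.mem_fib1 z Q').mp hQ'
      · rw [NF.val_d2 Q' v hv]; exact (NF.mem_fib2 z Q').mp hQ'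
  rw [hset, dsum_union, dsum_biUnion, dsum_biUnion]
  · intro Q' _ Q'' _ hne
    exact RC.disj22 Q' Q'' hne
  · intro Q' _ Q'' _ hne
    exact RC.disj11 Q' Q'' hne
  · rw [Set.disjoint_iUnion₂_left]
    intro Q' _
    rw [Set.disjoint_iUnion₂_right]
    intro Q'' _
    exact RC.disj12 Q' Q''

/-- **(3)** For a common unit `u` with good poles and a non-node value `z` of the chart: equality
at every place of the two fibres over `z`. -/
theorem ord_red_eq_dsum_of_good_poles (RC : RedCalc hc P Q C C₁ C₂ RedP d1 d2)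
    (NF : NormFibre (R1 := R1) (R2 := R2) P Q d1 d2 πF π1 π2 fib1 fib2) {u : F} (h1 : u ∈ R1.Rw)
    (h2 : u ∈ R2.Rw) (hy1 : R1.red ⟨u, h1⟩ ≠ 0) (hy2 : R2.red ⟨u, h2⟩ ≠ 0) {Du : Divisor K F}
    (hDu : ∀ v : Place K F, Du v = v.ord u)
    (hpole : ∀ v : Place K F, v.ord u < 0 → IsGood d1 d2 v) (z : Zt)
    (hz1 : ∀ j, π1 (P j) ≠ z) (hz2 : ∀ j, π2 (Q j) ≠ z) :
    (∀ Q' ∈ fib1 z, Q'.ord (R1.red ⟨u, h1⟩) = dsum Du (d1 Q')) ∧
      (∀ Q' ∈ fib2 z, Q'.ord (R2.red ⟨u, h2⟩) = dsum Du (d2 Q')) := by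
  have hnorm := NF.norm u h1 h2 hy1 hy2 Du hDu z
  rw [dsum_fibre_eq RC NF Du z hz1 hz2] at hnorm
  have hge1 : ∀ Q' ∈ fib1 z, 0 ≤ Q'.ord (R1.red ⟨u, h1⟩) - dsum Du (d1 Q') := fun Q' _ =>
    sub_nonneg.mpr (ord_red_ge_dsum1 RC h1 h2 hy1 hy2 hDu hpole Q')
  have hge2 : ∀ Q' ∈ fib2 z, 0 ≤ Q'.ord (R2.red ⟨u, h2⟩) - dsum Du (d2 Q') := fun Q' _ =>
    sub_nonneg.mpr (ord_red_ge_dsum2 RC h1 h2 hy1 hy2 hDu hpole Q')
  have hs1 := Finset.sum_nonneg hge1
  have hs2 := Finset.sum_nonneg hge2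
  have hsum : ∑ Q' ∈ fib1 z, (Q'.ord (R1.red ⟨u, h1⟩) - dsum Du (d1 Q')) +
      ∑ Q' ∈ fib2 z, (Q'.ord (R2.red ⟨u, h2⟩) - dsum Du (d2 Q')) = 0 := by
    rw [Finset.sum_sub_distrib, Finset.sum_sub_distrib]
    linarith
  have h10 : ∑ Q' ∈ fib1 z, (Q'.ord (R1.red ⟨u, h1⟩) - dsum Du (d1 Q')) = 0 := by linarith
  have h20 : ∑ Q' ∈ fib2 z, (Q'.ord (R2.red ⟨u, h2⟩) - dsum Du (d2 Q')) = 0 := by linarith
  refine ⟨fun Q' hQ' => ?_, fun Q' hQ' => ?_⟩
  · have := (Finset.sum_eq_zero_iff_of_nonneg hge1).mp h10 Q' hQ'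
    linarith
  · have := (Finset.sum_eq_zero_iff_of_nonneg hge2).mp h20 Q' hQ'
    linarith

end Eq

/-! ### (4) arbitrary common units -/

section Ball2

variable [FiniteResidues K F] [HasPrincipalDivisors K F] [Nonempty (Place K F)]
  [FiniteResidues k Ft1] [HasPrincipalDivisors k Ft1] [Nonempty (Place k Ft1)]
  [FiniteResidues k Ft2] [HasPrincipalDivisors k Ft2] [Nonempty (Place k Ft2)]

variable {hc : RedCompat R1 R2} {C : Divisor K F} {C₁ : Divisor k Ft1} {C₂ : Divisor k Ft2}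
  {g c : ℤ} {n₀ : ℕ}

/-- the degrees of the two reduced pencil divisors are positive. -/
theorem one_le_degree_C (H : NodalHyp hc P Q C C₁ C₂ g c n₀) :
    1 ≤ Divisor.degree C₁ ∧ 1 ≤ Divisor.degree C₂ := by
  have h0 := H.c_nonneg
  have h1 := H.hn₀1
  have h2 := H.hn₀2
  have hn : (0 : ℤ) ≤ (n₀ : ℤ) := Int.natCast_nonneg n₀
  constructor
  · by_contra hcon
    push Not at hcon
    have : (n₀ : ℤ) * Divisor.degree C₁ ≤ 0 := mul_nonpos_of_nonneg_of_nonpos hn (by omega)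
    omega
  · by_contra hcon
    push Not at hcon
    have : (n₀ : ℤ) * Divisor.degree C₂ ≤ 0 := mul_nonpos_of_nonneg_of_nonpos hn (by omega)
    omega

/-- **a common unit with poles on the pencil divisor, prescribed zeros.** For `Y ≥ 0` there are
`M ≥ n₀` and an element of the pair reduction of `L(M • C − Y)` with both components nonzero. -/
theorem exists_mem_redSpace2_ne_zero (H : NodalHyp hc P Q C C₁ C₂ g c n₀) (Y : Divisor K F)
    (hY : 0 ≤ Y) :
    ∃ M : ℕ, n₀ ≤ M ∧ ∃ z ∈ redSpace2 hc (M • C - Y), z.1 ≠ 0 ∧ z.2 ≠ 0 := by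
  obtain ⟨hd1, hd2⟩ := one_le_degree_C H
  have hc0 := H.c_nonneg
  set dY : ℤ := Divisor.degree Y with hdY
  set t : ℕ := dY.toNat + c.toNat + 1 with ht
  have htY : dY < (t : ℤ) := by
    have := Int.self_le_toNat dY
    have := Int.self_le_toNat c
    rw [ht]; push_cast; omega
  have htc : c + dY + 1 ≤ (t : ℤ) := by
    have := Int.self_le_toNat dY
    have := Int.self_le_toNat c
    rw [ht]; push_cast; omega
  set M : ℕ := n₀ + t with hM
  have hMn : n₀ ≤ M := Nat.le_add_right _ _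
  refine ⟨M, hMn, ?_⟩
  have hMt : (M : ℤ) = (n₀ : ℤ) + (t : ℤ) := by rw [hM]; push_cast; ring
  have ht0 : (0 : ℤ) ≤ (t : ℤ) := Int.natCast_nonneg t
  have hn0 : (0 : ℤ) ≤ (n₀ : ℤ) := Int.natCast_nonneg n₀
  -- the degree of `M • C - Y`
  have hdeg : Divisor.degree (M • C - Y) =
      (M : ℤ) * Divisor.degree C₁ + (M : ℤ) * Divisor.degree C₂ - dY := by
    rw [map_sub, map_nsmul, H.degC, nsmul_eq_mul]; ring
  have hM1 : (t : ℤ) ≤ (t : ℤ) * Divisor.degree C₁ := le_mul_of_one_le_right ht0 hd1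
  have hM2 : (t : ℤ) ≤ (t : ℤ) * Divisor.degree C₂ := le_mul_of_one_le_right ht0 hd2
  have hcdeg : c ≤ Divisor.degree (M • C - Y) := by
    rw [hdeg, hMt]
    have h1 := H.hn₀1
    have h2 := H.hn₀2
    nlinarith
  have hrank : (Module.finrank k (redSpace2 hc (M • C - Y)) : ℤ) =
      (M : ℤ) * Divisor.degree C₁ + (M : ℤ) * Divisor.degree C₂ - dY + 1 - g := by
    rw [H.orth2, H.rrF _ hcdeg, hdeg]
  have hsub : redSpace2 hc (M • C - Y) ≤ glued P Q (M • C₁) (M • C₂) :=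
    (redSpace2_mono hc (sub_le_self _ hY)).trans (H.pencil M hMn)
  have hnode1 : ∀ (m : ℕ) (j : ι), (m • C₁) (P j) = 0 := fun m j => by
    rw [Finsupp.smul_apply, H.C₁_node j, smul_zero]
  have hnode2 : ∀ (m : ℕ) (j : ι), (m • C₂) (Q j) = 0 := fun m j => by
    rw [Finsupp.smul_apply, H.C₂_node j, smul_zero]
  have hdegm1 : ∀ m : ℕ, Divisor.degree (m • C₁) = (m : ℤ) * Divisor.degree C₁ := fun m => by
    rw [map_nsmul, nsmul_eq_mul]
  have hdegm2 : ∀ m : ℕ, Divisor.degree (m • C₂) = (m : ℤ) * Divisor.degree C₂ := fun m => by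
    rw [map_nsmul, nsmul_eq_mul]
  have hcM1 : c ≤ (M : ℤ) * Divisor.degree C₁ := by
    have h1 := H.hn₀1
    rw [hMt]; nlinarith
  have hcM2 : c ≤ (M : ℤ) * Divisor.degree C₂ := by
    have h2 := H.hn₀2
    rw [hMt]; nlinarith
  have hcn1 : c ≤ (n₀ : ℤ) * Divisor.degree C₁ := by have := H.hn₀1; omega
  have hcn2 : c ≤ (n₀ : ℤ) * Divisor.degree C₂ := by have := H.hn₀2; omega
  -- an element with nonzero second component
  have hA : ∃ z ∈ redSpace2 hc (M • C - Y), z.2 ≠ 0 := by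
    by_contra hcon
    push Not at hcon
    have hle : redSpace2 hc (M • C - Y) ≤ glued P Q (M • C₁) (n₀ • C₂) := by
      intro z hz
      obtain ⟨hz1, -, hz3⟩ := hsub hz
      refine ⟨hz1, ?_, hz3⟩
      rw [hcon z hz]
      exact Submodule.zero_mem _
    have hfin := Submodule.finrank_mono hle
    have hdim := H.nr_dim (M • C₁) (n₀ • C₂) (hnode1 M) (hnode2 n₀)
      (by rw [hdegm1]; exact hcM1) (by rw [hdegm2]; exact hcn2)
    rw [hdegm1, hdegm2] at hdim
    have hfin' : (Module.finrank k (redSpace2 hc (M • C - Y)) : ℤ) ≤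
        (Module.finrank k (glued P Q (M • C₁) (n₀ • C₂)) : ℤ) := by exact_mod_cast hfin
    rw [hrank, hdim, hMt] at hfin'
    nlinarith
  -- an element with nonzero first component
  have hB : ∃ z ∈ redSpace2 hc (M • C - Y), z.1 ≠ 0 := by
    by_contra hcon
    push Not at hcon
    have hle : redSpace2 hc (M • C - Y) ≤ glued P Q (n₀ • C₁) (M • C₂) := by
      intro z hz
      obtain ⟨-, hz2, hz3⟩ := hsub hz
      refine ⟨?_, hz2, hz3⟩
      rw [hcon z hz]
      exact Submodule.zero_mem _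
    have hfin := Submodule.finrank_mono hle
    have hdim := H.nr_dim (n₀ • C₁) (M • C₂) (hnode1 n₀) (hnode2 M)
      (by rw [hdegm1]; exact hcn1) (by rw [hdegm2]; exact hcM2)
    rw [hdegm1, hdegm2] at hdim
    have hfin' : (Module.finrank k (redSpace2 hc (M • C - Y)) : ℤ) ≤
        (Module.finrank k (glued P Q (n₀ • C₁) (M • C₂)) : ℤ) := by exact_mod_cast hfin
    rw [hrank, hdim, hMt] at hfin'
    nlinarith
  obtain ⟨a, ha, ha2⟩ := hA
  obtain ⟨b, hb, hb1⟩ := hB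
  by_cases ha1 : a.1 = 0
  · by_cases hb2 : b.2 = 0
    · refine ⟨a + b, Submodule.add_mem _ ha hb, ?_, ?_⟩
      · rw [Prod.fst_add, ha1, zero_add]; exact hb1
      · rw [Prod.snd_add, hb2, add_zero]; exact ha2
    · exact ⟨b, hb, hb1, hb2⟩
  · exact ⟨a, ha, ha1, ha2⟩

variable {RedP : Divisor K F → Divisor k Ft1 → Divisor k Ft2 → Prop}
  {d1 : Place k Ft1 → Set (Place K F)} {d2 : Place k Ft2 → Set (Place K F)}
  {Zt : Type*} {πF : Place K F → Zt} {π1 : Place k Ft1 → Zt} {π2 : Place k Ft2 → Zt}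
  {fib1 : Zt → Finset (Place k Ft1)} {fib2 : Zt → Finset (Place k Ft2)}

/-- `D + D⁻ ≥ 0`. -/
theorem add_polePart_nonneg {α : Type*} (D : α →₀ ℤ) (v : α) : 0 ≤ D v + polePart D v := by
  rw [polePart_apply]
  split_ifs with h <;> omega

/-- **(4) THE FIBRE FORMULA FOR ALL COMMON UNITS**, `dsum` form. -/
theorem ord_red_eq_dsum_ball2 (H : NodalHyp hc P Q C C₁ C₂ g c n₀)
    (RC : RedCalc hc P Q C C₁ C₂ RedP d1 d2)
    (NF : NormFibre (R1 := R1) (R2 := R2) P Q d1 d2 πF π1 π2 fib1 fib2)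
    (hC : ∀ v ∈ C.support, IsGood d1 d2 v) {y : F} (h1 : y ∈ R1.Rw) (h2 : y ∈ R2.Rw)
    (hy1 : R1.red ⟨y, h1⟩ ≠ 0) (hy2 : R2.red ⟨y, h2⟩ ≠ 0) {Dy : Divisor K F}
    (hDy : ∀ v : Place K F, Dy v = v.ord y) (z : Zt)
    (hz1 : ∀ j, π1 (P j) ≠ z) (hz2 : ∀ j, π2 (Q j) ≠ z) :
    (∀ Q' ∈ fib1 z, Q'.ord (R1.red ⟨y, h1⟩) = dsum Dy (d1 Q')) ∧
      (∀ Q' ∈ fib2 z, Q'.ord (R2.red ⟨y, h2⟩) = dsum Dy (d2 Q')) := by
  have hy0 : y ≠ 0 := by
    rintro rfl
    exact hy1 (map_zero R1.red)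
  obtain ⟨M, -, z₀, hz₀, hz₀1, hz₀2⟩ :=
    exists_mem_redSpace2_ne_zero H (polePart Dy) (polePart_nonneg Dy)
  obtain ⟨y₂, k1, k2, hy₂L, e1, e2⟩ := hz₀
  have hr1 : R1.red ⟨y₂, k1⟩ ≠ 0 := by rw [e1]; exact hz₀1
  have hr2 : R2.red ⟨y₂, k2⟩ ≠ 0 := by rw [e2]; exact hz₀2
  have hy₂0 : y₂ ≠ 0 := by
    rintro rfl
    exact hr1 (map_zero R1.red)
  obtain ⟨Dy₂, hDy₂, -⟩ := HasPrincipalDivisors.exists_divisor (K := K) y₂ hy₂0
  -- the product
  have m1 : y * y₂ ∈ R1.Rw := mul_mem h1 k1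
  have m2 : y * y₂ ∈ R2.Rw := mul_mem h2 k2
  have hred1 : R1.red ⟨y * y₂, m1⟩ = R1.red ⟨y, h1⟩ * R1.red ⟨y₂, k1⟩ := by
    rw [← map_mul]; rfl
  have hred2 : R2.red ⟨y * y₂, m2⟩ = R2.red ⟨y, h2⟩ * R2.red ⟨y₂, k2⟩ := by
    rw [← map_mul]; rfl
  have hp1 : R1.red ⟨y * y₂, m1⟩ ≠ 0 := by rw [hred1]; exact mul_ne_zero hy1 hr1
  have hp2 : R2.red ⟨y * y₂, m2⟩ ≠ 0 := by rw [hred2]; exact mul_ne_zero hy2 hr2
  have hDy₁ : ∀ v : Place K F, (Dy + Dy₂) v = v.ord (y * y₂) := fun v => by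
    rw [Finsupp.add_apply, hDy v, hDy₂ v, v.ord_mul hy0 hy₂0]
  -- poles on the pencil divisor
  have hCv : ∀ v : Place K F, 0 ≤ C v := fun v => Finsupp.le_def.mp H.C_nonneg v
  have hord₂ : ∀ v : Place K F, -((M : ℤ) * C v - polePart Dy v) ≤ v.ord y₂ := fun v => by
    have := ((mem_riemannRochSpace_iff.mp hy₂L) v).resolve_left hy₂0
    rwa [Finsupp.sub_apply, Finsupp.smul_apply, nsmul_eq_mul] at this
  have hgoodC : ∀ v : Place K F, 0 < (M : ℤ) * C v → IsGood d1 d2 v := fun v hv => by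
    refine hC v (Finsupp.mem_support_iff.mpr fun h0 => ?_)
    rw [h0, mul_zero] at hv
    exact lt_irrefl _ hv
  have hpole₂ : ∀ v : Place K F, v.ord y₂ < 0 → IsGood d1 d2 v := fun v hv => by
    refine hgoodC v ?_
    have h3 := hord₂ v
    have h4 : 0 ≤ polePart Dy v := Finsupp.le_def.mp (polePart_nonneg Dy) v
    omega
  have hpole₁ : ∀ v : Place K F, v.ord (y * y₂) < 0 → IsGood d1 d2 v := fun v hv => by
    refine hgoodC v ?_
    rw [v.ord_mul hy0 hy₂0, ← hDy v] at hv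
    have h3 := hord₂ v
    have h4 := add_polePart_nonneg Dy v
    omega
  obtain ⟨hA1, hA2⟩ := ord_red_eq_dsum_of_good_poles RC NF m1 m2 hp1 hp2 hDy₁ hpole₁ z hz1 hz2
  obtain ⟨hB1, hB2⟩ := ord_red_eq_dsum_of_good_poles RC NF k1 k2 hr1 hr2 hDy₂ hpole₂ z hz1 hz2
  refine ⟨fun Q' hQ' => ?_, fun Q' hQ' => ?_⟩
  · have hA := hA1 Q' hQ'
    have hB := hB1 Q' hQ'
    rw [hred1, Q'.ord_mul hy1 hr1, dsum_add] at hA
    linarith
  · have hA := hA2 Q' hQ'
    have hB := hB2 Q' hQ'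
    rw [hred2, Q'.ord_mul hy2 hr2, dsum_add] at hA
    linarith

/-- **(4) THE FIBRE FORMULA FOR ALL COMMON UNITS**: for every `y` that is a unit for both Gauss
valuations (zeros and poles anywhere) and every place `Q'` of a component over a non-node value of
the chart, `ord_{Q'} (red_i y) = ∑_{v ∈ disc_i Q'} ord_v y`. -/
theorem ord_red_eq_sum_ball2 (H : NodalHyp hc P Q C C₁ C₂ g c n₀)
    (RC : RedCalc hc P Q C C₁ C₂ RedP d1 d2)
    (NF : NormFibre (R1 := R1) (R2 := R2) P Q d1 d2 πF π1 π2 fib1 fib2)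
    (hC : ∀ v ∈ C.support, IsGood d1 d2 v) {y : F} (h1 : y ∈ R1.Rw) (h2 : y ∈ R2.Rw)
    (hy1 : R1.red ⟨y, h1⟩ ≠ 0) (hy2 : R2.red ⟨y, h2⟩ ≠ 0) {Dy : Divisor K F}
    (hDy : ∀ v : Place K F, Dy v = v.ord y) :
    (∀ Q' : Place k Ft1, (∀ j, π1 (P j) ≠ π1 Q') → (∀ j, π2 (Q j) ≠ π1 Q') →
      Q'.ord (R1.red ⟨y, h1⟩) = ∑ v ∈ Dy.support.filter (· ∈ d1 Q'), v.ord y) ∧
    (∀ Q' : Place k Ft2, (∀ j, π1 (P j) ≠ π2 Q') → (∀ j, π2 (Q j) ≠ π2 Q') →
      Q'.ord (R2.red ⟨y, h2⟩) = ∑ v ∈ Dy.support.filter (· ∈ d2 Q'), v.ord y) := by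
  refine ⟨fun Q' hz1 hz2 => ?_, fun Q' hz1 hz2 => ?_⟩
  · have h := (ord_red_eq_dsum_ball2 H RC NF hC h1 h2 hy1 hy2 hDy (π1 Q') hz1 hz2).1 Q'
      ((NF.mem_fib1 _ _).mpr rfl)
    rw [h]
    exact Finset.sum_congr rfl fun v _ => hDy v
  · have h := (ord_red_eq_dsum_ball2 H RC NF hC h1 h2 hy1 hy2 hDy (π2 Q') hz1 hz2).2 Q'
      ((NF.mem_fib2 _ _).mpr rfl)
    rw [h]
    exact Finset.sum_congr rfl fun v _ => hDy v

end Ball2

end Fermat.Agent.GS.Nodal.FF2

end
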