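/-
GATE-S / node [INST²](a), the PLUG of `GS/Nodal/FF2.lean` into `GS/Nodal/LSR2Main.lean`
(helper75).

`FF2.lean` proves the fibre formula for all common units from an ABSTRACT `RedCalc` (the part of
the `Red` calculus it uses) and a `NormFibre` (fibre-sum identity of a chart).  This file
discharges the `RedCalc` binder and the `hC` binder from helper16's `LSR2Main.lean`:

* `isGood_iff_goodPlace`  : `IsGood (disc1 H) (disc2 H) v ↔ GoodPlace H v`;
* `push1_eq_dsum` / `push2_eq_dsum` : on divisors supported on good places the push-forward is the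
  disc sum;
* `redCalc H : RedCalc hc P Q C C₁ C₂ (Red H) (disc1 H) (disc2 H)`;
* `isGood_of_mem_support_C` : the places of the pencil divisor are good;
* `ff2_of_normFibre` : `NormFibre … ⟹ ROfSurj2.FF2 R1 R2 (disc1 H) (disc2 H) S1 S2` for
  `S1 = {Q' | the value of Q' is not a node value}`, `S2` likewise — the binder of
  `FibreHyp2.fibreHyp1_of_nodal` / `fibreHyp2_of_nodal`.
-/
import Mathlib
import Fermat.Agent.GS.Nodal.FF2
import Fermat.Agent.GS.Nodal.LSR2Main
import Fermat.Agent.GS.Nodal.ROfSurj2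

set_option autoImplicit false

noncomputable section

open AlgebraicCurve Classical

namespace Fermat.Agent.GS.Nodal.FF2Plug

open Fermat.Agent.RRh45 Fermat.Agent.GJ.S37MinDiv Fermat.Agent.GJ.J1 Fermat.Agent.GK.MultiVal
open Fermat.Agent.GK.NodalGraded Fermat.Agent.GS.Nodal.LSR2 Fermat.Agent.GS.Nodal.FF2

variable {K F k Ft1 Ft2 : Type*} [Field K] [Field F] [Algebra K F] [Field k]
  [Field Ft1] [Algebra k Ft1] [Field Ft2] [Algebra k Ft2]
variable {R1 : RedData K F k Ft1} {R2 : RedData K F k Ft2} {hc : RedCompat R1 R2}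
variable {ι : Type*} {P : ι → Place k Ft1} {Q : ι → Place k Ft2}
variable {C : Divisor K F} {C₁ : Divisor k Ft1} {C₂ : Divisor k Ft2} {g c : ℤ} {n₀ : ℕ}
variable [FiniteResidues K F] [HasPrincipalDivisors K F] [Nonempty (Place K F)]
variable [FiniteResidues k Ft1] [HasPrincipalDivisors k Ft1] [Nonempty (Place k Ft1)]
variable [FiniteResidues k Ft2] [HasPrincipalDivisors k Ft2] [Nonempty (Place k Ft2)]
variable {H : NodalHyp hc P Q C C₁ C₂ g c n₀}

/-- the two notions of good place agree -/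
theorem isGood_iff_goodPlace {v : Place K F} :
    IsGood (disc1 H) (disc2 H) v ↔ GoodPlace H v :=
  goodPlace_iff.symm

/-- on divisors supported on good places the first push-forward is the disc sum -/
theorem push1_eq_dsum {Z : Divisor K F} (hgood : ∀ v ∈ Z.support, GoodPlace H v)
    (Q' : Place k Ft1) : push1 H Z Q' = dsum Z (disc1 H Q') := by
  rw [push1_apply, dsum, Finset.sum_filter]
  refine Finset.sum_congr rfl fun v hv => ?_
  rw [rd1_apply (hgood v hv) Q']
  split_ifs <;> simp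

/-- on divisors supported on good places the second push-forward is the disc sum -/
theorem push2_eq_dsum {Z : Divisor K F} (hgood : ∀ v ∈ Z.support, GoodPlace H v)
    (Q' : Place k Ft2) : push2 H Z Q' = dsum Z (disc2 H Q') := by
  rw [push2_apply, dsum, Finset.sum_filter]
  refine Finset.sum_congr rfl fun v hv => ?_
  rw [rd2_apply (hgood v hv) Q']
  split_ifs <;> simp

/-- **an effective divisor supported on good places reduces to its disc sums, at EVERY large
level** (`Red.of_good` gives the levels `M * n₀`; the pencil fills in the others). -/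
theorem exists_red_of_good (H : NodalHyp hc P Q C C₁ C₂ g c n₀) {Z : Divisor K F} (hZ : 0 ≤ Z)
    (hgood : ∀ v ∈ Z.support, GoodPlace H v) :
    ∃ M₀ : ℕ, ∀ M : ℕ, M₀ ≤ M → ∃ (E₁ : Divisor k Ft1) (E₂ : Divisor k Ft2),
      Red H (Z + M • C) E₁ E₂ ∧
      (∀ Q' : Place k Ft1, E₁ Q' = dsum Z (disc1 H Q') + (M : ℤ) * C₁ Q') ∧
      (∀ Q' : Place k Ft2, E₂ Q' = dsum Z (disc2 H Q') + (M : ℤ) * C₂ Q') := by
  obtain ⟨M₀, hM₀⟩ := Red.of_good H hZ hgood
  refine ⟨M₀ * n₀ + n₀, fun M hM => ?_⟩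
  obtain ⟨r, rfl⟩ : ∃ r, M = M₀ * n₀ + r := ⟨M - M₀ * n₀, by omega⟩
  have hr : n₀ ≤ r := by omega
  have hR := (hM₀ M₀ le_rfl).add (Red.pencil H hr)
  refine ⟨push1 H Z + (M₀ * n₀) • C₁ + r • C₁, push2 H Z + (M₀ * n₀) • C₂ + r • C₂, ?_,
    fun Q' => ?_, fun Q' => ?_⟩
  · have e : Z + (M₀ * n₀ + r) • C = Z + (M₀ * n₀) • C + r • C := by
      rw [add_nsmul, add_assoc]
    rw [e]
    exact hR
  · rw [Finsupp.add_apply, Finsupp.add_apply, nsmul_div_apply, nsmul_div_apply,
      push1_eq_dsum hgood Q']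
    push_cast
    ring
  · rw [Finsupp.add_apply, Finsupp.add_apply, nsmul_div_apply, nsmul_div_apply,
      push2_eq_dsum hgood Q']
    push_cast
    ring

/-- **the `RedCalc` binder of `FF2.lean` holds for helper16's `Red`** -/
theorem redCalc (H : NodalHyp hc P Q C C₁ C₂ g c n₀) :
    RedCalc hc P Q C C₁ C₂ (Red H) (disc1 H) (disc2 H) where
  eq hR := hR.eq
  exact1 hR Q' :=
    H.exists_exact1 hR.node1 hR.node2 hR.deg1 (by have := hR.deg2; omega) Q'
  exact2 hR Q' :=
    H.exists_exact2 hR.node1 hR.node2 (by have := hR.deg1; omega) hR.deg2 Q'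
  of_good Z hZ hgood :=
    exists_red_of_good H hZ fun v hv => isGood_iff_goodPlace.mp (hgood v hv)
  disj11 Q' Q'' hne := Set.disjoint_left.mpr fun _ h h' => hne (disc1_unique h h')
  disj22 Q' Q'' hne := Set.disjoint_left.mpr fun _ h h' => hne (disc2_unique h h')
  disj12 Q' Q'' := Set.disjoint_left.mpr fun _ h h' => disc1_disc2_disjoint h h'

section Infinite

variable [Infinite k]

/-- the places of the pencil divisor are good -/
theorem goodPlace_of_mem_support_C (H : NodalHyp hc P Q C C₁ C₂ g c n₀) {v : Place K F}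
    (hv : v ∈ C.support) : GoodPlace H v := by
  have hCv : 1 ≤ C v := by
    have h0 : 0 ≤ C v := by simpa using Finsupp.le_def.mp H.C_nonneg v
    have hne : C v ≠ 0 := Finsupp.mem_support_iff.mp hv
    omega
  have hle : Finsupp.single v 1 + n₀ • C ≤ (n₀ + 1) • C := by
    rw [Finsupp.le_def]
    intro w
    rw [Finsupp.add_apply, nsmul_div_apply, nsmul_div_apply]
    push_cast
    by_cases hw : w = v
    · subst hw
      rw [Finsupp.single_eq_same]
      linarith
    · rw [Finsupp.single_eq_of_ne hw]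
      have h0 : 0 ≤ C w := by simpa using Finsupp.le_def.mp H.C_nonneg w
      linarith
  obtain ⟨A₁, A₂, hRA, -, -⟩ := (Red.pencil H (Nat.le_succ n₀)).sub
    (le_add_of_nonneg_left (Finsupp.single_nonneg.mpr zero_le_one)) hle
  exact ⟨A₁, A₂, hRA⟩

/-- the `hC` binder of `FF2.ord_red_eq_sum_ball2` -/
theorem isGood_of_mem_support_C (H : NodalHyp hc P Q C C₁ C₂ g c n₀) :
    ∀ v ∈ C.support, IsGood (disc1 H) (disc2 H) v :=
  fun _ hv => isGood_iff_goodPlace.mpr (goodPlace_of_mem_support_C H hv)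

variable {Zt : Type*} {πF : Place K F → Zt} {π1 : Place k Ft1 → Zt} {π2 : Place k Ft2 → Zt}
  {fib1 : Zt → Finset (Place k Ft1)} {fib2 : Zt → Finset (Place k Ft2)}

/-- the places of the first component over non-node values of the chart -/
def smooth1 (P : ι → Place k Ft1) (Q : ι → Place k Ft2) (π1 : Place k Ft1 → Zt)
    (π2 : Place k Ft2 → Zt) : Set (Place k Ft1) :=
  {Q' | (∀ j, π1 (P j) ≠ π1 Q') ∧ (∀ j, π2 (Q j) ≠ π1 Q')}

/-- the places of the second component over non-node values of the chart -/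
def smooth2 (P : ι → Place k Ft1) (Q : ι → Place k Ft2) (π1 : Place k Ft1 → Zt)
    (π2 : Place k Ft2 → Zt) : Set (Place k Ft2) :=
  {Q' | (∀ j, π1 (P j) ≠ π2 Q') ∧ (∀ j, π2 (Q j) ≠ π2 Q')}

/-- **THE FIBRE FORMULA ON THE NODAL FRAME, in the binder form of `ROfSurj2` / `FibreHyp2`**:
from the norm / fibre-sum package `NormFibre` of a chart alone. -/
theorem ff2_of_normFibre (H : NodalHyp hc P Q C C₁ C₂ g c n₀)
    (NF : NormFibre (R1 := R1) (R2 := R2) P Q (disc1 H) (disc2 H) πF π1 π2 fib1 fib2) :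
    ROfSurj2.FF2 R1 R2 (disc1 H) (disc2 H) (smooth1 P Q π1 π2) (smooth2 P Q π1 π2) := by
  intro y h1 h2 hy1 hy2 Dy hDy
  obtain ⟨hA, hB⟩ := ord_red_eq_sum_ball2 H (redCalc H) NF (isGood_of_mem_support_C H) h1 h2
    hy1 hy2 hDy
  exact ⟨fun Q' hQ' => hA Q' hQ'.1 hQ'.2, fun Q' hQ' => hB Q' hQ'.1 hQ'.2⟩

end Infinite

end Fermat.Agent.GS.Nodal.FF2Plug

end
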