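/-
GATE-S / node [INST²](a): THE FIBRE FORMULA ON THE NODAL FRAME WITHOUT NORMS (helper75).

`FF2.lean` derives the fibre formula for all common units of the two Gauss valuations from the
`Red` calculus and the fibre-sum identity `NormFibre.norm` of a chart (norm to the line of the
chart + Gauss' lemma).  This file replaces `NormFibre` by a much weaker binder:

  `Kill1 R1 R2 d1 d2 Q' v` : there is a function `T`, integral for both valuations, which vanishes
  at `v`, whose poles are good places outside the disc of `Q'`, and whose first reduction is a unit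
  at `Q'`   (on the modular frame: `T = (j - j(v)) / (j - a)`).

If every BAD place `v` (a place in no residue disc) has such a function for the smooth place `Q'`,
then for EVERY common unit `u` (zeros and poles anywhere, reductions arbitrary at the nodes)

  `ord_{Q'} (red₁ u) = ∑_{v ∈ d1 Q'} ord_v u`.

Proof.  Upper bound: let `Pl`, `Zg` be the good parts of the pole and zero divisors of `u`, `T` the
product of the kill functions of the bad zeros of `u`, `H` its pole divisor.  Take `x₀ ∈ L(Pl + M C)`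
whose reduction has the EXACT pole order of `glued (r_* Pl + M C₁, …)` at `Q'` (`RedCalc.exact1`).
Then `x₀ T / u ∈ L(Zg + H + M C)` (the bad zeros of `u` are killed by `T`, its bad poles only help),
whose pair reduction is `glued (r_* Zg + r_* H + M C₁, …)`; comparing pole orders at `Q'` gives
`ord_{Q'} (red₁ u) ≤ (r_* Zg - r_* Pl)(Q')`.  Lower bound: the upper bound for `u⁻¹`.

No chart, no norm, no Gauss lemma, no `NodalHyp`, no infinite residue field: only `RedCalc`.
-/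
import Mathlib
import Fermat.Agent.GS.Nodal.FF2
import Fermat.Agent.GS.Nodal.ROfSurj2
import Fermat.Agent.GS.Nodal.FF2Plug

set_option autoImplicit false

noncomputable section

open AlgebraicCurve Classical

namespace Fermat.Agent.GS.Nodal.FF2Kill

open Fermat.Agent.RRh45 Fermat.Agent.GJ.S37MinDiv Fermat.Agent.GJ.J1 Fermat.Agent.GK.MultiVal
open Fermat.Agent.GK.NodalGraded Fermat.Agent.GS.Nodal.LSR2 Fermat.Agent.GS.Nodal.FF2

variable {K F k Ft1 Ft2 : Type*} [Field K] [Field F] [Algebra K F] [Field k]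
  [Field Ft1] [Algebra k Ft1] [Field Ft2] [Algebra k Ft2]
variable {R1 : RedData K F k Ft1} {R2 : RedData K F k Ft2}
variable {ι : Type*} {P : ι → Place k Ft1} {Q : ι → Place k Ft2}

/-! ### the kill binders -/

/-- a function killing the place `v` relative to the place `Q'` of the first component -/
def Kill1 (R1 : RedData K F k Ft1) (R2 : RedData K F k Ft2)
    (d1 : Place k Ft1 → Set (Place K F)) (d2 : Place k Ft2 → Set (Place K F))
    (Q' : Place k Ft1) (v : Place K F) : Prop :=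
  ∃ (T : F) (t1 : T ∈ R1.Rw) (_ : T ∈ R2.Rw), 0 < v.ord T ∧
    (∀ w : Place K F, w.ord T < 0 → IsGood d1 d2 w ∧ w ∉ d1 Q') ∧
    R1.red ⟨T, t1⟩ ≠ 0 ∧ Q'.ord (R1.red ⟨T, t1⟩) = 0

/-- a function killing the place `v` relative to the place `Q'` of the second component -/
def Kill2 (R1 : RedData K F k Ft1) (R2 : RedData K F k Ft2)
    (d1 : Place k Ft1 → Set (Place K F)) (d2 : Place k Ft2 → Set (Place K F))
    (Q' : Place k Ft2) (v : Place K F) : Prop :=
  ∃ (T : F) (_ : T ∈ R1.Rw) (t2 : T ∈ R2.Rw), 0 < v.ord T ∧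
    (∀ w : Place K F, w.ord T < 0 → IsGood d1 d2 w ∧ w ∉ d2 Q') ∧
    R2.red ⟨T, t2⟩ ≠ 0 ∧ Q'.ord (R2.red ⟨T, t2⟩) = 0

/-! ### elementary facts -/

theorem ord_pow' {L E : Type*} [Field L] [Field E] [Algebra L E] (v : Place L E) (f : E)
    (n : ℕ) : v.ord (f ^ n) = n * v.ord f := by
  rw [← zpow_natCast, v.ord_zpow]

theorem red_pow_mul1 (R : RedData K F k Ft1) {a b : F} (ha : a ∈ R.Rw) (hb : b ∈ R.Rw) (n : ℕ) :
    R.red ⟨a ^ n * b, mul_mem (pow_mem ha n) hb⟩ = R.red ⟨a, ha⟩ ^ n * R.red ⟨b, hb⟩ := by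
  rw [← map_pow, ← map_mul]
  rfl

theorem red_pow_mul2 (R : RedData K F k Ft2) {a b : F} (ha : a ∈ R.Rw) (hb : b ∈ R.Rw) (n : ℕ) :
    R.red ⟨a ^ n * b, mul_mem (pow_mem ha n) hb⟩ = R.red ⟨a, ha⟩ ^ n * R.red ⟨b, hb⟩ := by
  rw [← map_pow, ← map_mul]
  rfl

/-- the bad part of the zero divisor -/
def badZeroPart {α : Type*} (good : α → Prop) (D : α →₀ ℤ) : α →₀ ℤ :=
  goodZeroPart (fun v => ¬ good v) D

/-- the good part of the pole divisor -/
def goodPolePart {α : Type*} (good : α → Prop) (D : α →₀ ℤ) : α →₀ ℤ :=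
  goodZeroPart good (-D)

theorem goodPolePart_apply {α : Type*} (good : α → Prop) (D : α →₀ ℤ) (v : α) :
    goodPolePart good D v = if D v < 0 ∧ good v then -D v else 0 := by
  unfold goodPolePart
  rw [goodZeroPart_apply, Finsupp.neg_apply]
  by_cases h : D v < 0 ∧ good v
  · rw [if_pos h, if_pos ⟨by omega, h.2⟩]
  · rw [if_neg h, if_neg fun h' => h ⟨by omega, h'.2⟩]

theorem badZeroPart_apply {α : Type*} (good : α → Prop) (D : α →₀ ℤ) (v : α) :
    badZeroPart good D v = if 0 < D v ∧ ¬ good v then D v else 0 := by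
  unfold badZeroPart
  rw [goodZeroPart_apply]
  by_cases h : 0 < D v ∧ ¬ good v
  · rw [if_pos h, if_pos h]
  · rw [if_neg h, if_neg h]

/-! ### the product of the kill functions -/

section Killer

variable {d1 : Place k Ft1 → Set (Place K F)} {d2 : Place k Ft2 → Set (Place K F)}

/-- a function vanishing to the prescribed orders on a bad effective divisor, with good poles
outside the disc of `Q'` and first reduction a unit at `Q'` -/
theorem exists_killer1 (Q' : Place k Ft1)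
    (hk : ∀ v : Place K F, ¬ IsGood d1 d2 v → Kill1 R1 R2 d1 d2 Q' v) (B : Divisor K F)
    (hB : 0 ≤ B) (hbad : ∀ v ∈ B.support, ¬ IsGood d1 d2 v) :
    ∃ (T : F) (t1 : T ∈ R1.Rw) (_ : T ∈ R2.Rw), R1.red ⟨T, t1⟩ ≠ 0 ∧
      Q'.ord (R1.red ⟨T, t1⟩) = 0 ∧
      (∀ w : Place K F, w.ord T < 0 → IsGood d1 d2 w ∧ w ∉ d1 Q') ∧
      ∀ v : Place K F, ¬ IsGood d1 d2 v → B v ≤ v.ord T := by
  induction B using Finsupp.induction with
  | zero =>
    refine ⟨1, one_mem _, one_mem _, ?_, ?_, ?_, ?_⟩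
    · have e : (⟨1, one_mem _⟩ : R1.Rw) = 1 := rfl
      rw [e, map_one]
      exact one_ne_zero
    · have e : (⟨1, one_mem _⟩ : R1.Rw) = 1 := rfl
      rw [e, map_one, Q'.ord_one]
    · intro w hw
      rw [w.ord_one] at hw
      exact absurd hw (lt_irrefl _)
    · intro v _
      rw [v.ord_one]
      rfl
  | single_add a b f haf hb ih =>
    have hfa : f a = 0 := Finsupp.notMem_support_iff.mp haf
    have hb0 : 0 ≤ b := by
      have := Finsupp.le_def.mp hB a
      simpa [hfa] using this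
    have hf0 : 0 ≤ f := by
      rw [Finsupp.le_def]
      intro w
      by_cases hw : w = a
      · subst hw; simp [hfa]
      · have := Finsupp.le_def.mp hB w
        simpa [Finsupp.single_eq_of_ne hw] using this
    have hba : ¬ IsGood d1 d2 a := by
      apply hbad
      rw [Finsupp.mem_support_iff, Finsupp.add_apply, Finsupp.single_eq_same, hfa, add_zero]
      exact hb
    have hbf : ∀ v ∈ f.support, ¬ IsGood d1 d2 v := by
      intro v hv
      apply hbad
      have hva : v ≠ a := by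
        rintro rfl
        exact haf hv
      rw [Finsupp.mem_support_iff, Finsupp.add_apply, Finsupp.single_eq_of_ne hva, zero_add]
      exact Finsupp.mem_support_iff.mp hv
    obtain ⟨Tf, f1, f2, hf1, hfQ, hfpole, hfbad⟩ := ih hf0 hbf
    obtain ⟨Ta, a1, a2, haord, hapole, ha1, haQ⟩ := hk a hba
    obtain ⟨n, rfl⟩ : ∃ n : ℕ, b = n := ⟨b.toNat, (Int.toNat_of_nonneg hb0).symm⟩
    have hTa0 : Ta ≠ 0 := by
      rintro rfl
      exact ha1 (map_zero R1.red)
    have hTf0 : Tf ≠ 0 := by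
      rintro rfl
      exact hf1 (map_zero R1.red)
    have hord : ∀ w : Place K F, w.ord (Ta ^ n * Tf) = n * w.ord Ta + w.ord Tf := fun w => by
      rw [w.ord_mul (pow_ne_zero n hTa0) hTf0, ord_pow']
    refine ⟨Ta ^ n * Tf, mul_mem (pow_mem a1 n) f1, mul_mem (pow_mem a2 n) f2, ?_, ?_, ?_, ?_⟩
    · rw [red_pow_mul1 R1 a1 f1 n]
      exact mul_ne_zero (pow_ne_zero n ha1) hf1
    · rw [red_pow_mul1 R1 a1 f1 n, Q'.ord_mul (pow_ne_zero n ha1) hf1, ord_pow', haQ, hfQ]
      ring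
    · intro w hw
      rw [hord w] at hw
      by_cases hwa : w.ord Ta < 0
      · exact hapole w hwa
      · refine hfpole w ?_
        have : 0 ≤ (n : ℤ) * w.ord Ta := mul_nonneg (Int.natCast_nonneg n) (by omega)
        omega
    · intro v hv
      rw [hord v, Finsupp.add_apply]
      have h1 : 0 ≤ v.ord Ta := by
        by_contra hneg
        exact hv (hapole v (by omega)).1
      have h2 := hfbad v hv
      by_cases hva : v = a
      · subst hva
        rw [Finsupp.single_eq_same, hfa]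
        have h3 : (n : ℤ) * 1 ≤ (n : ℤ) * v.ord Ta :=
          mul_le_mul_of_nonneg_left (by omega) (Int.natCast_nonneg n)
        rw [hfa] at h2
        omega
      · rw [Finsupp.single_eq_of_ne hva]
        have : 0 ≤ (n : ℤ) * v.ord Ta := mul_nonneg (Int.natCast_nonneg n) h1
        omega

/-- a function vanishing to the prescribed orders on a bad effective divisor, with good poles
outside the disc of `Q'` and second reduction a unit at `Q'` -/
theorem exists_killer2 (Q' : Place k Ft2)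
    (hk : ∀ v : Place K F, ¬ IsGood d1 d2 v → Kill2 R1 R2 d1 d2 Q' v) (B : Divisor K F)
    (hB : 0 ≤ B) (hbad : ∀ v ∈ B.support, ¬ IsGood d1 d2 v) :
    ∃ (T : F) (_ : T ∈ R1.Rw) (t2 : T ∈ R2.Rw), R2.red ⟨T, t2⟩ ≠ 0 ∧
      Q'.ord (R2.red ⟨T, t2⟩) = 0 ∧
      (∀ w : Place K F, w.ord T < 0 → IsGood d1 d2 w ∧ w ∉ d2 Q') ∧
      ∀ v : Place K F, ¬ IsGood d1 d2 v → B v ≤ v.ord T := by
  induction B using Finsupp.induction with
  | zero =>
    refine ⟨1, one_mem _, one_mem _, ?_, ?_, ?_, ?_⟩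
    · have e : (⟨1, one_mem _⟩ : R2.Rw) = 1 := rfl
      rw [e, map_one]
      exact one_ne_zero
    · have e : (⟨1, one_mem _⟩ : R2.Rw) = 1 := rfl
      rw [e, map_one, Q'.ord_one]
    · intro w hw
      rw [w.ord_one] at hw
      exact absurd hw (lt_irrefl _)
    · intro v _
      rw [v.ord_one]
      rfl
  | single_add a b f haf hb ih =>
    have hfa : f a = 0 := Finsupp.notMem_support_iff.mp haf
    have hb0 : 0 ≤ b := by
      have := Finsupp.le_def.mp hB a
      simpa [hfa] using this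
    have hf0 : 0 ≤ f := by
      rw [Finsupp.le_def]
      intro w
      by_cases hw : w = a
      · subst hw; simp [hfa]
      · have := Finsupp.le_def.mp hB w
        simpa [Finsupp.single_eq_of_ne hw] using this
    have hba : ¬ IsGood d1 d2 a := by
      apply hbad
      rw [Finsupp.mem_support_iff, Finsupp.add_apply, Finsupp.single_eq_same, hfa, add_zero]
      exact hb
    have hbf : ∀ v ∈ f.support, ¬ IsGood d1 d2 v := by
      intro v hv
      apply hbad
      have hva : v ≠ a := by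
        rintro rfl
        exact haf hv
      rw [Finsupp.mem_support_iff, Finsupp.add_apply, Finsupp.single_eq_of_ne hva, zero_add]
      exact Finsupp.mem_support_iff.mp hv
    obtain ⟨Tf, f1, f2, hf1, hfQ, hfpole, hfbad⟩ := ih hf0 hbf
    obtain ⟨Ta, a1, a2, haord, hapole, ha1, haQ⟩ := hk a hba
    obtain ⟨n, rfl⟩ : ∃ n : ℕ, b = n := ⟨b.toNat, (Int.toNat_of_nonneg hb0).symm⟩
    have hTa0 : Ta ≠ 0 := by
      rintro rfl
      exact ha1 (map_zero R2.red)
    have hTf0 : Tf ≠ 0 := by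
      rintro rfl
      exact hf1 (map_zero R2.red)
    have hord : ∀ w : Place K F, w.ord (Ta ^ n * Tf) = n * w.ord Ta + w.ord Tf := fun w => by
      rw [w.ord_mul (pow_ne_zero n hTa0) hTf0, ord_pow']
    refine ⟨Ta ^ n * Tf, mul_mem (pow_mem a1 n) f1, mul_mem (pow_mem a2 n) f2, ?_, ?_, ?_, ?_⟩
    · rw [red_pow_mul2 R2 a2 f2 n]
      exact mul_ne_zero (pow_ne_zero n ha1) hf1
    · rw [red_pow_mul2 R2 a2 f2 n, Q'.ord_mul (pow_ne_zero n ha1) hf1, ord_pow', haQ, hfQ]
      ring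
    · intro w hw
      rw [hord w] at hw
      by_cases hwa : w.ord Ta < 0
      · exact hapole w hwa
      · refine hfpole w ?_
        have : 0 ≤ (n : ℤ) * w.ord Ta := mul_nonneg (Int.natCast_nonneg n) (by omega)
        omega
    · intro v hv
      rw [hord v, Finsupp.add_apply]
      have h1 : 0 ≤ v.ord Ta := by
        by_contra hneg
        exact hv (hapole v (by omega)).1
      have h2 := hfbad v hv
      by_cases hva : v = a
      · subst hva
        rw [Finsupp.single_eq_same, hfa]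
        have h3 : (n : ℤ) * 1 ≤ (n : ℤ) * v.ord Ta :=
          mul_le_mul_of_nonneg_left (by omega) (Int.natCast_nonneg n)
        rw [hfa] at h2
        omega
      · rw [Finsupp.single_eq_of_ne hva]
        have : 0 ≤ (n : ℤ) * v.ord Ta := mul_nonneg (Int.natCast_nonneg n) h1
        omega

end Killer

/-! ### the upper bound -/

section Upper

variable [HasPrincipalDivisors K F]
variable {hc : RedCompat R1 R2} {C : Divisor K F} {C₁ : Divisor k Ft1} {C₂ : Divisor k Ft2}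
  {RedP : Divisor K F → Divisor k Ft1 → Divisor k Ft2 → Prop}
  {d1 : Place k Ft1 → Set (Place K F)} {d2 : Place k Ft2 → Set (Place K F)}

omit [HasPrincipalDivisors K F] in
/-- the divisor inequality behind the upper bound -/
theorem key_le (good : Place K F → Prop) (Du DT : Divisor K F)
    (hTpole : ∀ w : Place K F, DT w < 0 → good w)
    (hTbad : ∀ v : Place K F, ¬ good v → badZeroPart good Du v ≤ DT v) (X : Divisor K F) :
    -DT + (goodPolePart good Du + X + Du) ≤ goodZeroPart good Du + polePart DT + X := by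
  rw [Finsupp.le_def]
  intro v
  simp only [Finsupp.add_apply, Finsupp.neg_apply]
  have h1 := goodPolePart_apply good Du v
  have h2 := goodZeroPart_apply good Du v
  have h3 := polePart_apply DT v
  have h4 := badZeroPart_apply good Du v
  by_cases hg : good v
  · rw [h1, h2, h3]
    by_cases hneg : Du v < 0
    · rw [if_pos ⟨hneg, hg⟩, if_neg fun h => by omega]
      split_ifs <;> omega
    · rw [if_neg fun h => hneg h.1]
      by_cases hpos : 0 < Du v
      · rw [if_pos ⟨hpos, hg⟩]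
        split_ifs <;> omega
      · rw [if_neg fun h => hpos h.1]
        split_ifs <;> omega
  · have h5 := hTbad v hg
    have h6 : 0 ≤ DT v := by
      by_contra hneg
      exact hg (hTpole v (by omega))
    rw [h1, h2, h3, if_neg fun h => hg h.2, if_neg fun h => hg h.2, if_neg (by omega)]
    rw [h4] at h5
    by_cases hpos : 0 < Du v
    · rw [if_pos ⟨hpos, hg⟩] at h5
      omega
    · omega

/-- **upper bound, first component.** For EVERY common unit `u` and every place `Q'` of the first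
component relative to which all bad places can be killed:
`ord_{Q'} (red₁ u) ≤ ∑_{v ∈ d1 Q'} ord_v u`. -/
theorem ord_red_le_dsum1 (RC : RedCalc hc P Q C C₁ C₂ RedP d1 d2) {u : F} (h1 : u ∈ R1.Rw)
    (h2 : u ∈ R2.Rw) (hy1 : R1.red ⟨u, h1⟩ ≠ 0) (hy2 : R2.red ⟨u, h2⟩ ≠ 0) {Du : Divisor K F}
    (hDu : ∀ v : Place K F, Du v = v.ord u) (Q' : Place k Ft1)
    (hk : ∀ v : Place K F, ¬ IsGood d1 d2 v → Kill1 R1 R2 d1 d2 Q' v) :
    Q'.ord (R1.red ⟨u, h1⟩) ≤ dsum Du (d1 Q') := by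
  obtain ⟨T, t1, t2, hT1, hTQ, hTpole, hTbad⟩ := exists_killer1 Q' hk
    (badZeroPart (IsGood d1 d2) Du) (goodZeroPart_nonneg _ Du)
    (fun v hv => good_of_mem_support_goodZeroPart (good := fun v => ¬ IsGood d1 d2 v) hv)
  have hT0 : T ≠ 0 := by
    rintro rfl
    exact hT1 (map_zero R1.red)
  obtain ⟨DT, hDT, -⟩ := HasPrincipalDivisors.exists_divisor (K := K) T hT0
  -- the three good effective divisors
  have hPl_good : ∀ v ∈ (goodPolePart (IsGood d1 d2) Du).support, IsGood d1 d2 v := fun v hv =>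
    good_of_mem_support_goodZeroPart hv
  have hZH0 : 0 ≤ goodZeroPart (IsGood d1 d2) Du + polePart DT :=
    add_nonneg (goodZeroPart_nonneg _ Du) (polePart_nonneg DT)
  have hH_pole : ∀ v ∈ (polePart DT).support, IsGood d1 d2 v ∧ v ∉ d1 Q' := fun v hv =>
    hTpole v (by rw [← hDT v]; exact neg_of_mem_support_polePart hv)
  have hZH_good : ∀ v ∈ (goodZeroPart (IsGood d1 d2) Du + polePart DT).support,
      IsGood d1 d2 v := by
    intro v hv
    by_cases hz : v ∈ (goodZeroPart (IsGood d1 d2) Du).support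
    · exact good_of_mem_support_goodZeroPart hz
    · refine (hH_pole v ?_).1
      rw [Finsupp.mem_support_iff, Finsupp.add_apply] at hv
      rw [Finsupp.notMem_support_iff] at hz
      rw [Finsupp.mem_support_iff]
      intro h0
      exact hv (by rw [hz, h0, add_zero])
  obtain ⟨M₁, hM₁⟩ := RC.of_good (goodPolePart (IsGood d1 d2) Du) (goodZeroPart_nonneg _ _)
    hPl_good
  obtain ⟨M₂, hM₂⟩ := RC.of_good _ hZH0 hZH_good
  obtain ⟨E₁, E₂, hRed, hE₁, -⟩ := hM₁ (max M₁ M₂) (le_max_left _ _)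
  obtain ⟨E₁', E₂', hRed', hE₁', -⟩ := hM₂ (max M₁ M₂) (le_max_right _ _)
  obtain ⟨w, hw, hw0, hword⟩ := RC.exact1 hRed Q'
  rw [← RC.eq hRed] at hw
  -- divide by `u`
  have hz : ((R1.red ⟨u, h1⟩)⁻¹ * w.1, (R2.red ⟨u, h2⟩)⁻¹ * w.2) ∈
      redSpace2 hc (goodPolePart (IsGood d1 d2) Du + max M₁ M₂ • C + Du) := by
    refine (mul_mem_redSpace2_iff hc h1 h2 hy1 hy2 hDu _ _).mp ?_
    have e : (R1.red ⟨u, h1⟩, R2.red ⟨u, h2⟩) *
        ((R1.red ⟨u, h1⟩)⁻¹ * w.1, (R2.red ⟨u, h2⟩)⁻¹ * w.2) = w := by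
      refine Prod.ext ?_ ?_
      · show R1.red ⟨u, h1⟩ * ((R1.red ⟨u, h1⟩)⁻¹ * w.1) = w.1
        rw [mul_inv_cancel_left₀ hy1]
      · show R2.red ⟨u, h2⟩ * ((R2.red ⟨u, h2⟩)⁻¹ * w.2) = w.2
        rw [mul_inv_cancel_left₀ hy2]
    rw [e]
    exact hw
  -- multiply by `T`
  have hTmem : (R1.red ⟨T, t1⟩, R2.red ⟨T, t2⟩) ∈ redSpace2 hc (-DT) := by
    refine ⟨T, t1, t2, ?_, rfl, rfl⟩
    rw [mem_riemannRochSpace_iff]
    intro v
    right
    rw [Finsupp.neg_apply, neg_neg, hDT v]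
  have hprod := mul_mem_redSpace2 hc hTmem hz
  have hle := key_le (IsGood d1 d2) Du DT
    (fun w hw' => (hTpole w (by rw [← hDT w]; exact hw')).1)
    (fun v hv => by rw [hDT v]; exact hTbad v hv) (max M₁ M₂ • C)
  have hfin := redSpace2_mono hc hle hprod
  rw [RC.eq hRed'] at hfin
  have hmem := hfin.1
  rw [Prod.fst_mul, mem_riemannRochSpace_iff] at hmem
  have hinv : (R1.red ⟨u, h1⟩)⁻¹ ≠ 0 := inv_ne_zero hy1
  have hne2 : (R1.red ⟨u, h1⟩)⁻¹ * w.1 ≠ 0 := mul_ne_zero hinv hw0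
  have hne : R1.red ⟨T, t1⟩ * ((R1.red ⟨u, h1⟩)⁻¹ * w.1) ≠ 0 := mul_ne_zero hT1 hne2
  have h3 := (hmem Q').resolve_left hne
  rw [Q'.ord_mul hT1 hne2, Q'.ord_mul hinv hw0, Q'.ord_inv, hTQ, hword, hE₁ Q', hE₁' Q',
    dsum_add] at h3
  -- the pole divisor of `T` does not meet the disc of `Q'`
  have hH0 : dsum (polePart DT) (d1 Q') = 0 := by
    unfold dsum
    refine Finset.sum_eq_zero fun v hv => ?_
    rw [Finset.mem_filter] at hv
    exact absurd hv.2 (hH_pole v hv.1).2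
  have h4 : dsum Du (d1 Q') = dsum (goodZeroPart (IsGood d1 d2) Du) (d1 Q') -
      dsum (goodPolePart (IsGood d1 d2) Du) (d1 Q') := by
    rw [← dsum_sub]
    refine dsum_congr_on fun v hv => ?_
    have hg : IsGood d1 d2 v := Or.inl ⟨Q', hv⟩
    rw [Finsupp.sub_apply, goodZeroPart_apply, goodPolePart_apply]
    by_cases hpos : 0 < Du v
    · rw [if_pos ⟨hpos, hg⟩, if_neg fun h => by have := h.1; omega]
      omega
    · rw [if_neg fun h => hpos h.1]
      by_cases hneg : Du v < 0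
      · rw [if_pos ⟨hneg, hg⟩]; omega
      · rw [if_neg fun h => hneg h.1]; omega
  rw [h4]
  linarith

/-- **upper bound, second component.** For EVERY common unit `u` and every place `Q'` of the second
component relative to which all bad places can be killed:
`ord_{Q'} (red₂ u) ≤ ∑_{v ∈ d2 Q'} ord_v u`. -/
theorem ord_red_le_dsum2 (RC : RedCalc hc P Q C C₁ C₂ RedP d1 d2) {u : F} (h1 : u ∈ R1.Rw)
    (h2 : u ∈ R2.Rw) (hy1 : R1.red ⟨u, h1⟩ ≠ 0) (hy2 : R2.red ⟨u, h2⟩ ≠ 0) {Du : Divisor K F}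
    (hDu : ∀ v : Place K F, Du v = v.ord u) (Q' : Place k Ft2)
    (hk : ∀ v : Place K F, ¬ IsGood d1 d2 v → Kill2 R1 R2 d1 d2 Q' v) :
    Q'.ord (R2.red ⟨u, h2⟩) ≤ dsum Du (d2 Q') := by
  obtain ⟨T, t1, t2, hT1, hTQ, hTpole, hTbad⟩ := exists_killer2 Q' hk
    (badZeroPart (IsGood d1 d2) Du) (goodZeroPart_nonneg _ Du)
    (fun v hv => good_of_mem_support_goodZeroPart (good := fun v => ¬ IsGood d1 d2 v) hv)
  have hT0 : T ≠ 0 := by
    rintro rfl
    exact hT1 (map_zero R2.red)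
  obtain ⟨DT, hDT, -⟩ := HasPrincipalDivisors.exists_divisor (K := K) T hT0
  -- the three good effective divisors
  have hPl_good : ∀ v ∈ (goodPolePart (IsGood d1 d2) Du).support, IsGood d1 d2 v := fun v hv =>
    good_of_mem_support_goodZeroPart hv
  have hZH0 : 0 ≤ goodZeroPart (IsGood d1 d2) Du + polePart DT :=
    add_nonneg (goodZeroPart_nonneg _ Du) (polePart_nonneg DT)
  have hH_pole : ∀ v ∈ (polePart DT).support, IsGood d1 d2 v ∧ v ∉ d2 Q' := fun v hv =>
    hTpole v (by rw [← hDT v]; exact neg_of_mem_support_polePart hv)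
  have hZH_good : ∀ v ∈ (goodZeroPart (IsGood d1 d2) Du + polePart DT).support,
      IsGood d1 d2 v := by
    intro v hv
    by_cases hz : v ∈ (goodZeroPart (IsGood d1 d2) Du).support
    · exact good_of_mem_support_goodZeroPart hz
    · refine (hH_pole v ?_).1
      rw [Finsupp.mem_support_iff, Finsupp.add_apply] at hv
      rw [Finsupp.notMem_support_iff] at hz
      rw [Finsupp.mem_support_iff]
      intro h0
      exact hv (by rw [hz, h0, add_zero])
  obtain ⟨M₁, hM₁⟩ := RC.of_good (goodPolePart (IsGood d1 d2) Du) (goodZeroPart_nonneg _ _)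
    hPl_good
  obtain ⟨M₂, hM₂⟩ := RC.of_good _ hZH0 hZH_good
  obtain ⟨E₁, E₂, hRed, -, hE₂⟩ := hM₁ (max M₁ M₂) (le_max_left _ _)
  obtain ⟨E₁', E₂', hRed', -, hE₂'⟩ := hM₂ (max M₁ M₂) (le_max_right _ _)
  obtain ⟨w, hw, hw0, hword⟩ := RC.exact2 hRed Q'
  rw [← RC.eq hRed] at hw
  -- divide by `u`
  have hz : ((R1.red ⟨u, h1⟩)⁻¹ * w.1, (R2.red ⟨u, h2⟩)⁻¹ * w.2) ∈
      redSpace2 hc (goodPolePart (IsGood d1 d2) Du + max M₁ M₂ • C + Du) := by
    refine (mul_mem_redSpace2_iff hc h1 h2 hy1 hy2 hDu _ _).mp ?_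
    have e : (R1.red ⟨u, h1⟩, R2.red ⟨u, h2⟩) *
        ((R1.red ⟨u, h1⟩)⁻¹ * w.1, (R2.red ⟨u, h2⟩)⁻¹ * w.2) = w := by
      refine Prod.ext ?_ ?_
      · show R1.red ⟨u, h1⟩ * ((R1.red ⟨u, h1⟩)⁻¹ * w.1) = w.1
        rw [mul_inv_cancel_left₀ hy1]
      · show R2.red ⟨u, h2⟩ * ((R2.red ⟨u, h2⟩)⁻¹ * w.2) = w.2
        rw [mul_inv_cancel_left₀ hy2]
    rw [e]
    exact hw
  -- multiply by `T`
  have hTmem : (R1.red ⟨T, t1⟩, R2.red ⟨T, t2⟩) ∈ redSpace2 hc (-DT) := by
    refine ⟨T, t1, t2, ?_, rfl, rfl⟩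
    rw [mem_riemannRochSpace_iff]
    intro v
    right
    rw [Finsupp.neg_apply, neg_neg, hDT v]
  have hprod := mul_mem_redSpace2 hc hTmem hz
  have hle := key_le (IsGood d1 d2) Du DT
    (fun w hw' => (hTpole w (by rw [← hDT w]; exact hw')).1)
    (fun v hv => by rw [hDT v]; exact hTbad v hv) (max M₁ M₂ • C)
  have hfin := redSpace2_mono hc hle hprod
  rw [RC.eq hRed'] at hfin
  have hmem := hfin.2.1
  rw [Prod.snd_mul, mem_riemannRochSpace_iff] at hmem
  have hinv : (R2.red ⟨u, h2⟩)⁻¹ ≠ 0 := inv_ne_zero hy2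
  have hne2 : (R2.red ⟨u, h2⟩)⁻¹ * w.2 ≠ 0 := mul_ne_zero hinv hw0
  have hne : R2.red ⟨T, t2⟩ * ((R2.red ⟨u, h2⟩)⁻¹ * w.2) ≠ 0 := mul_ne_zero hT1 hne2
  have h3 := (hmem Q').resolve_left hne
  rw [Q'.ord_mul hT1 hne2, Q'.ord_mul hinv hw0, Q'.ord_inv, hTQ, hword, hE₂ Q', hE₂' Q',
    dsum_add] at h3
  -- the pole divisor of `T` does not meet the disc of `Q'`
  have hH0 : dsum (polePart DT) (d2 Q') = 0 := by
    unfold dsum
    refine Finset.sum_eq_zero fun v hv => ?_
    rw [Finset.mem_filter] at hv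
    exact absurd hv.2 (hH_pole v hv.1).2
  have h4 : dsum Du (d2 Q') = dsum (goodZeroPart (IsGood d1 d2) Du) (d2 Q') -
      dsum (goodPolePart (IsGood d1 d2) Du) (d2 Q') := by
    rw [← dsum_sub]
    refine dsum_congr_on fun v hv => ?_
    have hg : IsGood d1 d2 v := Or.inr ⟨Q', hv⟩
    rw [Finsupp.sub_apply, goodZeroPart_apply, goodPolePart_apply]
    by_cases hpos : 0 < Du v
    · rw [if_pos ⟨hpos, hg⟩, if_neg fun h => by have := h.1; omega]
      omega
    · rw [if_neg fun h => hpos h.1]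
      by_cases hneg : Du v < 0
      · rw [if_pos ⟨hneg, hg⟩]; omega
      · rw [if_neg fun h => hneg h.1]; omega
  rw [h4]
  linarith

end Upper

/-! ### the fibre formula -/

section Main

/-- the inverse of a unit of a valuation ring of the frame and its reduction -/
theorem exists_inv_mem {Ft : Type*} [Field Ft] [Algebra k Ft] (R : RedData K F k Ft) {u : F}
    (h : u ∈ R.Rw) (hy : R.red ⟨u, h⟩ ≠ 0) :
    ∃ hi : u⁻¹ ∈ R.Rw, R.red ⟨u⁻¹, hi⟩ = (R.red ⟨u, h⟩)⁻¹ := by
  have hu0 : u ≠ 0 := by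
    rintro rfl
    exact hy (map_zero R.red)
  have hun : IsUnit (⟨u, h⟩ : R.Rw) := by
    by_contra hnu
    exact hy ((R.red_eq_zero_iff _).mpr ((IsLocalRing.mem_maximalIdeal _).mpr hnu))
  obtain ⟨e, he⟩ := hun
  have hmul : u * ((↑e⁻¹ : R.Rw) : F) = 1 := by
    have := congrArg Subtype.val (Units.mul_inv e)
    rw [he] at this
    exact this
  have hi : u⁻¹ ∈ R.Rw := by
    rw [← eq_inv_of_mul_eq_one_right hmul]
    exact (↑e⁻¹ : R.Rw).2
  refine ⟨hi, eq_inv_of_mul_eq_one_left ?_⟩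
  rw [← map_mul]
  have e1 : (⟨u⁻¹, hi⟩ : R.Rw) * ⟨u, h⟩ = 1 := by
    apply Subtype.ext
    show u⁻¹ * u = 1
    exact inv_mul_cancel₀ hu0
  rw [e1, map_one]

variable [HasPrincipalDivisors K F]
variable {hc : RedCompat R1 R2} {C : Divisor K F} {C₁ : Divisor k Ft1} {C₂ : Divisor k Ft2}
  {RedP : Divisor K F → Divisor k Ft1 → Divisor k Ft2 → Prop}
  {d1 : Place k Ft1 → Set (Place K F)} {d2 : Place k Ft2 → Set (Place K F)}

/-- **THE FIBRE FORMULA, first component, `dsum` form**: for EVERY common unit `u` of the two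
valuations and every place `Q'` of the first component relative to which all bad places can be
killed, `ord_{Q'} (red₁ u) = ∑_{v ∈ d1 Q'} ord_v u`. -/
theorem ord_red_eq_dsum1 (RC : RedCalc hc P Q C C₁ C₂ RedP d1 d2) {u : F} (h1 : u ∈ R1.Rw)
    (h2 : u ∈ R2.Rw) (hy1 : R1.red ⟨u, h1⟩ ≠ 0) (hy2 : R2.red ⟨u, h2⟩ ≠ 0) {Du : Divisor K F}
    (hDu : ∀ v : Place K F, Du v = v.ord u) (Q' : Place k Ft1)
    (hk : ∀ v : Place K F, ¬ IsGood d1 d2 v → Kill1 R1 R2 d1 d2 Q' v) :
    Q'.ord (R1.red ⟨u, h1⟩) = dsum Du (d1 Q') := by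
  refine le_antisymm (ord_red_le_dsum1 RC h1 h2 hy1 hy2 hDu Q' hk) ?_
  obtain ⟨i1, e1⟩ := exists_inv_mem R1 h1 hy1
  obtain ⟨i2, e2⟩ := exists_inv_mem R2 h2 hy2
  have hDu' : ∀ v : Place K F, (-Du) v = v.ord u⁻¹ := fun v => by
    rw [Finsupp.neg_apply, hDu v, v.ord_inv]
  have h := ord_red_le_dsum1 RC i1 i2 (by rw [e1]; exact inv_ne_zero hy1)
    (by rw [e2]; exact inv_ne_zero hy2) hDu' Q' hk
  rw [e1, Q'.ord_inv, dsum_neg] at h
  omega

/-- **THE FIBRE FORMULA, second component, `dsum` form.** -/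
theorem ord_red_eq_dsum2 (RC : RedCalc hc P Q C C₁ C₂ RedP d1 d2) {u : F} (h1 : u ∈ R1.Rw)
    (h2 : u ∈ R2.Rw) (hy1 : R1.red ⟨u, h1⟩ ≠ 0) (hy2 : R2.red ⟨u, h2⟩ ≠ 0) {Du : Divisor K F}
    (hDu : ∀ v : Place K F, Du v = v.ord u) (Q' : Place k Ft2)
    (hk : ∀ v : Place K F, ¬ IsGood d1 d2 v → Kill2 R1 R2 d1 d2 Q' v) :
    Q'.ord (R2.red ⟨u, h2⟩) = dsum Du (d2 Q') := by
  refine le_antisymm (ord_red_le_dsum2 RC h1 h2 hy1 hy2 hDu Q' hk) ?_
  obtain ⟨i1, e1⟩ := exists_inv_mem R1 h1 hy1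
  obtain ⟨i2, e2⟩ := exists_inv_mem R2 h2 hy2
  have hDu' : ∀ v : Place K F, (-Du) v = v.ord u⁻¹ := fun v => by
    rw [Finsupp.neg_apply, hDu v, v.ord_inv]
  have h := ord_red_le_dsum2 RC i1 i2 (by rw [e1]; exact inv_ne_zero hy1)
    (by rw [e2]; exact inv_ne_zero hy2) hDu' Q' hk
  rw [e2, Q'.ord_inv, dsum_neg] at h
  omega

/-- **THE FIBRE FORMULA ON THE NODAL FRAME WITHOUT NORMS**, in the binder form of `ROfSurj2` /
`FibreHyp2`: if every bad place can be killed relative to every place of `S1` and of `S2`, the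
fibre formula holds on `S1`, `S2` for every common unit. -/
theorem ff2_of_kill (RC : RedCalc hc P Q C C₁ C₂ RedP d1 d2) {S1 : Set (Place k Ft1)}
    {S2 : Set (Place k Ft2)}
    (hk1 : ∀ Q' ∈ S1, ∀ v : Place K F, ¬ IsGood d1 d2 v → Kill1 R1 R2 d1 d2 Q' v)
    (hk2 : ∀ Q' ∈ S2, ∀ v : Place K F, ¬ IsGood d1 d2 v → Kill2 R1 R2 d1 d2 Q' v) :
    ROfSurj2.FF2 R1 R2 d1 d2 S1 S2 := by
  intro y h1 h2 hy1 hy2 Dy hDy
  refine ⟨fun Q' hQ' => ?_, fun Q' hQ' => ?_⟩
  · rw [ord_red_eq_dsum1 RC h1 h2 hy1 hy2 hDy Q' (hk1 Q' hQ')]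
    exact Finset.sum_congr rfl fun v _ => hDy v
  · rw [ord_red_eq_dsum2 RC h1 h2 hy1 hy2 hDy Q' (hk2 Q' hQ')]
    exact Finset.sum_congr rfl fun v _ => hDy v

end Main

/-! ### the plug into the nodal frame -/

section Nodal

variable {hc : RedCompat R1 R2} {C : Divisor K F} {C₁ : Divisor k Ft1} {C₂ : Divisor k Ft2}
  {g c : ℤ} {n₀ : ℕ}
variable [FiniteResidues K F] [HasPrincipalDivisors K F] [Nonempty (Place K F)]
variable [FiniteResidues k Ft1] [HasPrincipalDivisors k Ft1] [Nonempty (Place k Ft1)]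
variable [FiniteResidues k Ft2] [HasPrincipalDivisors k Ft2] [Nonempty (Place k Ft2)]

/-- **the fibre formula of the nodal frame** (helper16's `NodalHyp`, discs `disc1 H`, `disc2 H`):
the ONLY binders are the kill functions of the places that are not `GoodPlace`s. -/
theorem ff2_of_kill_nodal (H : NodalHyp hc P Q C C₁ C₂ g c n₀) {S1 : Set (Place k Ft1)}
    {S2 : Set (Place k Ft2)}
    (hk1 : ∀ Q' ∈ S1, ∀ v : Place K F, ¬ GoodPlace H v →
      Kill1 R1 R2 (disc1 H) (disc2 H) Q' v)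
    (hk2 : ∀ Q' ∈ S2, ∀ v : Place K F, ¬ GoodPlace H v →
      Kill2 R1 R2 (disc1 H) (disc2 H) Q' v) :
    ROfSurj2.FF2 R1 R2 (disc1 H) (disc2 H) S1 S2 :=
  ff2_of_kill (FF2Plug.redCalc H)
    (fun Q' hQ' v hv => hk1 Q' hQ' v fun hg => hv (FF2Plug.isGood_iff_goodPlace.mpr hg))
    (fun Q' hQ' v hv => hk2 Q' hQ' v fun hg => hv (FF2Plug.isGood_iff_goodPlace.mpr hg))

end Nodal

end Fermat.Agent.GS.Nodal.FF2Kill

end
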