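/-
GATE-S (S33) / node [INST²](a), part FF2-TUBE (helper68): the fibre formula for ALL common units of
the two Gauss valuations of the nodal frame WITHOUT the norm identity `NormFibre.norm`.

`GS/Nodal/FF2.lean` (helper75) proves, from the `Red` calculus `RedCalc` alone, the INEQUALITY
  `∑_{v ∈ d_i Q'} ord_v u ≤ ord_{Q'} (red_i u)`            (`ord_red_ge_dsum1/2`)
for every common unit `u` all of whose POLES are good places.  Here the restriction on the poles is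
removed by cancelling the bad poles with TEST FUNCTIONS:

Let `Q'` be a place of the first component and `𝒯 ⊆ F` a set of functions such that
 (T1) every `t ∈ 𝒯` is a common unit, all poles of `t` are good and the fibre formula holds for `t`
      at `Q'`  (`IsTest1`);
 (T2) every place of `F` is good or a zero of some `t ∈ 𝒯`.
Then `ord_{Q'} (red₁ y) = ∑_{v ∈ d1 Q'} ord_v y` for EVERY common unit `y`
(`ord_red_eq_dsum_of_tests1`): multiply `y` by test functions vanishing at its bad poles until all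
poles are good, apply the inequality, subtract the test functions; then do the same for `y⁻¹`.

On the modular frame: `Q'` over a non-node value `z₀` of the chart `x`, `c₀` a lift of `z₀`,
`s := 1 / (x - c₀)`, `𝒯 := {s - a | a ∈ A}`.

* `ord_red_ge_dsum_of_tests1/2`, `ord_red_eq_dsum_of_tests1/2`;
* `ff2_of_tests` : the binder `ROfSurj2.FF2 R1 R2 d1 d2 S1 S2` of helper16's `fibreHyp1/2`.
-/
import Mathlib
import Fermat.Agent.GS.Nodal.FF2
import Fermat.Agent.GS.Nodal.ROfSurj2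

set_option autoImplicit false
set_option linter.unusedSectionVars false

noncomputable section

open AlgebraicCurve Classical

namespace Fermat.Agent.GS.Nodal.FF2Tube

open Fermat.Agent.RRh45 Fermat.Agent.GJ.S37MinDiv Fermat.Agent.GJ.J1 Fermat.Agent.GK.MultiVal
open Fermat.Agent.GK.NodalGraded Fermat.Agent.GS.Nodal.LSR2 Fermat.Agent.GS.Nodal.FF2

variable {K F k Ft1 Ft2 : Type*} [Field K] [Field F] [Algebra K F] [Field k]
  [Field Ft1] [Algebra k Ft1] [Field Ft2] [Algebra k Ft2]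

/-! ### units of a Gauss valuation ring -/

/-- an element of `Rw` with nonzero reduction is a unit of `Rw`. -/
theorem inv_mem_of_red_ne_zero {Ft : Type*} [Field Ft] [Algebra k Ft] (R : RedData K F k Ft)
    {y : F} (h : y ∈ R.Rw) (hy : R.red ⟨y, h⟩ ≠ 0) : y⁻¹ ∈ R.Rw := by
  have hu : IsUnit (⟨y, h⟩ : R.Rw) := by
    by_contra hnu
    exact hy ((R.red_eq_zero_iff _).mpr ((IsLocalRing.mem_maximalIdeal _).mpr hnu))
  obtain ⟨u, hu⟩ := hu
  have h' : y * ((↑u⁻¹ : R.Rw) : F) = 1 := by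
    have := congrArg Subtype.val (Units.mul_inv u)
    rw [hu] at this
    exact this
  rw [← eq_inv_of_mul_eq_one_right h']
  exact (↑u⁻¹ : R.Rw).2

theorem red_inv {Ft : Type*} [Field Ft] [Algebra k Ft] (R : RedData K F k Ft)
    {y : F} (h : y ∈ R.Rw) (hy : R.red ⟨y, h⟩ ≠ 0) (h' : y⁻¹ ∈ R.Rw) :
    R.red ⟨y⁻¹, h'⟩ = (R.red ⟨y, h⟩)⁻¹ := by
  have hy0 : y ≠ 0 := by
    rintro rfl
    exact hy (map_zero R.red)
  have e : (⟨y, h⟩ : R.Rw) * ⟨y⁻¹, h'⟩ = 1 := Subtype.ext (mul_inv_cancel₀ hy0)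
  have := congrArg R.red e
  rw [map_mul, map_one] at this
  exact eq_inv_of_mul_eq_one_right this

variable {R1 : RedData K F k Ft1} {R2 : RedData K F k Ft2}
variable {ι : Type*} {P : ι → Place k Ft1} {Q : ι → Place k Ft2}

/-! ### test functions -/

/-- **a test function at the place `Q'` of the first component**: a common unit with good poles for
which the fibre formula at `Q'` is known. -/
structure IsTest1 (R1 : RedData K F k Ft1) (R2 : RedData K F k Ft2)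
    (d1 : Place k Ft1 → Set (Place K F)) (d2 : Place k Ft2 → Set (Place K F))
    (Q' : Place k Ft1) (t : F) : Prop where
  mem1 : t ∈ R1.Rw
  mem2 : t ∈ R2.Rw
  red1 : R1.red ⟨t, mem1⟩ ≠ 0
  red2 : R2.red ⟨t, mem2⟩ ≠ 0
  pole_good : ∀ v : Place K F, v.ord t < 0 → IsGood d1 d2 v
  ff : ∀ Dt : Divisor K F, (∀ v : Place K F, Dt v = v.ord t) →
    Q'.ord (R1.red ⟨t, mem1⟩) = dsum Dt (d1 Q')

/-- **a test function at the place `Q'` of the second component.** -/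
structure IsTest2 (R1 : RedData K F k Ft1) (R2 : RedData K F k Ft2)
    (d1 : Place k Ft1 → Set (Place K F)) (d2 : Place k Ft2 → Set (Place K F))
    (Q' : Place k Ft2) (t : F) : Prop where
  mem1 : t ∈ R1.Rw
  mem2 : t ∈ R2.Rw
  red1 : R1.red ⟨t, mem1⟩ ≠ 0
  red2 : R2.red ⟨t, mem2⟩ ≠ 0
  pole_good : ∀ v : Place K F, v.ord t < 0 → IsGood d1 d2 v
  ff : ∀ Dt : Divisor K F, (∀ v : Place K F, Dt v = v.ord t) →
    Q'.ord (R2.red ⟨t, mem2⟩) = dsum Dt (d2 Q')

/-! ### the bad-pole measure -/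

section Measure

variable {α : Type*} (good : α → Prop)

/-- the contribution of `v` to the bad-pole measure. -/
def badTerm (D : α →₀ ℤ) (v : α) : ℤ := if good v then 0 else max (-(D v)) 0

/-- the total multiplicity of the poles of `D` at bad points. -/
def badPole (D : α →₀ ℤ) : ℤ := ∑ v ∈ D.support, badTerm good D v

theorem badTerm_nonneg (D : α →₀ ℤ) (v : α) : 0 ≤ badTerm good D v := by
  unfold badTerm
  split_ifs
  · exact le_rfl
  · exact le_max_right _ _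

theorem badPole_nonneg (D : α →₀ ℤ) : 0 ≤ badPole good D :=
  Finset.sum_nonneg fun v _ => badTerm_nonneg good D v

theorem badPole_eq_sum (D : α →₀ ℤ) {S : Finset α} (hS : D.support ⊆ S) :
    badPole good D = ∑ v ∈ S, badTerm good D v := by
  unfold badPole
  refine Finset.sum_subset hS fun v _ hv => ?_
  have h0 : D v = 0 := by
    by_contra h
    exact hv (Finsupp.mem_support_iff.mpr h)
  unfold badTerm
  rw [h0]
  simp

/-- a bad pole contributes. -/
theorem one_le_badPole {D : α →₀ ℤ} {v : α} (hv : ¬ good v) (hD : D v < 0) :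
    1 ≤ badPole good D := by
  have hmem : v ∈ D.support := Finsupp.mem_support_iff.mpr (by omega)
  have h1 : badTerm good D v ≤ badPole good D :=
    Finset.single_le_sum (f := badTerm good D) (fun w _ => badTerm_nonneg good D w) hmem
  have h2 : badTerm good D v = max (-(D v)) 0 := by
    unfold badTerm
    rw [if_neg hv]
  have h3 : 1 ≤ max (-(D v)) 0 := le_max_of_le_left (by omega)
  omega

/-- adding a divisor which is effective at the bad points and positive at a bad pole decreases the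
measure. -/
theorem badPole_add_lt {D T : α →₀ ℤ} (hT : ∀ w, ¬ good w → 0 ≤ T w) {v : α} (hv : ¬ good v)
    (hD : D v < 0) (hTv : 0 < T v) : badPole good (D + T) < badPole good D := by
  have hS1 : (D + T).support ⊆ D.support ∪ T.support := Finsupp.support_add
  rw [badPole_eq_sum good (D + T) hS1,
    badPole_eq_sum good D (Finset.subset_union_left (s₂ := T.support))]
  have hmem : v ∈ D.support ∪ T.support :=
    Finset.mem_union_left _ (Finsupp.mem_support_iff.mpr (by omega))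
  refine Finset.sum_lt_sum (fun w _ => ?_) ⟨v, hmem, ?_⟩
  · unfold badTerm
    by_cases hw : good w
    · rw [if_pos hw, if_pos hw]
    · rw [if_neg hw, if_neg hw, Finsupp.add_apply]
      have := hT w hw
      exact max_le_max (by omega) le_rfl
  · unfold badTerm
    rw [if_neg hv, if_neg hv, Finsupp.add_apply]
    have h1 : max (-(D v)) 0 = -(D v) := max_eq_left (by omega)
    rw [h1]
    exact max_lt (by omega) (by omega)

end Measure

/-! ### the inequality for all common units -/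

section Main

variable {hc : RedCompat R1 R2} {C : Divisor K F} {C₁ : Divisor k Ft1} {C₂ : Divisor k Ft2}
  {RedP : Divisor K F → Divisor k Ft1 → Divisor k Ft2 → Prop}
  {d1 : Place k Ft1 → Set (Place K F)} {d2 : Place k Ft2 → Set (Place K F)}

variable [HasPrincipalDivisors K F]

/-- **the inequality for ALL common units** (first component), by induction on the bad-pole
measure. -/
theorem ord_red_ge_dsum_of_tests1 (RC : RedCalc hc P Q C C₁ C₂ RedP d1 d2) {Q' : Place k Ft1}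
    (𝒯 : Set F) (hT1 : ∀ t ∈ 𝒯, IsTest1 R1 R2 d1 d2 Q' t)
    (hT2 : ∀ v : Place K F, IsGood d1 d2 v ∨ ∃ t ∈ 𝒯, 0 < v.ord t) :
    ∀ (n : ℕ) {y : F} (h1 : y ∈ R1.Rw) (h2 : y ∈ R2.Rw), R1.red ⟨y, h1⟩ ≠ 0 →
      R2.red ⟨y, h2⟩ ≠ 0 → ∀ {Dy : Divisor K F}, (∀ v : Place K F, Dy v = v.ord y) →
      badPole (IsGood d1 d2) Dy ≤ n → dsum Dy (d1 Q') ≤ Q'.ord (R1.red ⟨y, h1⟩) := by
  intro n
  induction n with
  | zero =>
    intro y h1 h2 hy1 hy2 Dy hDy hμ
    refine ord_red_ge_dsum1 RC h1 h2 hy1 hy2 hDy (fun v hv => ?_) Q'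
    by_contra hbad
    have := one_le_badPole (IsGood d1 d2) hbad (by rw [hDy v]; exact hv)
    omega
  | succ n ih =>
    intro y h1 h2 hy1 hy2 Dy hDy hμ
    by_cases hall : ∀ v : Place K F, v.ord y < 0 → IsGood d1 d2 v
    · exact ord_red_ge_dsum1 RC h1 h2 hy1 hy2 hDy hall Q'
    · push Not at hall
      obtain ⟨v, hvy, hvbad⟩ := hall
      obtain ⟨t, ht𝒯, htv⟩ := (hT2 v).resolve_left hvbad
      have hT := hT1 t ht𝒯
      have hy0 : y ≠ 0 := by
        rintro rfl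
        exact hy1 (map_zero R1.red)
      have ht0 : t ≠ 0 := by
        rintro rfl
        exact hT.red1 (map_zero R1.red)
      obtain ⟨Dt, hDt, -⟩ := HasPrincipalDivisors.exists_divisor (K := K) t ht0
      have m1 : y * t ∈ R1.Rw := mul_mem h1 hT.mem1
      have m2 : y * t ∈ R2.Rw := mul_mem h2 hT.mem2
      have hred1 : R1.red ⟨y * t, m1⟩ = R1.red ⟨y, h1⟩ * R1.red ⟨t, hT.mem1⟩ := by
        rw [← map_mul]; rfl
      have hred2 : R2.red ⟨y * t, m2⟩ = R2.red ⟨y, h2⟩ * R2.red ⟨t, hT.mem2⟩ := by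
        rw [← map_mul]; rfl
      have hp1 : R1.red ⟨y * t, m1⟩ ≠ 0 := by rw [hred1]; exact mul_ne_zero hy1 hT.red1
      have hp2 : R2.red ⟨y * t, m2⟩ ≠ 0 := by rw [hred2]; exact mul_ne_zero hy2 hT.red2
      have hD' : ∀ w : Place K F, (Dy + Dt) w = w.ord (y * t) := fun w => by
        rw [Finsupp.add_apply, hDy w, hDt w, w.ord_mul hy0 ht0]
      have hlt : badPole (IsGood d1 d2) (Dy + Dt) < badPole (IsGood d1 d2) Dy := by
        refine badPole_add_lt (IsGood d1 d2) (fun w hw => ?_) hvbad (by rw [hDy v]; exact hvy)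
          (by rw [hDt v]; exact htv)
        rw [hDt w]
        by_contra hneg
        exact hw (hT.pole_good w (by omega))
      have h := ih m1 m2 hp1 hp2 hD' (by omega)
      rw [hred1, Q'.ord_mul hy1 hT.red1, dsum_add, hT.ff Dt hDt] at h
      linarith

/-- **the inequality for ALL common units** (second component). -/
theorem ord_red_ge_dsum_of_tests2 (RC : RedCalc hc P Q C C₁ C₂ RedP d1 d2) {Q' : Place k Ft2}
    (𝒯 : Set F) (hT1 : ∀ t ∈ 𝒯, IsTest2 R1 R2 d1 d2 Q' t)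
    (hT2 : ∀ v : Place K F, IsGood d1 d2 v ∨ ∃ t ∈ 𝒯, 0 < v.ord t) :
    ∀ (n : ℕ) {y : F} (h1 : y ∈ R1.Rw) (h2 : y ∈ R2.Rw), R1.red ⟨y, h1⟩ ≠ 0 →
      R2.red ⟨y, h2⟩ ≠ 0 → ∀ {Dy : Divisor K F}, (∀ v : Place K F, Dy v = v.ord y) →
      badPole (IsGood d1 d2) Dy ≤ n → dsum Dy (d2 Q') ≤ Q'.ord (R2.red ⟨y, h2⟩) := by
  intro n
  induction n with
  | zero =>
    intro y h1 h2 hy1 hy2 Dy hDy hμ
    refine ord_red_ge_dsum2 RC h1 h2 hy1 hy2 hDy (fun v hv => ?_) Q'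
    by_contra hbad
    have := one_le_badPole (IsGood d1 d2) hbad (by rw [hDy v]; exact hv)
    omega
  | succ n ih =>
    intro y h1 h2 hy1 hy2 Dy hDy hμ
    by_cases hall : ∀ v : Place K F, v.ord y < 0 → IsGood d1 d2 v
    · exact ord_red_ge_dsum2 RC h1 h2 hy1 hy2 hDy hall Q'
    · push Not at hall
      obtain ⟨v, hvy, hvbad⟩ := hall
      obtain ⟨t, ht𝒯, htv⟩ := (hT2 v).resolve_left hvbad
      have hT := hT1 t ht𝒯
      have hy0 : y ≠ 0 := by
        rintro rfl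
        exact hy1 (map_zero R1.red)
      have ht0 : t ≠ 0 := by
        rintro rfl
        exact hT.red1 (map_zero R1.red)
      obtain ⟨Dt, hDt, -⟩ := HasPrincipalDivisors.exists_divisor (K := K) t ht0
      have m1 : y * t ∈ R1.Rw := mul_mem h1 hT.mem1
      have m2 : y * t ∈ R2.Rw := mul_mem h2 hT.mem2
      have hred1 : R1.red ⟨y * t, m1⟩ = R1.red ⟨y, h1⟩ * R1.red ⟨t, hT.mem1⟩ := by
        rw [← map_mul]; rfl
      have hred2 : R2.red ⟨y * t, m2⟩ = R2.red ⟨y, h2⟩ * R2.red ⟨t, hT.mem2⟩ := by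
        rw [← map_mul]; rfl
      have hp1 : R1.red ⟨y * t, m1⟩ ≠ 0 := by rw [hred1]; exact mul_ne_zero hy1 hT.red1
      have hp2 : R2.red ⟨y * t, m2⟩ ≠ 0 := by rw [hred2]; exact mul_ne_zero hy2 hT.red2
      have hD' : ∀ w : Place K F, (Dy + Dt) w = w.ord (y * t) := fun w => by
        rw [Finsupp.add_apply, hDy w, hDt w, w.ord_mul hy0 ht0]
      have hlt : badPole (IsGood d1 d2) (Dy + Dt) < badPole (IsGood d1 d2) Dy := by
        refine badPole_add_lt (IsGood d1 d2) (fun w hw => ?_) hvbad (by rw [hDy v]; exact hvy)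
          (by rw [hDt v]; exact htv)
        rw [hDt w]
        by_contra hneg
        exact hw (hT.pole_good w (by omega))
      have h := ih m1 m2 hp1 hp2 hD' (by omega)
      rw [hred2, Q'.ord_mul hy2 hT.red2, dsum_add, hT.ff Dt hDt] at h
      linarith

/-- the data of the inverse of a common unit. -/
theorem inv_data {y : F} (h1 : y ∈ R1.Rw) (h2 : y ∈ R2.Rw) (hy1 : R1.red ⟨y, h1⟩ ≠ 0)
    (hy2 : R2.red ⟨y, h2⟩ ≠ 0) {Dy : Divisor K F} (hDy : ∀ v : Place K F, Dy v = v.ord y) :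
    ∃ (k1 : y⁻¹ ∈ R1.Rw) (k2 : y⁻¹ ∈ R2.Rw),
      R1.red ⟨y⁻¹, k1⟩ = (R1.red ⟨y, h1⟩)⁻¹ ∧ R2.red ⟨y⁻¹, k2⟩ = (R2.red ⟨y, h2⟩)⁻¹ ∧
      ∀ v : Place K F, (-Dy) v = v.ord y⁻¹ := by
  refine ⟨inv_mem_of_red_ne_zero R1 h1 hy1, inv_mem_of_red_ne_zero R2 h2 hy2,
    red_inv R1 h1 hy1 _, red_inv R2 h2 hy2 _, fun v => ?_⟩
  rw [Finsupp.neg_apply, hDy v, Place.ord_inv]

/-- **THE FIBRE FORMULA FOR ALL COMMON UNITS from test functions** (first component). -/
theorem ord_red_eq_dsum_of_tests1 (RC : RedCalc hc P Q C C₁ C₂ RedP d1 d2) {Q' : Place k Ft1}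
    (𝒯 : Set F) (hT1 : ∀ t ∈ 𝒯, IsTest1 R1 R2 d1 d2 Q' t)
    (hT2 : ∀ v : Place K F, IsGood d1 d2 v ∨ ∃ t ∈ 𝒯, 0 < v.ord t)
    {y : F} (h1 : y ∈ R1.Rw) (h2 : y ∈ R2.Rw) (hy1 : R1.red ⟨y, h1⟩ ≠ 0)
    (hy2 : R2.red ⟨y, h2⟩ ≠ 0) {Dy : Divisor K F} (hDy : ∀ v : Place K F, Dy v = v.ord y) :
    Q'.ord (R1.red ⟨y, h1⟩) = dsum Dy (d1 Q') := by
  have hA := ord_red_ge_dsum_of_tests1 RC 𝒯 hT1 hT2 (badPole (IsGood d1 d2) Dy).toNat h1 h2 hy1 hy2
    hDy (Int.self_le_toNat _)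
  obtain ⟨k1, k2, e1, e2, hDi⟩ := inv_data h1 h2 hy1 hy2 hDy
  have hB := ord_red_ge_dsum_of_tests1 RC 𝒯 hT1 hT2 (badPole (IsGood d1 d2) (-Dy)).toNat k1 k2
    (by rw [e1]; exact inv_ne_zero hy1) (by rw [e2]; exact inv_ne_zero hy2) hDi
    (Int.self_le_toNat _)
  rw [e1, Place.ord_inv, dsum_neg] at hB
  omega

/-- **THE FIBRE FORMULA FOR ALL COMMON UNITS from test functions** (second component). -/
theorem ord_red_eq_dsum_of_tests2 (RC : RedCalc hc P Q C C₁ C₂ RedP d1 d2) {Q' : Place k Ft2}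
    (𝒯 : Set F) (hT1 : ∀ t ∈ 𝒯, IsTest2 R1 R2 d1 d2 Q' t)
    (hT2 : ∀ v : Place K F, IsGood d1 d2 v ∨ ∃ t ∈ 𝒯, 0 < v.ord t)
    {y : F} (h1 : y ∈ R1.Rw) (h2 : y ∈ R2.Rw) (hy1 : R1.red ⟨y, h1⟩ ≠ 0)
    (hy2 : R2.red ⟨y, h2⟩ ≠ 0) {Dy : Divisor K F} (hDy : ∀ v : Place K F, Dy v = v.ord y) :
    Q'.ord (R2.red ⟨y, h2⟩) = dsum Dy (d2 Q') := by
  have hA := ord_red_ge_dsum_of_tests2 RC 𝒯 hT1 hT2 (badPole (IsGood d1 d2) Dy).toNat h1 h2 hy1 hy2
    hDy (Int.self_le_toNat _)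
  obtain ⟨k1, k2, e1, e2, hDi⟩ := inv_data h1 h2 hy1 hy2 hDy
  have hB := ord_red_ge_dsum_of_tests2 RC 𝒯 hT1 hT2 (badPole (IsGood d1 d2) (-Dy)).toNat k1 k2
    (by rw [e1]; exact inv_ne_zero hy1) (by rw [e2]; exact inv_ne_zero hy2) hDi
    (Int.self_le_toNat _)
  rw [e2, Place.ord_inv, dsum_neg] at hB
  omega

/-- **the binder `FF2` of `GS/Nodal/ROfSurj2.lean` / `GS/Nodal/FibreHyp2.lean` from test functions
at the smooth places.** -/
theorem ff2_of_tests (RC : RedCalc hc P Q C C₁ C₂ RedP d1 d2)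
    {S1 : Set (Place k Ft1)} {S2 : Set (Place k Ft2)}
    (hS1 : ∀ Q' ∈ S1, ∃ 𝒯 : Set F, (∀ t ∈ 𝒯, IsTest1 R1 R2 d1 d2 Q' t) ∧
      ∀ v : Place K F, IsGood d1 d2 v ∨ ∃ t ∈ 𝒯, 0 < v.ord t)
    (hS2 : ∀ Q' ∈ S2, ∃ 𝒯 : Set F, (∀ t ∈ 𝒯, IsTest2 R1 R2 d1 d2 Q' t) ∧
      ∀ v : Place K F, IsGood d1 d2 v ∨ ∃ t ∈ 𝒯, 0 < v.ord t) :
    ROfSurj2.FF2 R1 R2 d1 d2 S1 S2 := by
  intro y h1 h2 hy1 hy2 Dy hDy
  refine ⟨fun Q' hQ' => ?_, fun Q' hQ' => ?_⟩
  · obtain ⟨𝒯, hT1, hT2⟩ := hS1 Q' hQ'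
    rw [ord_red_eq_dsum_of_tests1 RC 𝒯 hT1 hT2 h1 h2 hy1 hy2 hDy]
    exact Finset.sum_congr rfl fun v _ => hDy v
  · obtain ⟨𝒯, hT1, hT2⟩ := hS2 Q' hQ'
    rw [ord_red_eq_dsum_of_tests2 RC 𝒯 hT1 hT2 h1 h2 hy1 hy2 hDy]
    exact Finset.sum_congr rfl fun v _ => hDy v

end Main

end Fermat.Agent.GS.Nodal.FF2Tube
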