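/-
GATE-S / node [INST²](a), plug (helper48): the binder `ROfSurj2.FF2` of `GS/Nodal/ROfSurj2.lean`
(consumed by helper16's `FibreHyp2.fibreHyp1/2`) is discharged by helper75's
`FF2.ord_red_eq_sum_ball2`, with `S_i :=` the places of the `i`-th component over a non-node value
of the chart.  Corollaries: the `ROfSurj2` package (zeros / poles of `red_i y` come from the disc,
the discs over non-node values are nonempty) for the nodal frame, with no binder besides
`NodalHyp`, `RedCalc`, `NormFibre` and "the pencil divisor is supported on good places".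
-/
import Mathlib
import Fermat.Agent.GS.Nodal.FF2
import Fermat.Agent.GS.Nodal.ROfSurj2

set_option autoImplicit false

noncomputable section

open AlgebraicCurve

namespace Fermat.Agent.GS.Nodal.ROfSurj2

open Fermat.Agent.RRh45 Fermat.Agent.GJ.J1 Fermat.Agent.GK.MultiVal
open Fermat.Agent.GS.Nodal.LSR2 Fermat.Agent.GS.Nodal.FF2

variable {K F k Ft1 Ft2 : Type*} [Field K] [Field F] [Algebra K F] [Field k]
  [Field Ft1] [Algebra k Ft1] [Field Ft2] [Algebra k Ft2]
variable {R1 : RedData K F k Ft1} {R2 : RedData K F k Ft2}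
variable {ι : Type*} {P : ι → Place k Ft1} {Q : ι → Place k Ft2}
variable [FiniteResidues K F] [HasPrincipalDivisors K F] [Nonempty (Place K F)]
  [FiniteResidues k Ft1] [HasPrincipalDivisors k Ft1] [Nonempty (Place k Ft1)]
  [FiniteResidues k Ft2] [HasPrincipalDivisors k Ft2] [Nonempty (Place k Ft2)]
variable {hc : RedCompat R1 R2} {C : Divisor K F} {C₁ : Divisor k Ft1} {C₂ : Divisor k Ft2}
  {g c : ℤ} {n₀ : ℕ}
variable {RedP : Divisor K F → Divisor k Ft1 → Divisor k Ft2 → Prop}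
  {d1 : Place k Ft1 → Set (Place K F)} {d2 : Place k Ft2 → Set (Place K F)}
  {Zt : Type*} {πF : Place K F → Zt} {π1 : Place k Ft1 → Zt} {π2 : Place k Ft2 → Zt}
  {fib1 : Zt → Finset (Place k Ft1)} {fib2 : Zt → Finset (Place k Ft2)}

/-- the places of the first component over a non-node value of the chart. -/
def smooth1 (P : ι → Place k Ft1) (Q : ι → Place k Ft2) (π1 : Place k Ft1 → Zt)
    (π2 : Place k Ft2 → Zt) : Set (Place k Ft1) :=
  {Q' | (∀ j, π1 (P j) ≠ π1 Q') ∧ (∀ j, π2 (Q j) ≠ π1 Q')}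

/-- the places of the second component over a non-node value of the chart. -/
def smooth2 (P : ι → Place k Ft1) (Q : ι → Place k Ft2) (π1 : Place k Ft1 → Zt)
    (π2 : Place k Ft2 → Zt) : Set (Place k Ft2) :=
  {Q' | (∀ j, π1 (P j) ≠ π2 Q') ∧ (∀ j, π2 (Q j) ≠ π2 Q')}

/-- **the plug**: helper75's fibre formula for common units is the binder `FF2`. -/
theorem ff2_of_ball2 (H : NodalHyp hc P Q C C₁ C₂ g c n₀)
    (RC : RedCalc hc P Q C C₁ C₂ RedP d1 d2)
    (NF : NormFibre (R1 := R1) (R2 := R2) P Q d1 d2 πF π1 π2 fib1 fib2)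
    (hC : ∀ v ∈ C.support, IsGood d1 d2 v) :
    FF2 R1 R2 d1 d2 (smooth1 P Q π1 π2) (smooth2 P Q π1 π2) := by
  intro y h1 h2 hy1 hy2 Dy hDy
  obtain ⟨hA, hB⟩ := ord_red_eq_sum_ball2 H RC NF hC h1 h2 hy1 hy2 hDy
  refine ⟨fun Q' hQ' => ?_, fun Q' hQ' => ?_⟩
  · exact hA Q' hQ'.1 hQ'.2
  · exact hB Q' hQ'.1 hQ'.2

/-- the discs over the non-node values are nonempty: the place reduction is onto the smooth
places (first component). -/
theorem d1_nonempty_of_ball2 (H : NodalHyp hc P Q C C₁ C₂ g c n₀)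
    (RC : RedCalc hc P Q C C₁ C₂ RedP d1 d2)
    (NF : NormFibre (R1 := R1) (R2 := R2) P Q d1 d2 πF π1 π2 fib1 fib2)
    (hC : ∀ v ∈ C.support, IsGood d1 d2 v) (hinc : Incomparable ![R1.Rw, R2.Rw])
    {Q' : Place k Ft1} (hQ' : Q' ∈ smooth1 P Q π1 π2) : (d1 Q').Nonempty :=
  d1_nonempty (ff2_of_ball2 H RC NF hC) (pairSurj_of_incomparable hinc) hQ'

theorem d2_nonempty_of_ball2 (H : NodalHyp hc P Q C C₁ C₂ g c n₀)
    (RC : RedCalc hc P Q C C₁ C₂ RedP d1 d2)
    (NF : NormFibre (R1 := R1) (R2 := R2) P Q d1 d2 πF π1 π2 fib1 fib2)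
    (hC : ∀ v ∈ C.support, IsGood d1 d2 v) (hinc : Incomparable ![R1.Rw, R2.Rw])
    {Q' : Place k Ft2} (hQ' : Q' ∈ smooth2 P Q π1 π2) : (d2 Q').Nonempty :=
  d2_nonempty (ff2_of_ball2 H RC NF hC) (pairSurj_of_incomparable hinc) hQ'

end Fermat.Agent.GS.Nodal.ROfSurj2
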